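import Mathlib
import Fermat.Prelude.Def_FLTPrelim_Ramification
import Fermat.Prelude.Def_FLTPrelim_CofixedLine
import Fermat.Agent.S51.TorsionLib

set_option autoImplicit false

open WeierstrassCurve WeierstrassCurve.Affine WeierstrassCurve.Affine.Point

namespace Fermat.Agent.S13

local notation "Qbar" => AlgebraicClosure ℚ
local notation "GQ" => (AlgebraicClosure ℚ ≃ₐ[ℚ] AlgebraicClosure ℚ)

section linear

variable {p : ℕ} {W : Affine ℚ}

/-- the Galois action on the torsion commutes with the `ZMod p`-scalars -/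
theorem smul_zmod_smul (σ : GQ) (c : ZMod p)
    (x : Submodule.torsionBy ℤ (W⁄Qbar).Point p) : σ • (c • x) = c • (σ • x) := by
  obtain ⟨n, rfl⟩ := ZMod.intCast_surjective c
  rw [Int.cast_smul_eq_zsmul, Int.cast_smul_eq_zsmul]
  exact map_zsmul (DistribSMul.toAddMonoidHom (Submodule.torsionBy ℤ (W⁄Qbar).Point p) σ) n x

/-- the subgroup of the `σ` acting trivially on a stable submodule `N` -/
def fixSub (N : Submodule (ZMod p) (Submodule.torsionBy ℤ (W⁄Qbar).Point p)) : Subgroup GQ where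
  carrier := {σ | ∀ x ∈ N, σ • x = x}
  one_mem' := fun x _ => one_smul _ x
  mul_mem' := by
    intro σ τ hσ hτ x hx
    rw [mul_smul, hτ x hx, hσ x hx]
  inv_mem' := by
    intro σ hσ x hx
    rw [inv_smul_eq_iff, hσ x hx]

theorem mem_fixSub {N : Submodule (ZMod p) (Submodule.torsionBy ℤ (W⁄Qbar).Point p)} {σ : GQ} :
    σ ∈ fixSub N ↔ ∀ x ∈ N, σ • x = x := Iff.rfl

theorem fixSub_normal {N : Submodule (ZMod p) (Submodule.torsionBy ℤ (W⁄Qbar).Point p)}
    (hN : IsGaloisStable ℚ N) : (fixSub N).Normal := by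
  constructor
  intro σ hσ τ x hx
  rw [mul_smul, mul_smul, hσ _ (hN τ⁻¹ x hx), smul_inv_smul]

/-- the subgroup of the `σ` acting trivially on the quotient by a stable submodule `N` -/
def cofixSub (N : Submodule (ZMod p) (Submodule.torsionBy ℤ (W⁄Qbar).Point p))
    (hN : IsGaloisStable ℚ N) : Subgroup GQ where
  carrier := {σ | ∀ x, σ • x - x ∈ N}
  one_mem' := fun x => by rw [one_smul, sub_self]; exact N.zero_mem
  mul_mem' := by
    intro σ τ hσ hτ x
    have h1 : (σ * τ) • x - x = σ • (τ • x - x) + (σ • x - x) := by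
      rw [mul_smul, smul_sub]; abel
    rw [h1]
    exact N.add_mem (hN σ _ (hτ x)) (hσ x)
  inv_mem' := by
    intro σ hσ x
    have h1 : σ⁻¹ • x - x = - (σ⁻¹ • (σ • x - x)) := by
      rw [smul_sub, inv_smul_smul]; abel
    rw [h1]
    exact N.neg_mem (hN σ⁻¹ _ (hσ x))

theorem mem_cofixSub {N : Submodule (ZMod p) (Submodule.torsionBy ℤ (W⁄Qbar).Point p)}
    {hN : IsGaloisStable ℚ N} {σ : GQ} :
    σ ∈ cofixSub N hN ↔ ∀ x, σ • x - x ∈ N := Iff.rfl

theorem cofixSub_normal {N : Submodule (ZMod p) (Submodule.torsionBy ℤ (W⁄Qbar).Point p)}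
    (hN : IsGaloisStable ℚ N) : (cofixSub N hN).Normal := by
  constructor
  intro σ hσ τ x
  have h1 : (τ * σ * τ⁻¹) • x - x = τ • (σ • (τ⁻¹ • x) - τ⁻¹ • x) := by
    rw [mul_smul, mul_smul, smul_sub, smul_inv_smul]
  rw [h1]
  exact hN τ _ (hσ _)

end linear

section abstract

variable {F : Type*} [Field F] {V : Type*} [AddCommGroup V] [Module F V]

/-- a unipotent endomorphism acts trivially on a stable line and on the quotient by it,
if the quotient is a line too -/
theorem unipotent_on_flag (f : V →ₗ[F] V) (N M : Submodule F V)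
    (hfN : ∀ x ∈ N, f x ∈ N)
    (hD1 : ∀ x ∈ N, x ≠ 0 → ∀ y ∈ N, ∃ c : F, y = c • x)
    (hD2 : ∀ x, x ∉ N → ∀ y, ∃ c : F, y - c • x ∈ N)
    (hN1 : N ≠ ⊤)
    (hM : ∀ x ∈ M, f x = x) (hfM : ∀ x, f x - x ∈ M) :
    (∀ x ∈ N, f x = x) ∧ (∀ x, f x - x ∈ N) := by
  have hg : ∀ x, f (f x - x) = f x - x := fun x => hM _ (hfM x)
  have h1 : ∀ x ∈ N, f x = x := by
    intro x hx
    by_cases hx0 : x = 0
    · rw [hx0, _root_.map_zero]
    obtain ⟨c, hc⟩ := hD1 x hx hx0 (f x) (hfN x hx)
    have h2 := hg x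
    rw [hc, map_sub, map_smul, hc] at h2
    have h3 : ((c - 1) * (c - 1)) • x = 0 := by
      have : ((c - 1) * (c - 1)) • x = (c • c • x - c • x) - (c • x - x) := by
        rw [mul_smul, sub_smul, sub_smul, one_smul, one_smul, smul_sub]
      rw [this, h2, sub_self]
    rcases smul_eq_zero.mp h3 with h4 | h4
    · have h5 : c - 1 = 0 := by
        rcases mul_eq_zero.mp h4 with h | h <;> exact h
      rw [hc, sub_eq_zero.mp h5, one_smul]
    · exact absurd h4 hx0
  refine ⟨h1, ?_⟩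
  obtain ⟨x, hx⟩ : ∃ x, x ∉ N := by
    by_contra h
    push Not at h
    exact hN1 (eq_top_iff.mpr fun x _ => h x)
  obtain ⟨c, hc⟩ := hD2 x hx (f x)
  set n := f x - c • x with hn
  have hfx : f x = c • x + n := by rw [hn]; abel
  have hfn : f n = n := h1 n hc
  have h2 := hg x
  have h3 : ((c - 1) * (c - 1)) • x = (1 - c) • n := by
    have e1 : f (f x - x) = c • (c • x + n) + n - (c • x + n) := by
      rw [map_sub, hfx, map_add, map_smul, hfx, hfn]
    rw [e1, hfx] at h2
    have e2 : ((c - 1) * (c - 1)) • x - (1 - c) • n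
        = (c • (c • x + n) + n - (c • x + n)) - (c • x + n - x) := by
      rw [mul_smul, sub_smul, sub_smul, sub_smul, one_smul, one_smul, one_smul, smul_sub, smul_add]
      abel
    have e3 := sub_eq_zero.mpr h2
    rw [← e2] at e3
    exact sub_eq_zero.mp e3
  have hc1 : c = 1 := by
    by_contra hne
    have hne' : (c - 1) * (c - 1) ≠ 0 := mul_ne_zero (sub_ne_zero.mpr hne) (sub_ne_zero.mpr hne)
    apply hx
    have h4 : x = ((c - 1) * (c - 1))⁻¹ • ((1 - c) • n) := by
      rw [← h3, smul_smul, inv_mul_cancel₀ hne', one_smul]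
    rw [h4]
    exact N.smul_mem _ (N.smul_mem _ hc)
  have hx1 : f x - x ∈ N := by
    have : f x - x = n := by rw [hn, hc1, one_smul]
    rw [this]; exact hc
  intro y
  obtain ⟨d, hd⟩ := hD2 x hx y
  have h5 : f y - y = d • (f x - x) + (f (y - d • x) - (y - d • x)) := by
    rw [map_sub, map_smul, smul_sub]; abel
  rw [h5, h1 _ hd, sub_self, add_zero]
  exact N.smul_mem _ hx1

/-- in a module with at most `p ^ 2` elements the quotient by a nonzero submodule is generated
by each of its nonzero elements -/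
theorem exists_smul_sub_mem {p : ℕ} [hp : Fact p.Prime] {G : Type*} [AddCommGroup G]
    [Module (ZMod p) G] [Finite G] (hcard : Nat.card G ≤ p ^ 2) (N : Submodule (ZMod p) G)
    (hbot : N ≠ ⊥) {P : G} (hP : P ∉ N) (Q : G) :
    ∃ k : ZMod p, Q - k • P ∈ N := by
  classical
  have : Fintype G := Fintype.ofFinite G
  have hfin : Module.Finite (ZMod p) G := Module.Finite.of_finite
  have h1 : Fintype.card G = p ^ Module.finrank (ZMod p) G := by
    rw [Module.card_eq_pow_finrank (K := ZMod p) (V := G), ZMod.card]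
  have h2 : Module.finrank (ZMod p) G ≤ 2 := by
    rw [Nat.card_eq_fintype_card, h1] at hcard
    exact (Nat.pow_le_pow_iff_right hp.out.one_lt).mp hcard
  have h3 : 0 < Module.finrank (ZMod p) N := by
    rw [Module.finrank_pos_iff_exists_ne_zero]
    obtain ⟨x, hx, hx0⟩ := (Submodule.ne_bot_iff N).mp hbot
    exact ⟨⟨x, hx⟩, fun h => hx0 (congrArg Subtype.val h)⟩
  have h4 := Submodule.finrank_quotient_add_finrank N
  have h5 : 0 < Module.finrank (ZMod p) (G ⧸ N) := by
    rw [Module.finrank_pos_iff_exists_ne_zero]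
    exact ⟨N.mkQ P, fun h => hP ((Submodule.Quotient.mk_eq_zero N).mp h)⟩
  have h6 : Module.finrank (ZMod p) (G ⧸ N) = 1 := by omega
  obtain ⟨c, hc⟩ := (finrank_eq_one_iff_of_nonzero' (N.mkQ P)
    (fun h => hP ((Submodule.Quotient.mk_eq_zero N).mp h))).mp h6 (N.mkQ Q)
  refine ⟨c, ?_⟩
  rw [← Submodule.Quotient.mk_eq_zero N, Submodule.Quotient.mk_sub, Submodule.Quotient.mk_smul]
  exact sub_eq_zero.mpr hc.symm

end abstract

section coords

variable {W : Affine ℚ}

/-- the coordinates of a point -/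
noncomputable def coordSet {E : Affine Qbar} : E.Point → Finset Qbar
  | .zero => ∅
  | .some x y _ => {x, y}

theorem smul_eq_of_coordSet (σ : GQ) (x : (W⁄Qbar).Point)
    (h : ∀ s ∈ coordSet x, σ s = s) : σ • x = x := by
  cases x with
  | zero => rfl
  | some x y hxy =>
    obtain ⟨h', e⟩ := Fermat.Agent.S51.smul_some (W' := W) σ hxy
    rw [e]
    have hx : σ x = x := h x (by simp [coordSet])
    have hy : σ y = y := h y (by simp [coordSet])
    simp only [hx, hy]

/-- realises the equation lemmas of the definitions of this module here -/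
theorem assembly_defs_realised {p : ℕ} {W : Affine ℚ} {E : Affine Qbar} (x : E.Point)
    (N : Submodule (ZMod p) (Submodule.torsionBy ℤ (W⁄Qbar).Point p))
    (hN : IsGaloisStable ℚ N) : True := by
  have := @coordSet.eq_1 E
  have := @coordSet.eq_2 E
  have := @coordSet.eq_def E x
  have := @coordSet.eq_unfold
  have := @fixSub.eq_1 p W N
  have := @fixSub.eq_def p W N
  have := @fixSub.eq_unfold
  have := @cofixSub.eq_1 p W N hN
  have := @cofixSub.eq_def p W N hN
  have := @cofixSub.eq_unfold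
  have h : coordSet x = coordSet x := by
    unfold coordSet
    split
    · rfl
    · rfl
  trivial

end coords

section main

/-- (A1) the assembly of S13: a reducible Frey representation has a cofixed line. The inputs are
(T1) nontriviality and (T2) the bound on the `p`-torsion, (L2) unipotence of the inertia at `2`,
(L2') absence of rational `p`-torsion, (Lp) the uniform dichotomy at `p`, (E) Minkowski and
(S05) the triviality of the inertia at the other primes. -/
theorem s13_of_parts (P : FreyPackage)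
    (T1 : Nontrivial (Submodule.torsionBy ℤ (P.freyCurve⁄Qbar).Point P.p))
    (T2 : Finite (Submodule.torsionBy ℤ (P.freyCurve⁄Qbar).Point P.p) ∧
      Nat.card (Submodule.torsionBy ℤ (P.freyCurve⁄Qbar).Point P.p) ≤ P.p ^ 2)
    (L2 : ∀ A : ValuationSubring Qbar, A.LiesOverPrime 2 → ∀ σ ∈ A.inertiaSubgroupIn ℚ,
      ∃ M : Submodule (ZMod P.p) (Submodule.torsionBy ℤ (P.freyCurve⁄Qbar).Point P.p),
        (∀ x ∈ M, σ • x = x) ∧
          (∀ x : Submodule.torsionBy ℤ (P.freyCurve⁄Qbar).Point P.p, σ • x - x ∈ M))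
    (L2' : ∀ x : Submodule.torsionBy ℤ (P.freyCurve⁄Qbar).Point P.p,
      (∀ σ : GQ, σ • x = x) → x = 0)
    (Lp : ∀ N : Submodule (ZMod P.p) (Submodule.torsionBy ℤ (P.freyCurve⁄Qbar).Point P.p),
      (∀ σ : GQ, ∀ x ∈ N, σ • x ∈ N) → N ≠ ⊥ → N ≠ ⊤ →
      (∀ A : ValuationSubring Qbar, A.LiesOverPrime P.p →
        ∀ σ ∈ A.inertiaSubgroupIn ℚ, ∀ x ∈ N, σ • x = x) ∨
      (∀ A : ValuationSubring Qbar, A.LiesOverPrime P.p →
        ∀ σ ∈ A.inertiaSubgroupIn ℚ,
          ∀ x : Submodule.torsionBy ℤ (P.freyCurve⁄Qbar).Point P.p, σ • x - x ∈ N))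
    (E : ∀ H : Subgroup GQ, H.Normal → ∀ S : Finset Qbar,
      (∀ σ : GQ, (∀ s ∈ S, σ s = s) → σ ∈ H) →
      (∀ q : ℕ, q.Prime → ∀ A : ValuationSubring Qbar, A.LiesOverPrime q →
        A.inertiaSubgroupIn ℚ ≤ H) → H = ⊤)
    (U : ∀ q : ℕ, q.Prime → q ≠ 2 → q ≠ P.p → P.GaloisRepUnramifiedAt q)
    (hred : ¬ GaloisRepIsIrreducible (K := AlgebraicClosure ℚ) ℚ P.freyCurve P.p) :
    HasGaloisStableCofixedLine (K := AlgebraicClosure ℚ) ℚ P.freyCurve P.p := by
  classical
  have : Fact P.p.Prime := ⟨P.pp⟩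
  have := T2.1
  -- the stable line
  obtain ⟨N, hN, hN0, hN1⟩ : ∃ N : Submodule (ZMod P.p)
      (Submodule.torsionBy ℤ (P.freyCurve⁄Qbar).Point P.p),
      IsGaloisStable ℚ N ∧ N ≠ ⊥ ∧ N ≠ ⊤ := by
    by_contra h
    push Not at h
    refine hred ⟨T1, fun N hN => ?_⟩
    by_contra h2
    push Not at h2
    exact h2.2 (h N hN h2.1)
  -- dimensions
  have hD1 : ∀ x ∈ N, x ≠ 0 → ∀ y ∈ N, ∃ c : ZMod P.p, y = c • x := fun x hx hx0 y hy =>
    Fermat.Agent.S51.exists_smul_eq_of_mem T2.2 N hN1 hx hx0 hy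
  have hD2 : ∀ x, x ∉ N → ∀ y, ∃ c : ZMod P.p, y - c • x ∈ N := fun x hx y =>
    exists_smul_sub_mem T2.2 N hN0 hx y
  -- the finite set of coordinates
  let _ : Fintype (Submodule.torsionBy ℤ (P.freyCurve⁄Qbar).Point P.p) := Fintype.ofFinite _
  set S : Finset Qbar := (Finset.univ : Finset
    (Submodule.torsionBy ℤ (P.freyCurve⁄Qbar).Point P.p)).biUnion (fun x => coordSet x.1) with hS
  have hfix : ∀ σ : GQ, (∀ s ∈ S, σ s = s) →
      ∀ x : Submodule.torsionBy ℤ (P.freyCurve⁄Qbar).Point P.p, σ • x = x := by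
    intro σ hσ x
    apply Subtype.ext
    exact smul_eq_of_coordSet (W := P.freyCurve) σ x.1 (fun s hs => hσ s
      (Finset.mem_biUnion.mpr ⟨x, Finset.mem_univ _, hs⟩))
  -- unipotent elements
  have huni : ∀ σ : GQ, (∃ M : Submodule (ZMod P.p)
      (Submodule.torsionBy ℤ (P.freyCurve⁄Qbar).Point P.p),
      (∀ x ∈ M, σ • x = x) ∧ (∀ x, σ • x - x ∈ M)) →
      (∀ x ∈ N, σ • x = x) ∧ (∀ x, σ • x - x ∈ N) := by
    rintro σ ⟨M, hM1, hM2⟩
    let f : Submodule.torsionBy ℤ (P.freyCurve⁄Qbar).Point P.p →ₗ[ZMod P.p]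
        Submodule.torsionBy ℤ (P.freyCurve⁄Qbar).Point P.p :=
      { toFun := fun x => σ • x
        map_add' := fun x y => smul_add σ x y
        map_smul' := fun c x => smul_zmod_smul (W := P.freyCurve) σ c x }
    exact unipotent_on_flag f N M (fun x hx => hN σ x hx) hD1 hD2 hN1 hM1 hM2
  -- inertia away from `p`
  have haway : ∀ q : ℕ, q.Prime → q ≠ P.p → ∀ A : ValuationSubring Qbar, A.LiesOverPrime q →
      ∀ σ ∈ A.inertiaSubgroupIn ℚ, (∀ x ∈ N, σ • x = x) ∧ (∀ x, σ • x - x ∈ N) := by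
    intro q hq hqp A hA σ hσ
    by_cases hq2 : q = 2
    · subst hq2
      exact huni σ (L2 A hA σ hσ)
    · have h1 : ∀ x : Submodule.torsionBy ℤ (P.freyCurve⁄Qbar).Point P.p, σ • x = x :=
        fun x => U q hq hq2 hqp A hA σ hσ x
      exact ⟨fun x _ => h1 x, fun x => by rw [h1 x, sub_self]; exact N.zero_mem⟩
  rcases Lp N hN hN0 hN1 with hp1 | hp2
  · -- `χ₁` is unramified everywhere: rational torsion, impossible
    exfalso
    have h1 : fixSub (W := P.freyCurve) N = ⊤ := by
      refine E (fixSub (W := P.freyCurve) N) (fixSub_normal hN) S (fun σ hσ x _ => hfix σ hσ x) ?_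
      intro q hq A hA σ hσ
      by_cases hqp : q = P.p
      · subst hqp
        exact hp1 A hA σ hσ
      · exact (haway q hq hqp A hA σ hσ).1
    obtain ⟨x, hx, hx0⟩ := (Submodule.ne_bot_iff N).mp hN0
    refine hx0 (L2' x fun σ => ?_)
    have : σ ∈ fixSub (W := P.freyCurve) N := by rw [h1]; exact Subgroup.mem_top σ
    exact this x hx
  · -- `χ₂` is unramified everywhere: `N` is cofixed
    have h1 : cofixSub (W := P.freyCurve) N hN = ⊤ := by
      refine E (cofixSub (W := P.freyCurve) N hN) (cofixSub_normal hN) S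
        (fun σ hσ x => by rw [hfix σ hσ x, sub_self]; exact N.zero_mem) ?_
      intro q hq A hA σ hσ
      by_cases hqp : q = P.p
      · subst hqp
        exact hp2 A hA σ hσ
      · exact (haway q hq hqp A hA σ hσ).2
    refine ⟨N, hN, hN0, hN1, fun σ x => ?_⟩
    have : σ ∈ cofixSub (W := P.freyCurve) N hN := by rw [h1]; exact Subgroup.mem_top σ
    exact this x

end main

end Fermat.Agent.S13
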