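import Mathlib
import Fermat.Prelude.Def_FLTPrelim_Ramification
import Fermat.Agent.S05.Core
import Fermat.Agent.S05.FreyData

/-!
# S13, M2a (FACT1): at a place over `p`, `σ T - T` is in the kernel of reduction

`core_inKer` is the S05 core theorem without its last step (the kernel of reduction has no
`p`-torsion, which needs `v p = 1`): for `σ` in the inertia group of `A` and a `p`-torsion point
`T` the difference `σ T - T` is in the kernel of reduction `E₁`.  `frey_fact1` is the instance for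
the Frey curve at an odd prime `q` (in particular `q = p`).
-/

set_option autoImplicit false

open WeierstrassCurve WeierstrassCurve.Affine

namespace Fermat.Agent.S13

open Fermat.Agent.S05 Fermat.Agent.S05.Core

local notation "Qbar" => AlgebraicClosure ℚ

/-- **FACT1** (S05 core without the last step): for `σ` in the inertia group, `σ T - T` is in the
kernel of reduction, for every `p`-torsion point `T`; no hypothesis on `v p`. -/
theorem core_inKer (W' : WeierstrassCurve ℚ) (A : ValuationSubring Qbar)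
    (σ : Qbar ≃ₐ[ℚ] Qbar) (hσ : σ ∈ A.inertiaSubgroupIn ℚ) (p : ℕ) (hp : p.Prime) (hp2 : p ≠ 2)
    (hv2 : A.valuation (2 : Qbar) = 1)
    (hW : IsIntegralW A.valuation (W'.baseChange Qbar)) (e al be : ℚ)
    (hf : ∀ x : Qbar, 4 * x ^ 3 + (W'.baseChange Qbar).b₂ * x ^ 2 +
        2 * (W'.baseChange Qbar).b₄ * x + (W'.baseChange Qbar).b₆ =
      4 * ((x - (e : Qbar)) * (x - (e : Qbar) - (al : Qbar)) * (x - (e : Qbar) + (be : Qbar))))
    (he : A.valuation (e : Qbar) ≤ 1) (hbe : A.valuation (be : Qbar) = 1)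
    (halbe : A.valuation ((al : Qbar) + (be : Qbar)) = 1) (hal0 : al ≠ 0)
    (hcase : A.valuation (al : Qbar) = 1 ∨
      (A.valuation (al : Qbar) < 1 ∧ ∃ d u : ℚ, al = u * d ^ p ∧ A.valuation (u : Qbar) = 1))
    (T : (W'⁄Qbar).Point) (hT : p • T = 0) :
    InKer A.valuation (W'.baseChange Qbar) (σ • T - T) := by
  set v := A.valuation with hv
  set W := W'.baseChange Qbar with hWdef
  have hal : v (al : Qbar) ≤ 1 := by
    rcases hcase with h | h
    · exact h.le
    · exact h.1.le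
  -- is `T` in the node?
  by_cases hnode : ∀ (x y : Qbar) (h : (W'⁄Qbar).Nonsingular x y), T = Affine.Point.some x y h →
      v x ≤ 1 → ¬(v (x - (e : Qbar)) < 1 ∧ v (x - (e : Qbar) - (al : Qbar)) < 1)
  · exact Core.inKer_smul_sub W' A σ hσ hv2 hW e al be hf he hbe halbe hal T hnode
  push Not at hnode
  obtain ⟨x, y, h, rfl, hx, hx1, hx2⟩ := hnode
  -- multiplicative reduction
  have hal1 : v (al : Qbar) < 1 := by
    have : (al : Qbar) = (x - (e : Qbar)) - (x - (e : Qbar) - (al : Qbar)) := by ring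
    rw [this]
    exact v.map_sub_lt hx1 hx2
  obtain ⟨d, u, hald, hu⟩ : ∃ d u : ℚ, al = u * d ^ p ∧ v (u : Qbar) = 1 := by
    rcases hcase with h0 | h0
    · exact absurd h0 hal1.ne
    · exact h0.2
  have hal0' : (al : Qbar) ≠ 0 := by exact_mod_cast hal0
  have ha0 : v (al : Qbar) ≠ 0 := (v.ne_zero_iff).mpr hal0'
  have hp0 : p ≠ 0 := hp.ne_zero
  -- `a = v d ^ p`
  have had : v (al : Qbar) = v (d : Qbar) ^ p := by
    have : (al : Qbar) = (u : Qbar) * (d : Qbar) ^ p := by rw [hald]; push_cast; rfl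
    rw [this, v.map_mul, hu, one_mul, v.map_pow]
  have hδ0 : v (d : Qbar) ≠ 0 := by
    intro h0
    rw [h0, zero_pow hp0] at had
    exact ha0 had
  have hδpos : 0 < v (d : Qbar) := zero_lt_iff.mpr hδ0
  have hδ1 : v (d : Qbar) < 1 := by
    by_contra hcon
    push Not at hcon
    have : 1 ≤ v (d : Qbar) ^ p := one_le_pow₀ hcon
    rw [← had] at this
    exact absurd hal1 (not_lt.mpr this)
  -- the folding invariant of `T`
  obtain ⟨c, hc⟩ : ∃ c : (W'⁄Qbar).Point → A.ValueGroup,
      c = cbarP v W (e : Qbar) (al : Qbar) := ⟨_, rfl⟩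
  have hXL := fold_curve v W (e := (e : Qbar)) hal1 hal0' hbe halbe hv2 hf
  rw [← hc] at hXL
  have hc1 : ∀ P, v (al : Qbar) ≤ c P := by
    intro P
    rw [hc]
    rcases P with _ | ⟨x', y', h'⟩
    · exact hal
    · exact le_cb v _ hal _
  have hc2 : ∀ P, c P ≤ 1 := by
    intro P
    rw [hc]
    rcases P with _ | ⟨x', y', h'⟩
    · exact le_rfl
    · exact cb_le_one v _ hal _
  have hc0 : c 0 = 1 := by rw [hc]; rfl
  obtain ⟨k, hk⟩ := fold_abstract ha0 hal1 c hc1 hc2 hc0 hXL hT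
  set τ := c (Affine.Point.some x y h) with hτ
  have hτeq : τ = max (v (x - (e : Qbar))) (v (al : Qbar)) := by
    rw [hτ, hc]; exact cb_of_lt v _ hx1
  have hτ1 : τ < 1 := by rw [hτeq]; exact max_lt hx1 hal1
  have hτa : v (al : Qbar) ≤ τ := hc1 _
  have hτk : τ = v (d : Qbar) ^ (2 * k) := by
    have h1 : τ ^ p = (v (d : Qbar) ^ (2 * k)) ^ p := by
      rw [hk, had, ← pow_mul, ← pow_mul, mul_comm]
    exact (pow_left_inj₀ zero_le zero_le hp0).mp h1
  have hk0 : 0 < k := by
    rcases Nat.eq_zero_or_pos k with h0 | h0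
    · rw [h0, mul_zero, pow_zero] at hτk
      exact absurd hτk hτ1.ne
    · exact h0
  have hkp : 2 * k < p := by
    have h1 : 2 * k ≤ p := by
      by_contra hcon
      push Not at hcon
      have : v (d : Qbar) ^ (2 * k) < v (d : Qbar) ^ p :=
        pow_lt_pow_right_of_lt_one₀ hδpos hδ1 hcon
      rw [← hτk, ← had] at this
      exact absurd hτa (not_le.mpr this)
    have h2 : 2 * k ≠ p := by
      intro h0
      have : p = 2 := (Nat.prime_dvd_prime_iff_eq Nat.prime_two hp).mp ⟨k, h0.symm⟩ |>.symm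
      exact hp2 this
    omega
  -- the inertia-fixed point
  obtain ⟨x₀, y₀, h₀, hx₀, hfix⟩ := Fermat.Agent.S05C.exists_fixed_point W' v σ
    (fun z hz => inertia_sub A hσ z hz) hv2 hf hbe hal1 hal0 hald hu hk0 hkp
  set P₀ : (W'⁄Qbar).Point := Affine.Point.some x₀ y₀ h₀ with hP₀
  have hcP₀ : c P₀ = τ := by
    have h1 : c P₀ = cb v (v (al : Qbar)) (x₀ - (e : Qbar)) := by rw [hc]; rfl
    have h2 : v (x₀ - (e : Qbar)) = τ := by rw [hx₀, v.map_pow, hτk]
    rw [h1, cb_of_lt v _ (by rw [h2]; exact hτ1), h2]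
    exact max_eq_left hτa
  have hτ0 : τ ≠ 0 := fun h0 => ha0 (le_antisymm (h0 ▸ hτa) zero_le)
  have hFm : Fm τ τ = 1 := by
    have h1 : Fm τ τ = min (τ / τ) (τ / τ) := rfl
    rw [h1, min_self, div_self hτ0]
  -- one of `T ± P₀` is outside the node
  have hD1 : ∀ T' : (W'⁄Qbar).Point, c T' = 1 → InKer v W (σ • T' - T') := by
    intro T' hT'
    refine Core.inKer_smul_sub W' A σ hσ hv2 hW e al be hf he hbe halbe hal T' ?_
    rintro x' y' h' rfl - ⟨h1, -⟩
    rw [hc] at hT'
    exact not_lt_of_cb_eq_one v _ hal1 hT' h1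
  rcases hXL (Affine.Point.some x y h) P₀ with ⟨-, hm⟩ | ⟨hm, -⟩
  · rw [hcP₀, ← hτ, hFm] at hm
    have := hD1 _ hm
    rwa [smul_sub' W' σ, hfix, sub_sub_sub_cancel_right] at this
  · rw [hcP₀, ← hτ, hFm] at hm
    have := hD1 _ hm
    rwa [smul_add' W' σ, hfix, add_sub_add_right_eq_sub] at this


/-- **FACT1 for the Frey curve** at an odd prime `q` (`q = p` allowed) -/
theorem frey_fact1 (P : FreyPackage) {q : ℕ} (hq : q.Prime) (hq2 : q ≠ 2)
    (A : ValuationSubring Qbar) (hA : A.LiesOverPrime q)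
    (σ : Qbar ≃ₐ[ℚ] Qbar) (hσ : σ ∈ A.inertiaSubgroupIn ℚ)
    (T : (P.freyCurve⁄Qbar).Point) (hT : P.p • T = 0) :
    InKer A.valuation (P.freyCurve.baseChange Qbar) (σ • T - T) := by
  have hvq : A.valuation (q : Qbar) < 1 := hA
  obtain ⟨e, al, be, hf, he, hbe, halbe, hal0, hal⟩ :=
    frey_local_data P A.valuation hq hq2 hvq
  have hp2 : P.p ≠ 2 := by have := P.hp5; omega
  exact core_inKer P.freyCurve A σ hσ P.p P.pp hp2
    (frey_val_two A.valuation hq hq2 hvq) (frey_isIntegralW P A.valuation hq hq2 hvq)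
    e al be hf he hbe halbe hal0 hal T hT

end Fermat.Agent.S13
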