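import Mathlib

/-!
# S13, piece M2b (NEWTON): a pure valuation lemma

`K` a field with a valuation `v`, `f : K[X]` with integral coefficients (`v (f.coeff n) ≤ 1`),
`S` a finite set of (distinct) roots of `f`, all of them non-integral (`1 < v x`).  Then
`(∏ x ∈ S, v x) * v f.leadingCoeff ≤ 1`.

Proof: induction on `S`.  If `f = (X - x) h` with `1 < v x`, then `x h` has integral
coefficients (`x h_0 = - f_0`, `x h_{n+1} = x⁻¹ (x h_n) - f_{n+1}`), leading coefficient
`x * lc f`, and the other elements of `S` are roots of it.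
-/

set_option autoImplicit false

namespace Fermat.Agent.S13

open Polynomial

variable {K : Type*} [Field K] {Γ₀ : Type*} [LinearOrderedCommGroupWithZero Γ₀]

/-- division step: if `f = (X - C x) * h` is integral and `1 < v x`, then `x h` is integral. -/
theorem newton_coeff_step (v : Valuation K Γ₀) {f h : K[X]} {x : K} (hx : 1 < v x)
    (hf : ∀ n, v (f.coeff n) ≤ 1) (hfh : f = (X - C x) * h) (n : ℕ) :
    v (x * h.coeff n) ≤ 1 := by
  have hx0 : x ≠ 0 := by
    rintro rfl
    simp at hx
  induction n with
  | zero =>
    have h0 : f.coeff 0 = -(x * h.coeff 0) := by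
      rw [hfh, sub_mul, coeff_sub, coeff_X_mul_zero, coeff_C_mul, zero_sub]
    have := hf 0
    rw [h0, Valuation.map_neg] at this
    exact this
  | succ n ih =>
    have h1 : f.coeff (n + 1) = h.coeff n - x * h.coeff (n + 1) := by
      rw [hfh, sub_mul, coeff_sub, coeff_X_mul, coeff_C_mul]
    have h2 : x * h.coeff (n + 1) = x⁻¹ * (x * h.coeff n) - f.coeff (n + 1) := by
      rw [h1]
      field_simp
      ring
    rw [h2]
    refine le_trans (Valuation.map_sub v _ _) (max_le ?_ (hf _))
    rw [Valuation.map_mul, map_inv₀]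
    have hxi : (v x)⁻¹ ≤ 1 := inv_le_one_of_one_le₀ hx.le
    exact mul_le_one' hxi ih

/-- **NEWTON**: an integral polynomial, distinct non-integral roots: the product of their
valuations times the valuation of the leading coefficient is at most `1`. -/
theorem newton_prod_le (v : Valuation K Γ₀) (S : Finset K) :
    ∀ f : K[X], (∀ n, v (f.coeff n) ≤ 1) → (∀ x ∈ S, f.IsRoot x ∧ 1 < v x) →
      (∏ x ∈ S, v x) * v f.leadingCoeff ≤ 1 := by
  classical
  induction S using Finset.induction_on with
  | empty =>
    intro f hf _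
    simpa using hf f.natDegree
  | insert x S hxS ih =>
    intro f hf hS
    obtain ⟨hroot, hx⟩ := hS x (Finset.mem_insert_self _ _)
    obtain ⟨h, hfh⟩ := dvd_iff_isRoot.mpr hroot
    have hint : ∀ n, v ((C x * h).coeff n) ≤ 1 := by
      intro n
      rw [coeff_C_mul]
      exact newton_coeff_step v hx hf hfh n
    have hroots : ∀ y ∈ S, (C x * h).IsRoot y ∧ 1 < v y := by
      intro y hy
      obtain ⟨hyr, hyv⟩ := hS y (Finset.mem_insert_of_mem hy)
      refine ⟨?_, hyv⟩
      have hne : y ≠ x := fun e => hxS (e ▸ hy)
      have : (y - x) * h.eval y = 0 := by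
        have := hyr
        rw [IsRoot.def, hfh, eval_mul, eval_sub, eval_X, eval_C] at this
        exact this
      rcases mul_eq_zero.mp this with h0 | h0
      · exact absurd (sub_eq_zero.mp h0) hne
      · rw [IsRoot.def, eval_mul, h0, mul_zero]
    have key := ih (C x * h) hint hroots
    have hlc : (C x * h).leadingCoeff = x * f.leadingCoeff := by
      rw [hfh, leadingCoeff_mul, leadingCoeff_mul, leadingCoeff_C, leadingCoeff_X_sub_C, one_mul]
    rw [hlc, Valuation.map_mul] at key
    rw [Finset.prod_insert hxS]
    calc (v x * ∏ y ∈ S, v y) * v f.leadingCoeff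
        = (∏ y ∈ S, v y) * (v x * v f.leadingCoeff) := by
          rw [mul_comm (v x), mul_assoc]
      _ ≤ 1 := key

/-- NEWTON in the form used at `p`: the product of the valuations of the roots is at most the
inverse of the valuation of the leading coefficient. -/
theorem newton_prod_le_inv (v : Valuation K Γ₀) (S : Finset K) (f : K[X])
    (hf : ∀ n, v (f.coeff n) ≤ 1) (hS : ∀ x ∈ S, f.IsRoot x ∧ 1 < v x)
    (hlc : v f.leadingCoeff ≠ 0) :
    (∏ x ∈ S, v x) ≤ (v f.leadingCoeff)⁻¹ := by
  have h := newton_prod_le v S f hf hS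
  have := (le_mul_inv_iff₀ (zero_lt_iff.mpr hlc)).mpr h
  rwa [one_mul] at this

/-- integers are integral for every valuation -/
theorem newton_val_natCast_le_one (v : Valuation K Γ₀) (n : ℕ) : v (n : K) ≤ 1 := by
  induction n with
  | zero => simp
  | succ n ih =>
    rw [Nat.cast_succ]
    exact le_trans (Valuation.map_add v _ _) (max_le ih (by rw [Valuation.map_one]))

/-- integers are integral for every valuation -/
theorem newton_val_intCast_le_one (v : Valuation K Γ₀) (n : ℤ) : v (n : K) ≤ 1 := by
  rcases Int.natAbs_eq n with h | h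
  · rw [h, Int.cast_natCast]
    exact newton_val_natCast_le_one v _
  · rw [h, Int.cast_neg, Valuation.map_neg, Int.cast_natCast]
    exact newton_val_natCast_le_one v _

/-- NEWTON for a polynomial with integer coefficients (characteristic `0`). -/
theorem newton_prod_le_int [CharZero K] (v : Valuation K Γ₀) (S : Finset K) (f : ℤ[X])
    (hS : ∀ x ∈ S, (f.map (Int.castRingHom K)).IsRoot x ∧ 1 < v x) :
    (∏ x ∈ S, v x) * v ((f.leadingCoeff : ℤ) : K) ≤ 1 := by
  have h := newton_prod_le v S (f.map (Int.castRingHom K))
    (fun n => by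
      rw [coeff_map]
      exact newton_val_intCast_le_one v _) hS
  rwa [leadingCoeff_map_of_injective (RingHom.injective_int (Int.castRingHom K))] at h

/-- NEWTON for a polynomial with integer coefficients and leading coefficient `c`:
the product of the valuations of distinct non-integral roots is at most `(v c)⁻¹`. -/
theorem newton_prod_le_inv_int [CharZero K] (v : Valuation K Γ₀) (S : Finset K) (f : ℤ[X])
    (hS : ∀ x ∈ S, (f.map (Int.castRingHom K)).IsRoot x ∧ 1 < v x) (hf : f ≠ 0) :
    (∏ x ∈ S, v x) ≤ (v ((f.leadingCoeff : ℤ) : K))⁻¹ := by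
  have h := newton_prod_le_int v S f hS
  have hlc : v ((f.leadingCoeff : ℤ) : K) ≠ 0 := by
    rw [Ne, Valuation.zero_iff, Int.cast_eq_zero]
    exact leadingCoeff_ne_zero.mpr hf
  have := (le_mul_inv_iff₀ (zero_lt_iff.mpr hlc)).mpr h
  rwa [one_mul] at this

end Fermat.Agent.S13
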