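import Mathlib
import Fermat.Agent.S05.Inertia

/-!
# S13, piece M2c-Q: rational numbers at the places over `p`

* `rat_val_gt_one_iff`: for `r : ℚ` and a place `A` over `p`: `1 < v_A r ↔ p ∣ r.den`;
* (Q1) `rat_val_uniform`: `1 < v_A r → 1 < v_A' r` for two places over `p`;
* (Q2) `rat_val_mul_ge`: `1 < v_A r → 1 ≤ v_A r * v_A p`;
* (Q3) `prod_rat_of_stable`: the product of a Galois stable finite subset of `Qbar` is rational.
-/

set_option autoImplicit false

namespace Fermat.Agent.S13

local notation "Qbar" => AlgebraicClosure ℚ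
local notation "GQ" => (AlgebraicClosure ℚ ≃ₐ[ℚ] AlgebraicClosure ℚ)

/-- the valuation of a rational number is the quotient of those of numerator, denominator -/
theorem rat_val_eq_div (A : ValuationSubring Qbar) (r : ℚ) :
    A.valuation (r : Qbar) =
      A.valuation (((r.num : ℤ) : ℚ) : Qbar) / A.valuation ((((r.den : ℕ) : ℤ) : ℚ) : Qbar) := by
  rw [← map_div₀]
  congr 1
  have h := Rat.num_div_den r
  have h2 : (r : Qbar) = (((r.num : ℚ) / (r.den : ℚ) : ℚ) : Qbar) := by rw [h]
  rw [h2]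
  push_cast
  rfl

theorem rat_val_den_ne_zero (A : ValuationSubring Qbar) (r : ℚ) :
    A.valuation ((((r.den : ℕ) : ℤ) : ℚ) : Qbar) ≠ 0 := by
  rw [Ne, Valuation.zero_iff]
  have : (r.den : ℤ) ≠ 0 := by exact_mod_cast r.den_nz
  exact_mod_cast this

/-- a rational number is non-integral at a place over `p` iff `p` divides its denominator -/
theorem rat_val_gt_one_iff {p : ℕ} (hp : p.Prime) (A : ValuationSubring Qbar)
    (hA : A.LiesOverPrime p) (r : ℚ) :
    1 < A.valuation (r : Qbar) ↔ (p : ℤ) ∣ ((r.den : ℕ) : ℤ) := by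
  have hd0 := rat_val_den_ne_zero A r
  have hdpos : 0 < A.valuation ((((r.den : ℕ) : ℤ) : ℚ) : Qbar) := zero_lt_iff.mpr hd0
  constructor
  · intro h
    by_contra hnd
    have hden : A.valuation ((((r.den : ℕ) : ℤ) : ℚ) : Qbar) = 1 := S05.val_int_eq A hp hA hnd
    rw [rat_val_eq_div, hden, div_one] at h
    exact absurd (S05.val_int_le A r.num) (not_le.mpr h)
  · intro h
    have hden : A.valuation ((((r.den : ℕ) : ℤ) : ℚ) : Qbar) < 1 := S05.val_int_lt A hA h
    have hnum : A.valuation (((r.num : ℤ) : ℚ) : Qbar) = 1 := by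
      apply S05.val_int_eq A hp hA
      intro hnd
      have h1 : (p : ℤ) ∣ Int.gcd r.num (r.den : ℤ) := Int.dvd_coe_gcd hnd h
      have h2 : Int.gcd r.num (r.den : ℤ) = 1 := by
        have := r.reduced
        unfold Nat.Coprime at this
        simpa [Int.gcd] using this
      rw [h2] at h1
      have : (p : ℤ) = 1 ∨ (p : ℤ) = -1 := Int.isUnit_iff.mp (isUnit_of_dvd_one h1)
      have hp1 := hp.one_lt
      omega
    rw [rat_val_eq_div, hnum, one_div]
    exact (one_lt_inv₀ hdpos).mpr hden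

/-- (Q1) being non-integral at a place over `p` does not depend on the place -/
theorem rat_val_uniform {p : ℕ} (hp : p.Prime) (A A' : ValuationSubring Qbar)
    (hA : A.LiesOverPrime p) (hA' : A'.LiesOverPrime p) (r : ℚ)
    (h : 1 < A.valuation (r : Qbar)) : 1 < A'.valuation (r : Qbar) :=
  (rat_val_gt_one_iff hp A' hA' r).mpr ((rat_val_gt_one_iff hp A hA r).mp h)

/-- (Q2) a non-integral rational number has valuation at least `(v p)⁻¹` -/
theorem rat_val_mul_ge {p : ℕ} (hp : p.Prime) (A : ValuationSubring Qbar)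
    (hA : A.LiesOverPrime p) (r : ℚ) (h : 1 < A.valuation (r : Qbar)) :
    1 ≤ A.valuation (r : Qbar) * A.valuation (p : Qbar) := by
  have hdvd := (rat_val_gt_one_iff hp A hA r).mp h
  obtain ⟨d, hd⟩ := hdvd
  have hd0 := rat_val_den_ne_zero A r
  have hdpos : 0 < A.valuation ((((r.den : ℕ) : ℤ) : ℚ) : Qbar) := zero_lt_iff.mpr hd0
  -- `v num = 1`
  have hnum : A.valuation (((r.num : ℤ) : ℚ) : Qbar) = 1 := by
    have h1 := h
    rw [rat_val_eq_div] at h1
    refine le_antisymm (S05.val_int_le A r.num) ?_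
    by_contra hlt
    push Not at hlt
    have hden_lt : A.valuation ((((r.den : ℕ) : ℤ) : ℚ) : Qbar) < 1 :=
      S05.val_int_lt A hA ⟨d, hd⟩
    -- `p ∣ num` would contradict coprimality; use `val_int_eq` contrapositive
    have hpn : (p : ℤ) ∣ r.num := by
      by_contra hnd
      have := S05.val_int_eq A hp hA hnd
      rw [this] at hlt
      exact lt_irrefl _ hlt
    have h1' : (p : ℤ) ∣ Int.gcd r.num (r.den : ℤ) := Int.dvd_coe_gcd hpn ⟨d, hd⟩
    have h2 : Int.gcd r.num (r.den : ℤ) = 1 := by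
      have := r.reduced
      unfold Nat.Coprime at this
      simpa [Int.gcd] using this
    rw [h2] at h1'
    have : (p : ℤ) = 1 ∨ (p : ℤ) = -1 := Int.isUnit_iff.mp (isUnit_of_dvd_one h1')
    have hp1 := hp.one_lt
    omega
  have hden : A.valuation ((((r.den : ℕ) : ℤ) : ℚ) : Qbar) =
      A.valuation (p : Qbar) * A.valuation (((d : ℤ) : ℚ) : Qbar) := by
    rw [← map_mul]
    congr 1
    rw [hd]
    push_cast
    rfl
  have hdle : A.valuation (((d : ℤ) : ℚ) : Qbar) ≤ 1 := S05.val_int_le A d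
  rw [rat_val_eq_div, hnum, one_div]
  rw [hden] at hdpos ⊢
  have hppos : 0 < A.valuation (p : Qbar) := by
    rcases eq_or_ne (A.valuation (p : Qbar)) 0 with h0 | h0
    · rw [h0, zero_mul] at hdpos
      exact absurd hdpos (lt_irrefl _)
    · exact zero_lt_iff.mpr h0
  have hdpos' : 0 < A.valuation (((d : ℤ) : ℚ) : Qbar) := by
    rcases eq_or_ne (A.valuation (((d : ℤ) : ℚ) : Qbar)) 0 with h0 | h0
    · rw [h0, mul_zero] at hdpos
      exact absurd hdpos (lt_irrefl _)
    · exact zero_lt_iff.mpr h0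
  rw [mul_inv, mul_comm (A.valuation (p : Qbar))⁻¹, mul_assoc,
    inv_mul_cancel₀ hppos.ne', mul_one]
  exact (one_le_inv₀ hdpos').mpr hdle

/-- an element of `Qbar` fixed by the absolute Galois group is rational -/
theorem rat_of_fixed (x : Qbar) (h : ∀ σ : GQ, σ x = x) :
    ∃ r : ℚ, x = algebraMap ℚ Qbar r := by
  have h1 : Algebra.IsAlgebraic ℚ (AlgebraicClosure ℚ) := AlgebraicClosure.isAlgebraic ℚ
  have h2 : IsAlgClosure ℚ (AlgebraicClosure ℚ) := ⟨inferInstance, inferInstance⟩
  have : IsGalois ℚ (AlgebraicClosure ℚ) := IsAlgClosure.isGalois ℚ (AlgebraicClosure ℚ)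
  obtain ⟨r, hr⟩ := (InfiniteGalois.mem_range_algebraMap_iff_fixed x).mpr h
  exact ⟨r, hr.symm⟩

/-- (Q3) the product of a Galois stable finite set of algebraic numbers is rational -/
theorem prod_rat_of_stable (X : Finset Qbar) (hX : ∀ σ : GQ, ∀ x ∈ X, σ x ∈ X) :
    ∃ r : ℚ, ∏ x ∈ X, x = algebraMap ℚ Qbar r := by
  classical
  apply rat_of_fixed
  intro σ
  rw [map_prod]
  have himg : X.image (fun x => σ x) = X := by
    apply Finset.eq_of_subset_of_card_le
    · intro y hy
      obtain ⟨x, hx, rfl⟩ := Finset.mem_image.mp hy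
      exact hX σ x hx
    · rw [Finset.card_image_of_injective _ σ.injective]
  conv_rhs => rw [← himg]
  rw [Finset.prod_image (fun x _ y _ h => σ.injective h)]

/-- the sum version of (Q3) -/
theorem sum_rat_of_stable (X : Finset Qbar) (hX : ∀ σ : GQ, ∀ x ∈ X, σ x ∈ X) :
    ∃ r : ℚ, ∑ x ∈ X, x = algebraMap ℚ Qbar r := by
  classical
  apply rat_of_fixed
  intro σ
  rw [map_sum]
  have himg : X.image (fun x => σ x) = X := by
    apply Finset.eq_of_subset_of_card_le
    · intro y hy
      obtain ⟨x, hx, rfl⟩ := Finset.mem_image.mp hy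
      exact hX σ x hx
    · rw [Finset.card_image_of_injective _ σ.injective]
  conv_rhs => rw [← himg]
  rw [Finset.sum_image (fun x _ y _ h => σ.injective h)]

end Fermat.Agent.S13
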