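import Mathlib
import Fermat.Prelude.Def_FLTPrelim_Ramification
import Fermat.Prelude.Def_FLTPrelim_CofixedLine
import Fermat.Agent.S51.TorsionLib
import Fermat.Agent.S05.Inertia
import Fermat.Agent.S05.Formal
import Fermat.Agent.S05.FreyData
import Fermat.Agent.S13.AtPFact
import Fermat.Agent.S13.AtPNewton
import Fermat.Agent.S13.AtPRat

/-!
# S13, M2c: the uniform dichotomy at `p`

`N` a Galois stable line in `V = E[p]`.  Either the inertia groups of all places `A` over `p` act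
trivially on `N`, or they all act trivially on `V / N`.

Proof.  `Π` := the product of the `x`-coordinates of the nonzero points of `N` is rational.  For
a place `A` over `p` with kernel of reduction `E₁`: either `N ∩ E₁ = 0` and `v Π ≤ 1`, or
`N ⊆ E₁` and `1 < v Π`; as `Π` is rational, the case does not depend on `A`.  By FACT1 the
difference `σ T - T` is in `V ∩ E₁` for `σ` in the inertia group.  In the first case this gives
`σ = 1` on `N`.  In the second case `v Π ≥ (v p)⁻¹`, and NEWTON for the polynomial `Ψ` (integral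
coefficients, leading coefficient `p`, vanishing at the `x`-coordinates of the nonzero points
of `V`) shows that `V ∩ E₁` has no other `x`-coordinates than those of `N`: `V ∩ E₁ = N`.
-/

set_option autoImplicit false

open WeierstrassCurve WeierstrassCurve.Affine WeierstrassCurve.Affine.Point

namespace Fermat.Agent.S13

open Fermat.Agent.S05

local notation "Qbar" => AlgebraicClosure ℚ
local notation "GQ" => (AlgebraicClosure ℚ ≃ₐ[ℚ] AlgebraicClosure ℚ)

namespace AtP

/-- the `x`-coordinate of a point (`0` for the point at infinity) -/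
noncomputable def xOf {E : Affine Qbar} : E.Point → Qbar
  | .zero => 0
  | .some x _ _ => x

theorem xOf_zero {E : Affine Qbar} : xOf (0 : E.Point) = 0 := rfl

theorem xOf_some {E : Affine Qbar} {x y : Qbar} (h : E.Nonsingular x y) :
    xOf (Point.some x y h) = x := rfl

/-- realises the equation lemmas of `xOf` in this module -/
theorem xOf_equations_realised {E : Affine Qbar} (T : E.Point) : True := by
  have := @xOf.eq_1 E
  have := @xOf.eq_2 E
  have := @xOf.eq_def E T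
  have := @xOf.eq_unfold
  trivial

/-- realises the splitter of the matcher of `xOf` -/
theorem xOf_splitter_realised {E : Affine Qbar} (T : E.Point) : xOf T = xOf T := by
  unfold xOf
  split
  · rfl
  · rfl

theorem xOf_smul (W' : Affine ℚ) (σ : GQ) (T : (W'⁄Qbar).Point) :
    xOf (σ • T) = σ (xOf T) := by
  rcases T with _ | ⟨x, y, h⟩
  · change xOf (0 : (W'⁄Qbar).Point) = σ (xOf (0 : (W'⁄Qbar).Point))
    rw [xOf_zero, _root_.map_zero]
  · obtain ⟨h', e⟩ := Fermat.Agent.S51.smul_some (W' := W') σ h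
    rw [e, xOf_some, xOf_some]

theorem eq_or_eq_neg_of_xOf_eq {E : Affine Qbar} {T T' : E.Point} (hT : T ≠ 0) (hT' : T' ≠ 0)
    (h : xOf T' = xOf T) : T' = T ∨ T' = -T := by
  rcases T with _ | ⟨x, y, hxy⟩
  · exact absurd rfl hT
  rcases T' with _ | ⟨x', y', hxy'⟩
  · exact absurd rfl hT'
  rw [xOf_some, xOf_some] at h
  subst h
  rcases Affine.Y_eq_of_X_eq hxy'.1 hxy.1 rfl with h1 | h1
  · left
    subst h1
    rfl
  · right
    rw [Point.neg_some]
    subst h1
    rfl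

theorem inKer_iff_xOf {Γ₀ : Type*} [LinearOrderedCommGroupWithZero Γ₀] (v : Valuation Qbar Γ₀)
    (E : WeierstrassCurve Qbar) {T : E.toAffine.Point} (hT : T ≠ 0) :
    InKer v E T ↔ 1 < v (xOf T) := by
  rcases T with _ | ⟨x, y, hxy⟩
  · exact absurd rfl hT
  · exact Iff.rfl


section kernel

variable {Γ₀ : Type*} [LinearOrderedCommGroupWithZero Γ₀] (v : Valuation Qbar Γ₀)
  (E : WeierstrassCurve Qbar)

theorem inKer_neg' (hE : IsIntegralW v E) {T : E.toAffine.Point} (hT : InKer v E T) :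
    InKer v E (-T) := by
  have := inKer_sub v E hE (inKer_zero v E) hT
  rwa [zero_sub] at this

theorem inKer_add' (hE : IsIntegralW v E) {T T' : E.toAffine.Point} (hT : InKer v E T)
    (hT' : InKer v E T') : InKer v E (T + T') := by
  have := inKer_sub v E hE hT (inKer_neg' v E hE hT')
  rwa [sub_neg_eq_add] at this

theorem inKer_nsmul' (hE : IsIntegralW v E) {T : E.toAffine.Point} (hT : InKer v E T) (n : ℕ) :
    InKer v E (n • T) := by
  induction n with
  | zero => rw [zero_nsmul]; exact inKer_zero v E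
  | succ n ih => rw [succ_nsmul]; exact inKer_add' v E hE ih hT

end kernel

section main

variable {W' : Affine ℚ} {p : ℕ}

/-- the kernel of reduction is stable under the scalars of `ZMod p` -/
theorem inKer_zmod_smul [NeZero p] {Γ₀ : Type*} [LinearOrderedCommGroupWithZero Γ₀]
    (v : Valuation Qbar Γ₀) (hE : IsIntegralW v (W'.baseChange Qbar)) (c : ZMod p)
    (x : Submodule.torsionBy ℤ (W'⁄Qbar).Point p) (hx : InKer v (W'.baseChange Qbar) x.1) :
    InKer v (W'.baseChange Qbar) (c • x).1 := by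
  obtain ⟨n, rfl⟩ := ZMod.natCast_zmod_surjective c
  rw [Nat.cast_smul_eq_nsmul]
  have h1 : ((n • x : Submodule.torsionBy ℤ (W'⁄Qbar).Point p) : (W'⁄Qbar).Point) = n • x.1 :=
    rfl
  rw [h1]
  exact inKer_nsmul' v _ hE hx n


end main

end AtP

open AtP

section main

variable {W' : Affine ℚ} {p : ℕ}

/-- **M2c, generic form**: the uniform dichotomy at `p` for a Galois stable line `N`. -/
theorem inertia_dichotomy (hp : p.Prime)
    (T2 : Finite (Submodule.torsionBy ℤ (W'⁄Qbar).Point p) ∧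
      Nat.card (Submodule.torsionBy ℤ (W'⁄Qbar).Point p) ≤ p ^ 2)
    (hW : ∀ A : ValuationSubring Qbar, A.LiesOverPrime p →
      IsIntegralW A.valuation (W'.baseChange Qbar))
    (hF1 : ∀ A : ValuationSubring Qbar, A.LiesOverPrime p → ∀ σ ∈ A.inertiaSubgroupIn ℚ,
      ∀ x : Submodule.torsionBy ℤ (W'⁄Qbar).Point p,
        InKer A.valuation (W'.baseChange Qbar) (σ • x - x).1)
    (Psi : Polynomial Qbar)
    (hint : ∀ A : ValuationSubring Qbar, A.LiesOverPrime p →
      ∀ i, A.valuation (Psi.coeff i) ≤ 1)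
    (hlead : Psi.leadingCoeff = (p : Qbar))
    (hroot : ∀ x : Submodule.torsionBy ℤ (W'⁄Qbar).Point p, x ≠ 0 → Psi.IsRoot (xOf x.1))
    (N : Submodule (ZMod p) (Submodule.torsionBy ℤ (W'⁄Qbar).Point p))
    (hN : ∀ σ : GQ, ∀ x ∈ N, σ • x ∈ N) (hN0 : N ≠ ⊥) (hN1 : N ≠ ⊤) :
    (∀ A : ValuationSubring Qbar, A.LiesOverPrime p →
      ∀ σ ∈ A.inertiaSubgroupIn ℚ, ∀ x ∈ N, σ • x = x) ∨
    (∀ A : ValuationSubring Qbar, A.LiesOverPrime p →
      ∀ σ ∈ A.inertiaSubgroupIn ℚ,
        ∀ x : Submodule.torsionBy ℤ (W'⁄Qbar).Point p, σ • x - x ∈ N) := by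
  classical
  have hpF : Fact p.Prime := ⟨hp⟩
  have hp0 : NeZero p := ⟨hp.ne_zero⟩
  have hfin := T2.1
  let _ : Fintype (Submodule.torsionBy ℤ (W'⁄Qbar).Point p) := Fintype.ofFinite _
  -- the line
  have hline : ∀ x ∈ N, x ≠ 0 → ∀ y ∈ N, ∃ c : ZMod p, y = c • x := fun x hx hx0 y hy =>
    Fermat.Agent.S51.exists_smul_eq_of_mem T2.2 N hN1 hx hx0 hy
  -- the `x`-coordinates of `N`
  obtain ⟨XN, hXN⟩ : ∃ XN : Finset Qbar, XN = (Finset.univ.filter
      (fun T : Submodule.torsionBy ℤ (W'⁄Qbar).Point p => T ∈ N ∧ T ≠ 0)).image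
      (fun T => xOf T.1) := ⟨_, rfl⟩
  have hmem : ∀ z : Qbar, z ∈ XN ↔
      ∃ T : Submodule.torsionBy ℤ (W'⁄Qbar).Point p, T ∈ N ∧ T ≠ 0 ∧ xOf T.1 = z := by
    intro z
    rw [hXN, Finset.mem_image]
    constructor
    · rintro ⟨T, hT, rfl⟩
      rw [Finset.mem_filter] at hT
      exact ⟨T, hT.2.1, hT.2.2, rfl⟩
    · rintro ⟨T, hT1, hT2, rfl⟩
      exact ⟨T, Finset.mem_filter.mpr ⟨Finset.mem_univ _, hT1, hT2⟩, rfl⟩
  have hXNne : XN.Nonempty := by
    obtain ⟨T, hT, hT0⟩ := (Submodule.ne_bot_iff N).mp hN0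
    exact ⟨xOf T.1, (hmem _).mpr ⟨T, hT, hT0, rfl⟩⟩
  have hstable : ∀ σ : GQ, ∀ z ∈ XN, σ z ∈ XN := by
    intro σ z hz
    obtain ⟨T, hT, hT0, rfl⟩ := (hmem z).mp hz
    refine (hmem _).mpr ⟨σ • T, hN σ T hT, ?_, ?_⟩
    · intro h0
      apply hT0
      have : σ⁻¹ • (σ • T) = σ⁻¹ • (0 : Submodule.torsionBy ℤ (W'⁄Qbar).Point p) := by rw [h0]
      rwa [inv_smul_smul, smul_zero] at this
    · exact xOf_smul W' σ T.1
  obtain ⟨r, hr⟩ := prod_rat_of_stable XN hstable
  -- the valuation of `r`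
  have hvr : ∀ A : ValuationSubring Qbar, A.valuation (r : Qbar) = ∏ z ∈ XN, A.valuation z := by
    intro A
    have : (r : Qbar) = ∏ z ∈ XN, z := by rw [hr]; rfl
    rw [this, map_prod]
  -- all or nothing
  have hall : ∀ A : ValuationSubring Qbar, A.LiesOverPrime p →
      ∀ T₀ ∈ N, T₀ ≠ 0 → InKer A.valuation (W'.baseChange Qbar) T₀.1 →
      ∀ T ∈ N, InKer A.valuation (W'.baseChange Qbar) T.1 := by
    intro A hA T₀ hT₀ hT₀0 hK T hT
    obtain ⟨c, rfl⟩ := hline T₀ hT₀ hT₀0 T hT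
    exact inKer_zmod_smul A.valuation (hW A hA) c T₀ hK
  have hne0 : ∀ T : Submodule.torsionBy ℤ (W'⁄Qbar).Point p, T ≠ 0 → T.1 ≠ 0 :=
    fun T hT h => hT (Subtype.ext h)
  have hbig : ∀ A : ValuationSubring Qbar, A.LiesOverPrime p →
      (∀ T ∈ N, InKer A.valuation (W'.baseChange Qbar) T.1) → 1 < A.valuation (r : Qbar) := by
    intro A hA hK
    rw [hvr A]
    obtain ⟨z₀, hz₀⟩ := hXNne
    have h1 : ∀ z ∈ XN, 1 < A.valuation z := by
      intro z hz
      obtain ⟨T, hT, hT0, rfl⟩ := (hmem z).mp hz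
      exact (inKer_iff_xOf A.valuation _ (hne0 T hT0)).mp (hK T hT)
    rw [← Finset.mul_prod_erase XN _ hz₀]
    exact Left.one_lt_mul_of_lt_of_le (h1 z₀ hz₀)
      (Finset.one_le_prod' (fun z hz => (h1 z (Finset.mem_of_mem_erase hz)).le))
  have hsmall : ∀ A : ValuationSubring Qbar, A.LiesOverPrime p →
      (∀ T ∈ N, T ≠ 0 → ¬ InKer A.valuation (W'.baseChange Qbar) T.1) →
      A.valuation (r : Qbar) ≤ 1 := by
    intro A hA hK
    rw [hvr A]
    refine Finset.prod_le_one' ?_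
    intro z hz
    obtain ⟨T, hT, hT0, rfl⟩ := (hmem z).mp hz
    exact not_lt.mp (fun h => hK T hT hT0 ((inKer_iff_xOf A.valuation _ (hne0 T hT0)).mpr h))
  by_cases hcase : ∃ A₀ : ValuationSubring Qbar, A₀.LiesOverPrime p ∧
      ∃ T ∈ N, T ≠ 0 ∧ InKer A₀.valuation (W'.baseChange Qbar) T.1
  · right
    obtain ⟨A₀, hA₀, T₀, hT₀N, hT₀0, hT₀K⟩ := hcase
    have hr₀ : 1 < A₀.valuation (r : Qbar) := hbig A₀ hA₀ (hall A₀ hA₀ T₀ hT₀N hT₀0 hT₀K)
    intro A hA σ hσ x
    have hrA : 1 < A.valuation (r : Qbar) := rat_val_uniform hp A₀ A hA₀ hA r hr₀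
    -- `N ⊆ E₁`
    have hNK : ∀ T ∈ N, InKer A.valuation (W'.baseChange Qbar) T.1 := by
      by_contra hcon
      push Not at hcon
      obtain ⟨T₁, hT₁, hT₁K⟩ := hcon
      refine absurd (hsmall A hA ?_) (not_le.mpr hrA)
      intro T hT hT0 hTK
      exact hT₁K (hall A hA T hT hT0 hTK T₁ hT₁)
    have hD := hF1 A hA σ hσ x
    by_contra hDN
    have hD0 : σ • x - x ≠ 0 := fun h0 => hDN (h0 ▸ N.zero_mem)
    have hx₀ : xOf (σ • x - x).1 ∉ XN := by
      intro hin
      obtain ⟨T, hT, hT0, hTx⟩ := (hmem _).mp hin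
      rcases eq_or_eq_neg_of_xOf_eq (hne0 _ hD0) (hne0 T hT0) hTx with h1 | h1
      · exact hDN ((Subtype.ext h1 : T = σ • x - x) ▸ hT)
      · have h2 : T = -(σ • x - x) := Subtype.ext h1
        have h3 : σ • x - x = -T := by rw [h2, neg_neg]
        exact hDN (h3 ▸ N.neg_mem hT)
    have hnewton := newton_prod_le A.valuation (insert (xOf (σ • x - x).1) XN) Psi (hint A hA)
      (by
        intro z hz
        rcases Finset.mem_insert.mp hz with rfl | hz
        · exact ⟨hroot _ hD0, (inKer_iff_xOf A.valuation _ (hne0 _ hD0)).mp hD⟩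
        · obtain ⟨T, hT, hT0, rfl⟩ := (hmem z).mp hz
          exact ⟨hroot T hT0, (inKer_iff_xOf A.valuation _ (hne0 T hT0)).mp (hNK T hT)⟩)
    rw [Finset.prod_insert hx₀, ← hvr A, hlead, mul_assoc] at hnewton
    have h1 : 1 < A.valuation (xOf (σ • x - x).1) :=
      (inKer_iff_xOf A.valuation _ (hne0 _ hD0)).mp hD
    exact absurd hnewton (not_le.mpr
      (Left.one_lt_mul_of_lt_of_le h1 (rat_val_mul_ge hp A hA r hrA)))
  · left
    push Not at hcase
    intro A hA σ hσ x hx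
    by_contra hne
    exact hcase A hA (σ • x - x) (N.sub_mem (hN σ x hx) hx) (sub_ne_zero.mpr hne)
      (hF1 A hA σ hσ x)

end main

section frey

/-- **(Lp), uniform, relative to `T2` and `Ψ`**: the dichotomy at `p` for the Frey curve. -/
theorem frey_inertia_p_of (P : FreyPackage)
    (T2 : Finite (Submodule.torsionBy ℤ (P.freyCurve⁄Qbar).Point P.p) ∧
      Nat.card (Submodule.torsionBy ℤ (P.freyCurve⁄Qbar).Point P.p) ≤ P.p ^ 2)
    (Psi : Polynomial Qbar)
    (hint : ∀ A : ValuationSubring Qbar, A.LiesOverPrime P.p →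
      ∀ i, A.valuation (Psi.coeff i) ≤ 1)
    (hlead : Psi.leadingCoeff = (P.p : Qbar))
    (hroot : ∀ x : Submodule.torsionBy ℤ (P.freyCurve⁄Qbar).Point P.p, x ≠ 0 →
      Psi.IsRoot (xOf x.1))
    (N : Submodule (ZMod P.p) (Submodule.torsionBy ℤ (P.freyCurve⁄Qbar).Point P.p))
    (hN : ∀ σ : GQ, ∀ x ∈ N, σ • x ∈ N) (hN0 : N ≠ ⊥) (hN1 : N ≠ ⊤) :
    (∀ A : ValuationSubring Qbar, A.LiesOverPrime P.p →
      ∀ σ ∈ A.inertiaSubgroupIn ℚ, ∀ x ∈ N, σ • x = x) ∨
    (∀ A : ValuationSubring Qbar, A.LiesOverPrime P.p →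
      ∀ σ ∈ A.inertiaSubgroupIn ℚ,
        ∀ x : Submodule.torsionBy ℤ (P.freyCurve⁄Qbar).Point P.p, σ • x - x ∈ N) := by
  have hp2 : P.p ≠ 2 := by have := P.hp5; omega
  refine inertia_dichotomy P.pp T2 ?_ ?_ Psi hint hlead hroot N hN hN0 hN1
  · intro A hA
    have hvq : A.valuation (P.p : Qbar) < 1 := hA
    exact frey_isIntegralW P A.valuation P.pp hp2 hvq
  · intro A hA σ hσ x
    have hx : P.p • x.1 = 0 := by
      have := x.2
      rw [Submodule.mem_torsionBy_iff, Nat.cast_smul_eq_nsmul] at this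
      exact this
    exact frey_fact1 P P.pp hp2 A hA σ hσ x.1 hx

end frey

end Fermat.Agent.S13
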