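import Mathlib

set_option autoImplicit false

/-!
# S13 / M1: degrees and leading coefficients of the x-only ladder polynomials

Abstract interface `LadderRel`: any family `A B : ℕ → R[X]` satisfying the binary ladder
relations (doubling and differential addition with difference `P`).
-/

namespace Fermat.Agent.S13

open Polynomial

variable {R : Type*} [CommRing R]

/-- `HasLead f d c`: `f` has degree at most `d` and its coefficient at `d` is `c`. -/
def HasLead (f : R[X]) (d : ℕ) (c : R) : Prop := f.natDegree ≤ d ∧ f.coeff d = c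

namespace HasLead

variable {f g : R[X]} {d e : ℕ} {c c' : R}

theorem natDegree_le (h : HasLead f d c) : f.natDegree ≤ d := h.1

theorem coeff_eq (h : HasLead f d c) : f.coeff d = c := h.2

theorem mul (hf : HasLead f d c) (hg : HasLead g e c') : HasLead (f * g) (d + e) (c * c') :=
  ⟨natDegree_mul_le_of_le hf.1 hg.1, by rw [coeff_mul_add_eq_of_natDegree_le hf.1 hg.1, hf.2, hg.2]⟩

theorem pow (hf : HasLead f d c) (k : ℕ) : HasLead (f ^ k) (k * d) (c ^ k) :=
  ⟨natDegree_pow_le_of_le k hf.1, by rw [coeff_pow_of_natDegree_le hf.1, hf.2]⟩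

theorem add (hf : HasLead f d c) (hg : HasLead g d c') : HasLead (f + g) d (c + c') :=
  ⟨natDegree_add_le_of_degree_le hf.1 hg.1, by rw [coeff_add, hf.2, hg.2]⟩

theorem neg (hf : HasLead f d c) : HasLead (-f) d (-c) :=
  ⟨by rw [natDegree_neg]; exact hf.1, by rw [coeff_neg, hf.2]⟩

theorem sub (hf : HasLead f d c) (hg : HasLead g d c') : HasLead (f - g) d (c - c') := by
  rw [sub_eq_add_neg, sub_eq_add_neg]; exact hf.add hg.neg

theorem raise (hf : HasLead f d c) (h : d < e) : HasLead f e 0 :=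
  ⟨hf.1.trans h.le, coeff_eq_zero_of_natDegree_lt (hf.1.trans_lt h)⟩

theorem cast (hf : HasLead f d c) (hd : d = e) (hc : c = c') : HasLead f e c' := by
  subst hd; subst hc; exact hf

theorem C_mul (a : R) (hf : HasLead f d c) : HasLead (C a * f) d (a * c) :=
  ⟨(natDegree_C_mul_le a f).trans hf.1, by rw [coeff_C_mul, hf.2]⟩

theorem add_lower (hf : HasLead f d c) (hg : HasLead g e c') (h : e < d) :
    HasLead (f + g) d c := by
  have := hf.add (hg.raise h); rwa [add_zero] at this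

theorem sub_lower (hf : HasLead f d c) (hg : HasLead g e c') (h : e < d) :
    HasLead (f - g) d c := by
  have := hf.sub (hg.raise h); rwa [sub_zero] at this

end HasLead

theorem hasLead_X : HasLead (X : R[X]) 1 1 :=
  ⟨natDegree_X_le, coeff_X_one⟩

theorem hasLead_one : HasLead (1 : R[X]) 0 1 :=
  ⟨by simp, coeff_one_zero⟩

theorem hasLead_natCast (k : ℕ) : HasLead ((k : R[X])) 0 (k : R) :=
  ⟨by simp, by simp⟩

theorem hasLead_ofNat_mul (k : ℕ) {f : R[X]} {d : ℕ} {c : R} (hf : HasLead f d c) :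
    HasLead ((k : R[X]) * f) d ((k : R) * c) := by
  have := (hasLead_natCast (R := R) k).mul hf
  rwa [zero_add] at this

/-- The binary ladder relations (doubling and differential addition with difference `P`). -/
structure LadderRel (b2 b4 b6 b8 : R) (A B : ℕ → R[X]) : Prop where
  A_one : A 1 = X
  B_one : B 1 = 1
  A_dbl : ∀ n : ℕ, 1 ≤ n → A (2 * n) =
    A n ^ 4 - C b4 * A n ^ 2 * B n ^ 2 - 2 * C b6 * A n * B n ^ 3 - C b8 * B n ^ 4
  B_dbl : ∀ n : ℕ, 1 ≤ n → B (2 * n) =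
    B n * (4 * A n ^ 3 + C b2 * A n ^ 2 * B n + 2 * C b4 * A n * B n ^ 2 + C b6 * B n ^ 3)
  B_add : ∀ n : ℕ, 1 ≤ n → B (2 * n + 1) = (A n * B (n + 1) - A (n + 1) * B n) ^ 2
  A_add : ∀ n : ℕ, 1 ≤ n → A (2 * n + 1) =
    2 * A n * A (n + 1) * (A n * B (n + 1) + A (n + 1) * B n)
      + C b2 * A n * A (n + 1) * B n * B (n + 1)
      + C b4 * (A n * B (n + 1) + A (n + 1) * B n) * B n * B (n + 1)
      + C b6 * B n ^ 2 * B (n + 1) ^ 2 - X * B (2 * n + 1)

/-- the odd "division polynomial" of the ladder: `Psi n` belongs to `2 n + 1` -/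
noncomputable def ladderPsi (A B : ℕ → R[X]) (n : ℕ) : R[X] :=
  A n * B (n + 1) - A (n + 1) * B n


section degrees

variable {b2 b4 b6 b8 : R} {A B : ℕ → R[X]}

/-- doubling step for `A` -/
theorem hasLead_A_dbl {a b : R[X]} {k : ℕ} {c : R} (hk : 1 ≤ k) (ha : HasLead a k 1)
    (hb : HasLead b (k - 1) c) :
    HasLead (a ^ 4 - C b4 * a ^ 2 * b ^ 2 - 2 * C b6 * a * b ^ 3 - C b8 * b ^ 4) (4 * k) 1 := by
  have h1 : HasLead (a ^ 4) (4 * k) 1 := (ha.pow 4).cast rfl (one_pow 4)
  have h2 := ((ha.pow 2).C_mul b4).mul (hb.pow 2)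
  have h3 := (hasLead_ofNat_mul 2 ((ha.C_mul b6).mul (hb.pow 3)))
  have h4 := (hb.pow 4).C_mul b8
  have e2 : C b4 * a ^ 2 * b ^ 2 = C b4 * a ^ 2 * b ^ 2 := rfl
  have e3 : 2 * C b6 * a * b ^ 3 = ((2 : ℕ) : R[X]) * (C b6 * a * b ^ 3) := by
    push_cast; ring
  rw [e3]
  exact ((h1.sub_lower h2 (by omega)).sub_lower h3 (by omega)).sub_lower h4 (by omega)

/-- doubling step for `B` -/
theorem hasLead_B_dbl {a b : R[X]} {k : ℕ} {c : R} (hk : 1 ≤ k) (ha : HasLead a k 1)
    (hb : HasLead b (k - 1) c) :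
    HasLead (b * (4 * a ^ 3 + C b2 * a ^ 2 * b + 2 * C b4 * a * b ^ 2 + C b6 * b ^ 3))
      (4 * k - 1) (4 * c) := by
  have h1 : HasLead (4 * a ^ 3) (3 * k) 4 := by
    have := hasLead_ofNat_mul 4 (ha.pow 3)
    simpa using this
  have h2 := ((ha.pow 2).C_mul b2).mul hb
  have h3 := hasLead_ofNat_mul 2 ((ha.C_mul b4).mul (hb.pow 2))
  have h4 := (hb.pow 3).C_mul b6
  have e3 : 2 * C b4 * a * b ^ 2 = ((2 : ℕ) : R[X]) * (C b4 * a * b ^ 2) := by
    push_cast; ring
  rw [e3]
  have hs := ((h1.add_lower h2 (by omega)).add_lower h3 (by omega)).add_lower h4 (by omega)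
  exact (hb.mul hs).cast (by omega) (by ring)

/-- the odd `Psi` -/
theorem hasLead_psi {a b a' b' : R[X]} {k k' : ℕ} {c c' : R} (hk : 1 ≤ k) (hk' : 1 ≤ k')
    (ha : HasLead a k 1) (hb : HasLead b (k - 1) c)
    (ha' : HasLead a' k' 1) (hb' : HasLead b' (k' - 1) c') :
    HasLead (a * b' - a' * b) (k + k' - 1) (c' - c) := by
  have h1 := ha.mul hb'
  have h2 := ha'.mul hb
  exact (h1.cast (by omega) (one_mul _)).sub (h2.cast (by omega) (one_mul _))

/-- differential addition step for `A` -/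
theorem hasLead_A_add {a b a' b' : R[X]} {k k' : ℕ} {c c' : R} (hk : 1 ≤ k) (hk' : 1 ≤ k')
    (ha : HasLead a k 1) (hb : HasLead b (k - 1) c)
    (ha' : HasLead a' k' 1) (hb' : HasLead b' (k' - 1) c') :
    HasLead (2 * a * a' * (a * b' + a' * b) + C b2 * a * a' * b * b'
      + C b4 * (a * b' + a' * b) * b * b' + C b6 * b ^ 2 * b' ^ 2
      - X * (a * b' - a' * b) ^ 2) (2 * (k + k') - 1) (2 * (c + c') - (c' - c) ^ 2) := by
  have hp := hasLead_psi hk hk' ha hb ha' hb'
  have hsum : HasLead (a * b' + a' * b) (k + k' - 1) (c' + c) :=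
    ((ha.mul hb').cast (by omega) (one_mul _)).add ((ha'.mul hb).cast (by omega) (one_mul _))
  have h1 : HasLead (2 * a * a' * (a * b' + a' * b)) (2 * (k + k') - 1) (2 * (c + c')) := by
    have := hasLead_ofNat_mul 2 ((ha.mul ha').mul hsum)
    have e : 2 * a * a' * (a * b' + a' * b) = ((2 : ℕ) : R[X]) * (a * a' * (a * b' + a' * b)) := by
      push_cast; ring
    rw [e]
    exact this.cast (by omega) (by push_cast; ring)
  have h2 := (((ha.C_mul b2).mul ha').mul hb).mul hb'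
  have h3 := ((hsum.C_mul b4).mul hb).mul hb'
  have h4 := ((hb.pow 2).C_mul b6).mul (hb'.pow 2)
  have h5 : HasLead (X * (a * b' - a' * b) ^ 2) (2 * (k + k') - 1) ((c' - c) ^ 2) :=
    (hasLead_X.mul (hp.pow 2)).cast (by omega) (one_mul _)
  exact (((h1.add_lower h2 (by omega)).add_lower h3 (by omega)).add_lower h4 (by omega)).sub h5

theorem LadderRel.hasLead (h : LadderRel b2 b4 b6 b8 A B) :
    ∀ n : ℕ, 1 ≤ n →
      HasLead (A n) (n ^ 2) 1 ∧ HasLead (B n) (n ^ 2 - 1) ((n : R) ^ 2) := by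
  intro n
  induction n using Nat.strong_induction_on with
  | _ n ih =>
    intro hn
    rcases Nat.lt_or_ge n 2 with h2 | h2
    · have h1 : n = 1 := by omega
      subst h1
      refine ⟨?_, ?_⟩
      · rw [h.A_one]; exact hasLead_X
      · rw [h.B_one]; exact hasLead_one.cast (by norm_num) (by norm_num)
    · rcases Nat.even_or_odd' n with ⟨m, hm | hm⟩
      · -- n = 2 m
        have hm1 : 1 ≤ m := by omega
        obtain ⟨hA, hB⟩ := ih m (by omega) hm1
        have hk : 1 ≤ m ^ 2 := Nat.one_le_pow _ _ hm1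
        have e : n ^ 2 = 4 * m ^ 2 := by rw [hm]; ring
        subst hm
        refine ⟨?_, ?_⟩
        · rw [h.A_dbl m hm1]
          exact (hasLead_A_dbl hk hA hB).cast e.symm rfl
        · rw [h.B_dbl m hm1]
          exact (hasLead_B_dbl hk hA hB).cast (by rw [e]) (by push_cast; ring)
      · -- n = 2 m + 1
        have hm1 : 1 ≤ m := by omega
        obtain ⟨hA, hB⟩ := ih m (by omega) hm1
        obtain ⟨hA', hB'⟩ := ih (m + 1) (by omega) (by omega)
        have hk : 1 ≤ m ^ 2 := Nat.one_le_pow _ _ hm1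
        have hk' : 1 ≤ (m + 1) ^ 2 := Nat.one_le_pow _ _ (by omega)
        have e : n ^ 2 = 2 * (m ^ 2 + (m + 1) ^ 2) - 1 := by
          rw [hm]
          have : (2 * m + 1) ^ 2 + 1 = 2 * (m ^ 2 + (m + 1) ^ 2) := by ring
          omega
        have e' : (m + 1) ^ 2 = m ^ 2 + 2 * m + 1 := by ring
        subst hm
        refine ⟨?_, ?_⟩
        · rw [h.A_add m hm1, h.B_add m hm1]
          exact (hasLead_A_add hk hk' hA hB hA' hB').cast e.symm (by push_cast; ring)
        · rw [h.B_add m hm1]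
          have hp := hasLead_psi hk hk' hA hB hA' hB'
          exact (hp.pow 2).cast (by rw [e]; omega) (by push_cast; ring)

theorem LadderRel.hasLead_psi (h : LadderRel b2 b4 b6 b8 A B) (n : ℕ) (hn : 1 ≤ n) :
    HasLead (ladderPsi A B n) (2 * n ^ 2 + 2 * n) (2 * (n : R) + 1) := by
  obtain ⟨hA, hB⟩ := h.hasLead n hn
  obtain ⟨hA', hB'⟩ := h.hasLead (n + 1) (by omega)
  have hk : 1 ≤ n ^ 2 := Nat.one_le_pow _ _ hn
  have hk' : 1 ≤ (n + 1) ^ 2 := Nat.one_le_pow _ _ (by omega)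
  have e' : (n + 1) ^ 2 = n ^ 2 + 2 * n + 1 := by ring
  exact (Fermat.Agent.S13.hasLead_psi hk hk' hA hB hA' hB').cast (by omega)
    (by push_cast; ring)

end degrees

section integrality

variable {b2 b4 b6 b8 : R} {A B : ℕ → R[X]}

/-- polynomials with coefficients in a subring form a subring -/
theorem coeff_mem_iff_liftsRing (S : Subring R) (f : R[X]) :
    (∀ i, f.coeff i ∈ S) ↔ f ∈ Polynomial.liftsRing S.subtype := by
  rw [← Polynomial.lifts_iff_liftsRing, Polynomial.lifts_iff_coeff_lifts]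
  simp

theorem C_mem_liftsRing (S : Subring R) {a : R} (ha : a ∈ S) :
    C a ∈ Polynomial.liftsRing S.subtype := by
  rw [← coeff_mem_iff_liftsRing]
  intro i
  rw [coeff_C]
  split_ifs
  · exact ha
  · exact S.zero_mem

theorem X_mem_liftsRing (S : Subring R) :
    (X : R[X]) ∈ Polynomial.liftsRing S.subtype := by
  rw [← coeff_mem_iff_liftsRing]
  intro i
  rw [coeff_X]
  split_ifs
  · exact S.one_mem
  · exact S.zero_mem

theorem LadderRel.mem_liftsRing (h : LadderRel b2 b4 b6 b8 A B) (S : Subring R)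
    (h2 : b2 ∈ S) (h4 : b4 ∈ S) (h6 : b6 ∈ S) (h8 : b8 ∈ S) :
    ∀ n : ℕ, 1 ≤ n →
      A n ∈ Polynomial.liftsRing S.subtype ∧ B n ∈ Polynomial.liftsRing S.subtype := by
  intro n
  induction n using Nat.strong_induction_on with
  | _ n ih =>
    intro hn
    set T := Polynomial.liftsRing S.subtype with hT
    have c2 : C b2 ∈ T := C_mem_liftsRing S h2
    have c4 : C b4 ∈ T := C_mem_liftsRing S h4
    have c6 : C b6 ∈ T := C_mem_liftsRing S h6
    have c8 : C b8 ∈ T := C_mem_liftsRing S h8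
    have cX : (X : R[X]) ∈ T := X_mem_liftsRing S
    have two : (2 : R[X]) ∈ T := by
      have : ((2 : ℕ) : R[X]) ∈ T := natCast_mem T 2
      exact_mod_cast this
    have four : (4 : R[X]) ∈ T := by
      have : ((4 : ℕ) : R[X]) ∈ T := natCast_mem T 4
      exact_mod_cast this
    rcases Nat.lt_or_ge n 2 with h2' | h2'
    · have h1 : n = 1 := by omega
      subst h1
      rw [h.A_one, h.B_one]
      exact ⟨cX, T.one_mem⟩
    · rcases Nat.even_or_odd' n with ⟨m, hm | hm⟩
      · have hm1 : 1 ≤ m := by omega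
        obtain ⟨hA, hB⟩ := ih m (by omega) hm1
        subst hm
        rw [h.A_dbl m hm1, h.B_dbl m hm1]
        refine ⟨?_, ?_⟩
        · exact T.sub_mem (T.sub_mem (T.sub_mem (T.pow_mem hA 4)
            (T.mul_mem (T.mul_mem c4 (T.pow_mem hA 2)) (T.pow_mem hB 2)))
            (T.mul_mem (T.mul_mem (T.mul_mem two c6) hA) (T.pow_mem hB 3)))
            (T.mul_mem c8 (T.pow_mem hB 4))
        · exact T.mul_mem hB (T.add_mem (T.add_mem (T.add_mem
            (T.mul_mem four (T.pow_mem hA 3))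
            (T.mul_mem (T.mul_mem c2 (T.pow_mem hA 2)) hB))
            (T.mul_mem (T.mul_mem (T.mul_mem two c4) hA) (T.pow_mem hB 2)))
            (T.mul_mem c6 (T.pow_mem hB 3)))
      · have hm1 : 1 ≤ m := by omega
        obtain ⟨hA, hB⟩ := ih m (by omega) hm1
        obtain ⟨hA', hB'⟩ := ih (m + 1) (by omega) (by omega)
        subst hm
        have hB2 : B (2 * m + 1) ∈ T := by
          rw [h.B_add m hm1]
          exact T.pow_mem (T.sub_mem (T.mul_mem hA hB') (T.mul_mem hA' hB)) 2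
        refine ⟨?_, hB2⟩
        rw [h.A_add m hm1]
        have hs : A m * B (m + 1) + A (m + 1) * B m ∈ T :=
          T.add_mem (T.mul_mem hA hB') (T.mul_mem hA' hB)
        exact T.sub_mem (T.add_mem (T.add_mem (T.add_mem
          (T.mul_mem (T.mul_mem (T.mul_mem two hA) hA') hs)
          (T.mul_mem (T.mul_mem (T.mul_mem (T.mul_mem c2 hA) hA') hB) hB'))
          (T.mul_mem (T.mul_mem (T.mul_mem c4 hs) hB) hB'))
          (T.mul_mem (T.mul_mem c6 (T.pow_mem hB 2)) (T.pow_mem hB' 2)))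
          (T.mul_mem cX hB2)

/-- all coefficients of the ladder polynomials lie in any subring containing the `b`'s -/
theorem LadderRel.coeff_mem (h : LadderRel b2 b4 b6 b8 A B) (S : Subring R)
    (h2 : b2 ∈ S) (h4 : b4 ∈ S) (h6 : b6 ∈ S) (h8 : b8 ∈ S) (n : ℕ) (hn : 1 ≤ n) (i : ℕ) :
    (A n).coeff i ∈ S ∧ (B n).coeff i ∈ S := by
  obtain ⟨hA, hB⟩ := h.mem_liftsRing S h2 h4 h6 h8 n hn
  exact ⟨(coeff_mem_iff_liftsRing S _).mpr hA i, (coeff_mem_iff_liftsRing S _).mpr hB i⟩

theorem LadderRel.coeff_psi_mem (h : LadderRel b2 b4 b6 b8 A B) (S : Subring R)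
    (h2 : b2 ∈ S) (h4 : b4 ∈ S) (h6 : b6 ∈ S) (h8 : b8 ∈ S) (n : ℕ) (hn : 1 ≤ n) (i : ℕ) :
    (ladderPsi A B n).coeff i ∈ S := by
  obtain ⟨hA, hB⟩ := h.mem_liftsRing S h2 h4 h6 h8 n hn
  obtain ⟨hA', hB'⟩ := h.mem_liftsRing S h2 h4 h6 h8 (n + 1) (by omega)
  refine (coeff_mem_iff_liftsRing S _).mpr ?_ i
  exact Subring.sub_mem _ (Subring.mul_mem _ hA hB') (Subring.mul_mem _ hA' hB)

/-- base change of a ladder along a ring homomorphism -/
theorem LadderRel.map {R' : Type*} [CommRing R'] (φ : R →+* R')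
    (h : LadderRel b2 b4 b6 b8 A B) :
    LadderRel (φ b2) (φ b4) (φ b6) (φ b8) (fun n => (A n).map φ) (fun n => (B n).map φ) where
  A_one := by simp [h.A_one]
  B_one := by simp [h.B_one]
  A_dbl n hn := by simp [h.A_dbl n hn]
  B_dbl n hn := by simp [h.B_dbl n hn]
  B_add n hn := by simp [h.B_add n hn]
  A_add n hn := by
    have := h.B_add n hn
    simp [h.A_add n hn, this]

end integrality

section charZero

variable {b2 b4 b6 b8 : R} {A B : ℕ → R[X]}

theorem LadderRel.psi_ne_zero [CharZero R] (h : LadderRel b2 b4 b6 b8 A B) (n : ℕ)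
    (hn : 1 ≤ n) : ladderPsi A B n ≠ 0 := by
  intro h0
  have := (h.hasLead_psi n hn).2
  rw [h0, coeff_zero] at this
  have h1 : ((2 * n + 1 : ℕ) : R) = 0 := by push_cast; exact this.symm
  exact absurd (Nat.cast_eq_zero.mp h1) (by omega)

theorem LadderRel.natDegree_psi [CharZero R] (h : LadderRel b2 b4 b6 b8 A B) (n : ℕ)
    (hn : 1 ≤ n) : (ladderPsi A B n).natDegree = 2 * n ^ 2 + 2 * n := by
  refine le_antisymm (h.hasLead_psi n hn).1 ?_
  refine le_natDegree_of_ne_zero ?_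
  rw [(h.hasLead_psi n hn).2]
  have h1 : ((2 * n + 1 : ℕ) : R) ≠ 0 := Nat.cast_ne_zero.mpr (by omega)
  intro h0
  apply h1
  push_cast
  exact h0

theorem LadderRel.leadingCoeff_psi [CharZero R] (h : LadderRel b2 b4 b6 b8 A B) (n : ℕ)
    (hn : 1 ≤ n) : (ladderPsi A B n).leadingCoeff = 2 * (n : R) + 1 := by
  rw [leadingCoeff, h.natDegree_psi n hn, (h.hasLead_psi n hn).2]

theorem LadderRel.B_eq_psi_sq (h : LadderRel b2 b4 b6 b8 A B) (n : ℕ) (hn : 1 ≤ n) :
    B (2 * n + 1) = ladderPsi A B n ^ 2 := h.B_add n hn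

theorem LadderRel.monic_A [Nontrivial R] (h : LadderRel b2 b4 b6 b8 A B) (n : ℕ) (hn : 1 ≤ n) :
    (A n).Monic ∧ (A n).natDegree = n ^ 2 := by
  obtain ⟨hA, -⟩ := h.hasLead n hn
  have hd : (A n).natDegree = n ^ 2 := by
    refine le_antisymm hA.1 (le_natDegree_of_ne_zero ?_)
    rw [hA.2]; exact one_ne_zero
  exact ⟨by rw [Monic, leadingCoeff, hd, hA.2], hd⟩

end charZero

end Fermat.Agent.S13
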