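import Mathlib
import Fermat.Agent.S13.LadderDeg

set_option autoImplicit false

/-!
# S13 / M1: a concrete ladder family (Montgomery ladder by binary recursion)

`ladderA b2 b4 b6 b8 n`, `ladderB b2 b4 b6 b8 n : R[X]` with
`ladderRel : LadderRel b2 b4 b6 b8 (ladderA b2 b4 b6 b8) (ladderB b2 b4 b6 b8)`.
-/

namespace Fermat.Agent.S13

open Polynomial

variable {R : Type*} [CommRing R] (b2 b4 b6 b8 : R)

/-- doubling, numerator -/
noncomputable def ldblA (a b : R[X]) : R[X] :=
  a ^ 4 - C b4 * a ^ 2 * b ^ 2 - 2 * C b6 * a * b ^ 3 - C b8 * b ^ 4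

/-- doubling, denominator -/
noncomputable def ldblB (a b : R[X]) : R[X] :=
  b * (4 * a ^ 3 + C b2 * a ^ 2 * b + 2 * C b4 * a * b ^ 2 + C b6 * b ^ 3)

/-- differential addition, denominator -/
noncomputable def laddB (a b a' b' : R[X]) : R[X] := (a * b' - a' * b) ^ 2

/-- differential addition, numerator -/
noncomputable def laddA (a b a' b' : R[X]) : R[X] :=
  2 * a * a' * (a * b' + a' * b) + C b2 * a * a' * b * b'
    + C b4 * (a * b' + a' * b) * b * b' + C b6 * b ^ 2 * b' ^ 2 - X * (a * b' - a' * b) ^ 2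

/-- one step of the Montgomery ladder on the pair `(n P, (n+1) P)` -/
noncomputable def ladderStep (bit : Bool) (s : (R[X] × R[X]) × (R[X] × R[X])) :
    (R[X] × R[X]) × (R[X] × R[X]) :=
  if bit then
    ((laddA b2 b4 b6 s.1.1 s.1.2 s.2.1 s.2.2, laddB s.1.1 s.1.2 s.2.1 s.2.2),
      (ldblA b4 b6 b8 s.2.1 s.2.2, ldblB b2 b4 b6 s.2.1 s.2.2))
  else
    ((ldblA b4 b6 b8 s.1.1 s.1.2, ldblB b2 b4 b6 s.1.1 s.1.2),
      (laddA b2 b4 b6 s.1.1 s.1.2 s.2.1 s.2.2, laddB s.1.1 s.1.2 s.2.1 s.2.2))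

/-- the Montgomery ladder: `ladderPair n = ((A n, B n), (A (n+1), B (n+1)))` -/
noncomputable def ladderPair (n : ℕ) : (R[X] × R[X]) × (R[X] × R[X]) :=
  Nat.binaryRec (motive := fun _ => (R[X] × R[X]) × (R[X] × R[X])) ((1, 0), (X, 1))
    (fun bit _ s => ladderStep b2 b4 b6 b8 bit s) n

/-- numerator of `x(n P)` -/
noncomputable def ladderA (n : ℕ) : R[X] := (ladderPair b2 b4 b6 b8 n).1.1

/-- denominator of `x(n P)` -/
noncomputable def ladderB (n : ℕ) : R[X] := (ladderPair b2 b4 b6 b8 n).1.2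

theorem ladderStep_false_init :
    ladderStep b2 b4 b6 b8 false ((1, 0), (X, 1)) = (((1 : R[X]), (0 : R[X])), ((X : R[X]), (1 : R[X]))) := by
  simp only [ladderStep, Bool.false_eq_true, if_false, ldblA, ldblB, laddA, laddB]
  refine Prod.ext (Prod.ext ?_ ?_) (Prod.ext ?_ ?_) <;> simp
  ring

theorem ladderStep_true_init_fst :
    (ladderStep b2 b4 b6 b8 true ((1, 0), (X, 1))).1 = ((X : R[X]), (1 : R[X])) := by
  simp only [ladderStep, if_true, laddA, laddB]
  refine Prod.ext ?_ ?_ <;> simp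
  ring

theorem ladderPair_zero : ladderPair b2 b4 b6 b8 0 = ((1, 0), (X, 1)) := by
  simp [ladderPair]

theorem ladderPair_bit (b : Bool) (n : ℕ) :
    ladderPair b2 b4 b6 b8 (Nat.bit b n) = ladderStep b2 b4 b6 b8 b (ladderPair b2 b4 b6 b8 n) := by
  unfold ladderPair
  exact Nat.binaryRec_eq (motive := fun _ => (R[X] × R[X]) × (R[X] × R[X])) b n
    (Or.inl (ladderStep_false_init b2 b4 b6 b8))

theorem ladderPair_two_mul (n : ℕ) :
    ladderPair b2 b4 b6 b8 (2 * n) = ladderStep b2 b4 b6 b8 false (ladderPair b2 b4 b6 b8 n) := by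
  rw [← ladderPair_bit, Nat.bit_false_apply]

theorem ladderPair_two_mul_add_one (n : ℕ) :
    ladderPair b2 b4 b6 b8 (2 * n + 1) =
      ladderStep b2 b4 b6 b8 true (ladderPair b2 b4 b6 b8 n) := by
  rw [← ladderPair_bit, Nat.bit_true_apply]

theorem ladderPair_snd (n : ℕ) :
    (ladderPair b2 b4 b6 b8 n).2 = (ladderPair b2 b4 b6 b8 (n + 1)).1 := by
  induction n using Nat.binaryRec with
  | zero =>
    have h1 : ladderPair b2 b4 b6 b8 (0 + 1) =
        ladderStep b2 b4 b6 b8 true (ladderPair b2 b4 b6 b8 0) := by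
      have := ladderPair_two_mul_add_one b2 b4 b6 b8 0
      simpa using this
    rw [h1, ladderPair_zero, ladderStep_true_init_fst]
  | bit b n ih =>
    cases b
    · rw [Nat.bit_false_apply, ladderPair_two_mul, ladderPair_two_mul_add_one]
      simp [ladderStep]
    · rw [Nat.bit_true_apply, ladderPair_two_mul_add_one]
      have e : 2 * n + 1 + 1 = 2 * (n + 1) := by ring
      rw [e, ladderPair_two_mul]
      simp only [ladderStep, if_true, Bool.false_eq_true, if_false]
      rw [ih]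

theorem ladderA_succ_eq (n : ℕ) :
    (ladderPair b2 b4 b6 b8 n).2.1 = ladderA b2 b4 b6 b8 (n + 1) := by
  rw [ladderPair_snd]; rfl

theorem ladderB_succ_eq (n : ℕ) :
    (ladderPair b2 b4 b6 b8 n).2.2 = ladderB b2 b4 b6 b8 (n + 1) := by
  rw [ladderPair_snd]; rfl

/-- the concrete ladder satisfies the ladder relations -/
theorem ladderRel : LadderRel b2 b4 b6 b8 (ladderA b2 b4 b6 b8) (ladderB b2 b4 b6 b8) where
  A_one := by
    have := ladderPair_snd b2 b4 b6 b8 0
    rw [ladderPair_zero] at this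
    simp only [ladderA]
    rw [zero_add] at this
    rw [← this]
  B_one := by
    have := ladderPair_snd b2 b4 b6 b8 0
    rw [ladderPair_zero] at this
    simp only [ladderB]
    rw [zero_add] at this
    rw [← this]
  A_dbl n _ := by
    simp only [ladderA, ladderB]
    rw [ladderPair_two_mul]
    simp [ladderStep, ldblA]
  B_dbl n _ := by
    simp only [ladderA, ladderB]
    rw [ladderPair_two_mul]
    simp [ladderStep, ldblB]
  B_add n _ := by
    have e1 := ladderA_succ_eq b2 b4 b6 b8 n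
    have e2 := ladderB_succ_eq b2 b4 b6 b8 n
    have h : ladderB b2 b4 b6 b8 (2 * n + 1) =
        laddB (ladderA b2 b4 b6 b8 n) (ladderB b2 b4 b6 b8 n)
          (ladderPair b2 b4 b6 b8 n).2.1 (ladderPair b2 b4 b6 b8 n).2.2 := by
      simp only [ladderA, ladderB]
      rw [ladderPair_two_mul_add_one]
      simp [ladderStep]
    rw [h, e1, e2, laddB]
  A_add n _ := by
    have e1 := ladderA_succ_eq b2 b4 b6 b8 n
    have e2 := ladderB_succ_eq b2 b4 b6 b8 n
    have h : ladderA b2 b4 b6 b8 (2 * n + 1) =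
        laddA b2 b4 b6 (ladderA b2 b4 b6 b8 n) (ladderB b2 b4 b6 b8 n)
          (ladderPair b2 b4 b6 b8 n).2.1 (ladderPair b2 b4 b6 b8 n).2.2 := by
      simp only [ladderA, ladderB]
      rw [ladderPair_two_mul_add_one]
      simp [ladderStep]
    have h' : ladderB b2 b4 b6 b8 (2 * n + 1) =
        laddB (ladderA b2 b4 b6 b8 n) (ladderB b2 b4 b6 b8 n)
          (ladderPair b2 b4 b6 b8 n).2.1 (ladderPair b2 b4 b6 b8 n).2.2 := by
      simp only [ladderA, ladderB]
      rw [ladderPair_two_mul_add_one]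
      simp [ladderStep]
    rw [h, h', e1, e2, laddA, laddB]

end Fermat.Agent.S13
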