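import Mathlib
import Fermat.Agent.S13.LadderDeg
import Fermat.Agent.S51.Double
import Fermat.Agent.S51.FiveExists
import Fermat.Agent.S05.XOnly

set_option autoImplicit false

/-!
# S13 / M1 (L1): correctness of the x-only ladder at points

For a family `A B` with `LadderRel W.b₂ W.b₄ W.b₆ W.b₈ A B` over a field of characteristic zero
and a nonsingular point `P₀ = (x₀, y₀)`:
the pair `((A n).eval x₀, (B n).eval x₀)` is a projective `x`-coordinate of `n • P₀`
(`LadderRel.rep`).  In particular `n • P₀ = 0 ↔ (B n).eval x₀ = 0`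
and `(2 n + 1) • P₀ = 0 ↔ (ladderPsi A B n).eval x₀ = 0`.
-/

open WeierstrassCurve Polynomial

namespace Fermat.Agent.S13

open Fermat.Agent.S51 (f2 phi2 psi3)

variable {K : Type*} [Field K] [DecidableEq K] (W : WeierstrassCurve K)

/-- `(a, b)` is a projective `x`-coordinate of the point `Q` (`(a, 0)`, `a ≠ 0`, for `Q = 0`) -/
def Rep (Q : W.toAffine.Point) (a b : K) : Prop :=
  (Q = 0 → b = 0 ∧ a ≠ 0) ∧
    ∀ (x y : K) (h : W.toAffine.Nonsingular x y), Q = Affine.Point.some x y h → b ≠ 0 ∧ a = x * b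

variable {W}

omit [DecidableEq K] in
theorem rep_zero {a : K} (ha : a ≠ 0) : Rep W 0 a 0 :=
  ⟨fun _ => ⟨rfl, ha⟩, fun _ _ h h0 => absurd h0.symm (Affine.Point.some_ne_zero h)⟩

omit [DecidableEq K] in
theorem rep_some {x y a b : K} (h : W.toAffine.Nonsingular x y) (hb : b ≠ 0) (ha : a = x * b) :
    Rep W (Affine.Point.some x y h) a b := by
  refine ⟨fun h0 => absurd h0 (Affine.Point.some_ne_zero h), fun x' y' h' he => ?_⟩
  have hx : x = x' := by injection he
  subst hx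
  exact ⟨hb, ha⟩

omit [DecidableEq K] in
theorem Rep.eq_zero_iff {Q : W.toAffine.Point} {a b : K} (h : Rep W Q a b) : Q = 0 ↔ b = 0 := by
  constructor
  · intro h0; exact (h.1 h0).1
  · intro hb
    rcases Q with _ | ⟨x, y, hxy⟩
    · rfl
    · exact absurd hb (h.2 x y hxy rfl).1

omit [DecidableEq K] in
theorem Rep.ne_zero {Q : W.toAffine.Point} {a b : K} (h : Rep W Q a b) : a ≠ 0 ∨ b ≠ 0 := by
  rcases Q with _ | ⟨x, y, hxy⟩
  · exact Or.inl (h.1 rfl).2
  · exact Or.inr (h.2 x y hxy rfl).1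

omit [DecidableEq K] in
theorem phi2_ne_zero_of_f2 [CharZero K] {x y : K} (h : W.toAffine.Nonsingular x y)
    (hf : f2 W x = 0) : phi2 W x ≠ 0 := by
  intro hp
  have h3 : psi3 W x = 0 := by
    rw [Fermat.Agent.S51.psi3_eq, hf, hp]; ring
  exact Fermat.Agent.S51.FiveExists.f2_ne_zero_of_psi3 W h h3 hf

/-- doubling -/
theorem rep_dbl [CharZero K] {Q : W.toAffine.Point} {a b : K} (h : Rep W Q a b) :
    Rep W (Q + Q) (a ^ 4 - W.b₄ * a ^ 2 * b ^ 2 - 2 * W.b₆ * a * b ^ 3 - W.b₈ * b ^ 4)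
      (b * (4 * a ^ 3 + W.b₂ * a ^ 2 * b + 2 * W.b₄ * a * b ^ 2 + W.b₆ * b ^ 3)) := by
  rcases Q with _ | ⟨x, y, hxy⟩
  · obtain ⟨hb, ha⟩ := h.1 rfl
    subst hb
    have e : (Affine.Point.zero : W.toAffine.Point) + Affine.Point.zero = 0 := add_zero _
    rw [e]
    have := rep_zero (W := W) (pow_ne_zero 4 ha)
    convert this using 1 <;> ring
  · obtain ⟨hb, ha⟩ := h.2 x y hxy rfl
    have ea : a ^ 4 - W.b₄ * a ^ 2 * b ^ 2 - 2 * W.b₆ * a * b ^ 3 - W.b₈ * b ^ 4
        = b ^ 4 * phi2 W x := by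
      rw [ha]; simp only [phi2]; ring
    have eb : b * (4 * a ^ 3 + W.b₂ * a ^ 2 * b + 2 * W.b₄ * a * b ^ 2 + W.b₆ * b ^ 3)
        = b ^ 4 * f2 W x := by
      rw [ha]; simp only [f2]; ring
    rw [ea, eb]
    by_cases hf : f2 W x = 0
    · rw [(Fermat.Agent.S51.add_self_eq_zero_iff W hxy).mpr hf, hf, mul_zero]
      exact rep_zero (mul_ne_zero (pow_ne_zero 4 hb) (phi2_ne_zero_of_f2 hxy hf))
    · rcases hQQ : Affine.Point.some x y hxy + Affine.Point.some x y hxy with _ | ⟨x', y', h'⟩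
      · exact absurd ((Fermat.Agent.S51.add_self_eq_zero_iff W hxy).mp hQQ) hf
      · obtain ⟨e1, -⟩ := Fermat.Agent.S51.add_self_x W hxy h' hQQ
        refine rep_some h' (mul_ne_zero (pow_ne_zero 4 hb) hf) ?_
        rw [← e1]; ring

/-- differential addition: `Q' - Q = P₀` -/
theorem rep_add {Q Q' : W.toAffine.Point} {a b a' b' x₀ y₀ : K}
    (h₀ : W.toAffine.Nonsingular x₀ y₀)
    (h : Rep W Q a b) (h' : Rep W Q' a' b') (hd : Q' - Q = Affine.Point.some x₀ y₀ h₀) :
    Rep W (Q + Q')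
      (2 * a * a' * (a * b' + a' * b) + W.b₂ * a * a' * b * b'
        + W.b₄ * (a * b' + a' * b) * b * b' + W.b₆ * b ^ 2 * b' ^ 2
        - x₀ * (a * b' - a' * b) ^ 2)
      ((a * b' - a' * b) ^ 2) := by
  rcases Q with _ | ⟨x₁, y₁, h₁⟩
  · -- `Q = 0`, so `Q' = P₀`
    obtain ⟨hb, ha⟩ := h.1 rfl
    have hQ' : Q' = Affine.Point.some x₀ y₀ h₀ := by
      have e : Q' - (Affine.Point.zero : W.toAffine.Point) = Q' := sub_zero _
      rw [← hd, e]
    subst hb
    obtain ⟨hb', ha'⟩ := h'.2 x₀ y₀ h₀ hQ'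
    have e : (Affine.Point.zero : W.toAffine.Point) + Q' = Q' := zero_add _
    rw [e, hQ']
    refine rep_some h₀ (pow_ne_zero 2 ?_) ?_
    · simpa using mul_ne_zero ha hb'
    · rw [ha']; ring
  · obtain ⟨hb, ha⟩ := h.2 x₁ y₁ h₁ rfl
    rcases Q' with _ | ⟨x₂, y₂, h₂⟩
    · -- `Q' = 0`, so `-Q = P₀`
      obtain ⟨hb', ha'⟩ := h'.1 rfl
      subst hb'
      have e : (Affine.Point.zero : W.toAffine.Point) - Affine.Point.some x₁ y₁ h₁
          = - Affine.Point.some x₁ y₁ h₁ := zero_sub _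
      rw [e, Affine.Point.neg_some] at hd
      have hx : x₁ = x₀ := by injection hd
      have e2 : Affine.Point.some x₁ y₁ h₁ + (Affine.Point.zero : W.toAffine.Point)
          = Affine.Point.some x₁ y₁ h₁ := add_zero _
      rw [e2]
      refine rep_some h₁ (pow_ne_zero 2 ?_) ?_
      · simpa using mul_ne_zero ha' hb
      · rw [ha, ← hx]; ring
    · obtain ⟨hb', ha'⟩ := h'.2 x₂ y₂ h₂ rfl
      have hΨ : a * b' - a' * b = (x₁ - x₂) * (b * b') := by rw [ha, ha']; ring
      by_cases hx : x₁ = x₂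
      · -- `Q' = -Q`
        subst hx
        have hne : Affine.Point.some x₁ y₂ h₂ ≠ Affine.Point.some x₁ y₁ h₁ := by
          intro he
          rw [he, sub_self] at hd
          exact (Affine.Point.some_ne_zero h₀) hd.symm
        have hy : y₂ = W.toAffine.negY x₁ y₁ := by
          rcases Affine.Y_eq_of_X_eq h₂.1 h₁.1 rfl with hy | hy
          · exact absurd (by subst hy; rfl) hne
          · exact hy
        have hneg : Affine.Point.some x₁ y₂ h₂ = - Affine.Point.some x₁ y₁ h₁ := by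
          rw [Affine.Point.neg_some]
          subst hy
          rfl
        have hsum : Affine.Point.some x₁ y₁ h₁ + Affine.Point.some x₁ y₂ h₂ = 0 := by
          rw [hneg, add_neg_cancel]
        have hf : f2 W x₁ ≠ 0 := by
          intro hf
          have h2 := (Fermat.Agent.S51.add_self_eq_zero_iff W h₁).mpr hf
          apply hne
          rw [hneg]
          exact (eq_neg_of_add_eq_zero_left h2).symm
        rw [hsum, hΨ, sub_self, zero_mul]
        have := rep_zero (W := W) (a := (b * b') ^ 2 * f2 W x₁)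
          (mul_ne_zero (pow_ne_zero 2 (mul_ne_zero hb hb')) hf)
        convert this using 1
        · rw [ha, ha']; simp only [f2]; ring
        · ring
      · -- generic case
        obtain ⟨x₃, y₃, x₄, y₄, h₃, h₄, hadd, hsub, e1, -⟩ :=
          Fermat.Agent.S05.exists_add_sub W h₂ h₁ (Ne.symm hx)
        rw [hsub] at hd
        have hx4 : x₄ = x₀ := by injection hd
        subst hx4
        rw [add_comm, hadd]
        refine rep_some h₃ (pow_ne_zero 2 ?_) ?_
        · rw [hΨ]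
          exact mul_ne_zero (sub_ne_zero.mpr hx) (mul_ne_zero hb hb')
        · rw [ha, ha']
          linear_combination (-(b * b') ^ 2) * e1

/-- **(L1)** correctness of the ladder: `(A n (x₀), B n (x₀))` represents `x(n • P₀)`. -/
theorem LadderRel.rep [CharZero K] {A B : ℕ → K[X]}
    (h : LadderRel W.b₂ W.b₄ W.b₆ W.b₈ A B) {x₀ y₀ : K} (h₀ : W.toAffine.Nonsingular x₀ y₀) :
    ∀ n : ℕ, 1 ≤ n →
      Rep W (n • (Affine.Point.some x₀ y₀ h₀ : W.toAffine.Point))
        ((A n).eval x₀) ((B n).eval x₀) := by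
  intro n
  induction n using Nat.strong_induction_on with
  | _ n ih =>
    intro hn
    rcases Nat.lt_or_ge n 2 with h2 | h2
    · have h1 : n = 1 := by omega
      subst h1
      rw [one_smul, h.A_one, h.B_one, eval_X, eval_one]
      exact rep_some h₀ one_ne_zero (mul_one _).symm
    · rcases Nat.even_or_odd' n with ⟨m, hm | hm⟩
      · have hm1 : 1 ≤ m := by omega
        have hr := rep_dbl (ih m (by omega) hm1)
        subst hm
        have e : (2 * m) • (Affine.Point.some x₀ y₀ h₀ : W.toAffine.Point)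
            = m • (Affine.Point.some x₀ y₀ h₀ : W.toAffine.Point)
              + m • (Affine.Point.some x₀ y₀ h₀ : W.toAffine.Point) := by
          rw [two_mul, add_smul]
        rw [e, h.A_dbl m hm1, h.B_dbl m hm1]
        simp only [eval_sub, eval_add, eval_mul, eval_pow, eval_C, eval_ofNat]
        exact hr
      · have hm1 : 1 ≤ m := by omega
        have hd : (m + 1) • (Affine.Point.some x₀ y₀ h₀ : W.toAffine.Point)
            - m • (Affine.Point.some x₀ y₀ h₀ : W.toAffine.Point)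
            = Affine.Point.some x₀ y₀ h₀ := by
          rw [add_smul, one_smul, add_sub_cancel_left]
        have hr := rep_add h₀ (ih m (by omega) hm1) (ih (m + 1) (by omega) (by omega)) hd
        subst hm
        have e : (2 * m + 1) • (Affine.Point.some x₀ y₀ h₀ : W.toAffine.Point)
            = m • (Affine.Point.some x₀ y₀ h₀ : W.toAffine.Point)
              + (m + 1) • (Affine.Point.some x₀ y₀ h₀ : W.toAffine.Point) := by
          rw [← add_smul]; congr 1; ring
        rw [e, h.A_add m hm1, h.B_add m hm1]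
        simp only [eval_sub, eval_add, eval_mul, eval_pow, eval_C, eval_ofNat, eval_X]
        exact hr

theorem LadderRel.nsmul_eq_zero_iff [CharZero K] {A B : ℕ → K[X]}
    (h : LadderRel W.b₂ W.b₄ W.b₆ W.b₈ A B) {x₀ y₀ : K} (h₀ : W.toAffine.Nonsingular x₀ y₀)
    (n : ℕ) (hn : 1 ≤ n) :
    n • (Affine.Point.some x₀ y₀ h₀ : W.toAffine.Point) = 0 ↔ (B n).eval x₀ = 0 :=
  (h.rep h₀ n hn).eq_zero_iff

/-- `(2n+1) • P₀ = 0 ↔ Psi_n(x₀) = 0` -/
theorem LadderRel.nsmul_eq_zero_iff_psi [CharZero K] {A B : ℕ → K[X]}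
    (h : LadderRel W.b₂ W.b₄ W.b₆ W.b₈ A B) {x₀ y₀ : K} (h₀ : W.toAffine.Nonsingular x₀ y₀)
    (n : ℕ) (hn : 1 ≤ n) :
    (2 * n + 1) • (Affine.Point.some x₀ y₀ h₀ : W.toAffine.Point) = 0 ↔
      (ladderPsi A B n).eval x₀ = 0 := by
  rw [h.nsmul_eq_zero_iff h₀ (2 * n + 1) (by omega), h.B_eq_psi_sq n hn, eval_pow]
  exact pow_eq_zero_iff (by norm_num)

theorem LadderRel.zsmul_eq_zero_iff_psi [CharZero K] {A B : ℕ → K[X]}
    (h : LadderRel W.b₂ W.b₄ W.b₆ W.b₈ A B) {x₀ y₀ : K} (h₀ : W.toAffine.Nonsingular x₀ y₀)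
    (n : ℕ) (hn : 1 ≤ n) :
    ((2 * n + 1 : ℕ) : ℤ) • (Affine.Point.some x₀ y₀ h₀ : W.toAffine.Point) = 0 ↔
      (ladderPsi A B n).eval x₀ = 0 := by
  rw [natCast_zsmul]
  exact h.nsmul_eq_zero_iff_psi h₀ n hn

/-- the `x`-coordinate of `n • P₀` -/
theorem LadderRel.x_nsmul [CharZero K] {A B : ℕ → K[X]}
    (h : LadderRel W.b₂ W.b₄ W.b₆ W.b₈ A B) {x₀ y₀ : K} (h₀ : W.toAffine.Nonsingular x₀ y₀)
    (n : ℕ) (hn : 1 ≤ n) {x y : K} (hxy : W.toAffine.Nonsingular x y)
    (he : n • (Affine.Point.some x₀ y₀ h₀ : W.toAffine.Point) = Affine.Point.some x y hxy) :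
    (B n).eval x₀ ≠ 0 ∧ (A n).eval x₀ = x * (B n).eval x₀ :=
  (h.rep h₀ n hn).2 x y hxy he

end Fermat.Agent.S13
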