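import Mathlib
import Fermat.Agent.S13.LadderDef

set_option autoImplicit false

/-!
# S13 / M1: base change of the concrete ladder

`(ladderA b2 b4 b6 b8 n).map φ = ladderA (φ b2) (φ b4) (φ b6) (φ b8) n`, same for `ladderB`.
-/

namespace Fermat.Agent.S13

open Polynomial

variable {R : Type*} [CommRing R] {R' : Type*} [CommRing R'] (φ : R →+* R') (b2 b4 b6 b8 : R)

/-- coefficientwise image of a ladder state -/
noncomputable def ladderMapState (s : (R[X] × R[X]) × (R[X] × R[X])) :
    (R'[X] × R'[X]) × (R'[X] × R'[X]) :=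
  ((s.1.1.map φ, s.1.2.map φ), (s.2.1.map φ, s.2.2.map φ))

theorem ladderMapState_step (bit : Bool) (s : (R[X] × R[X]) × (R[X] × R[X])) :
    ladderMapState φ (ladderStep b2 b4 b6 b8 bit s) =
      ladderStep (φ b2) (φ b4) (φ b6) (φ b8) bit (ladderMapState φ s) := by
  cases bit <;>
    simp [ladderMapState, ladderStep, ldblA, ldblB, laddA, laddB]

theorem ladderMapState_pair (n : ℕ) :
    ladderMapState φ (ladderPair b2 b4 b6 b8 n) = ladderPair (φ b2) (φ b4) (φ b6) (φ b8) n := by
  induction n using Nat.binaryRec with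
  | zero =>
    rw [ladderPair_zero, ladderPair_zero]
    simp [ladderMapState]
  | bit b n ih =>
    rw [ladderPair_bit, ladderPair_bit, ladderMapState_step, ih]

theorem ladderA_map (n : ℕ) :
    (ladderA b2 b4 b6 b8 n).map φ = ladderA (φ b2) (φ b4) (φ b6) (φ b8) n := by
  have := congrArg (fun s => s.1.1) (ladderMapState_pair φ b2 b4 b6 b8 n)
  exact this

theorem ladderB_map (n : ℕ) :
    (ladderB b2 b4 b6 b8 n).map φ = ladderB (φ b2) (φ b4) (φ b6) (φ b8) n := by
  have := congrArg (fun s => s.1.2) (ladderMapState_pair φ b2 b4 b6 b8 n)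
  exact this

theorem ladderPsi_map (n : ℕ) :
    (ladderPsi (ladderA b2 b4 b6 b8) (ladderB b2 b4 b6 b8) n).map φ =
      ladderPsi (ladderA (φ b2) (φ b4) (φ b6) (φ b8)) (ladderB (φ b2) (φ b4) (φ b6) (φ b8)) n := by
  simp only [ladderPsi, Polynomial.map_sub, Polynomial.map_mul, ladderA_map, ladderB_map]

end Fermat.Agent.S13
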