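import Mathlib
import Fermat.Agent.S13.LadderDeg
import Fermat.Agent.S51.TorsionLib

set_option autoImplicit false

/-!
# S13 / M1: consequences of the ladder polynomials for the `(2n+1)`-torsion

Generic statements, with the correctness of the ladder (L1) as a hypothesis:
* `card_torsionBy_le_sq`: at most `(2n+1)^2` points of `(2n+1)`-torsion;
* `exists_torsion_of_ladder`: over an algebraically closed field of characteristic zero there is
  a nonzero `(2n+1)`-torsion point.
-/

open WeierstrassCurve Polynomial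

namespace Fermat.Agent.S13

variable {K : Type*} [Field K] [DecidableEq K]

/-- (T2), generic: if the `x`-coordinates of the affine `(2n+1)`-torsion points are roots of
`ladderPsi A B n`, then there are at most `(2n+1)^2` such torsion points. -/
theorem card_torsionBy_le_sq [CharZero K] (W : WeierstrassCurve.Affine K) {A B : ℕ → K[X]}
    (h : LadderRel W.b₂ W.b₄ W.b₆ W.b₈ A B) (n : ℕ) (hn : 1 ≤ n)
    (hL1 : ∀ (x y : K) (hxy : W.Nonsingular x y),
      ((2 * n + 1 : ℕ) : ℤ) • (Affine.Point.some x y hxy : W.Point) = 0 →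
        (ladderPsi A B n).eval x = 0) :
    Finite (Submodule.torsionBy ℤ W.Point ((2 * n + 1 : ℕ) : ℤ)) ∧
      Nat.card (Submodule.torsionBy ℤ W.Point ((2 * n + 1 : ℕ) : ℤ)) ≤ (2 * n + 1) ^ 2 := by
  obtain ⟨hfin, hcard⟩ := Fermat.Agent.S51.card_torsionBy_le W (2 * n + 1)
    (h.psi_ne_zero n hn) hL1
  refine ⟨hfin, hcard.trans ?_⟩
  rw [h.natDegree_psi n hn]
  have : (2 * n + 1) ^ 2 = 2 * (2 * n ^ 2 + 2 * n) + 1 := by ring
  omega

/-- over an algebraically closed field every `x` is the `x`-coordinate of a point -/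
theorem exists_equation_of_isAlgClosed [IsAlgClosed K] (W : WeierstrassCurve.Affine K) (x : K) :
    ∃ y : K, W.Equation x y := by
  obtain ⟨s, hs⟩ := IsAlgClosed.exists_eq_mul_self
    (discrim (1 : K) (W.a₁ * x + W.a₃) (-(x ^ 3 + W.a₂ * x ^ 2 + W.a₄ * x + W.a₆)))
  by_cases h2 : (2 : K) = 0
  · -- characteristic two: use a root of the quadratic polynomial directly
    have hdeg : (X ^ 2 + C (W.a₁ * x + W.a₃) * X
        - C (x ^ 3 + W.a₂ * x ^ 2 + W.a₄ * x + W.a₆) : K[X]).degree ≠ 0 := by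
      have : (X ^ 2 + C (W.a₁ * x + W.a₃) * X
        - C (x ^ 3 + W.a₂ * x ^ 2 + W.a₄ * x + W.a₆) : K[X]).natDegree = 2 := by
        compute_degree!
      intro h0
      have := natDegree_eq_zero_iff_degree_le_zero.mpr h0.le
      omega
    obtain ⟨y, hy⟩ := IsAlgClosed.exists_root _ hdeg
    refine ⟨y, ?_⟩
    rw [Affine.equation_iff]
    simp only [IsRoot.def, eval_sub, eval_add, eval_pow, eval_X, eval_mul, eval_C] at hy
    linear_combination hy
  · have : NeZero (2 : K) := ⟨h2⟩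
    obtain ⟨y, hy⟩ := exists_quadratic_eq_zero (one_ne_zero) ⟨s, hs⟩
    refine ⟨y, ?_⟩
    rw [Affine.equation_iff]
    linear_combination hy

/-- (T1), generic: a root of `ladderPsi A B n` gives a nonzero `(2n+1)`-torsion point. -/
theorem exists_torsion_of_ladder [IsAlgClosed K] [CharZero K] (W : WeierstrassCurve.Affine K)
    (hΔ : W.Δ ≠ 0) {A B : ℕ → K[X]}
    (h : LadderRel W.b₂ W.b₄ W.b₆ W.b₈ A B) (n : ℕ) (hn : 1 ≤ n)
    (hL1 : ∀ (x y : K) (hxy : W.Nonsingular x y), (ladderPsi A B n).eval x = 0 →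
      ((2 * n + 1 : ℕ) : ℤ) • (Affine.Point.some x y hxy : W.Point) = 0) :
    ∃ P : W.Point, P ≠ 0 ∧ ((2 * n + 1 : ℕ) : ℤ) • P = 0 := by
  have hdeg : (ladderPsi A B n).degree ≠ 0 := by
    have hd := h.natDegree_psi n hn
    intro h0
    have := natDegree_eq_zero_iff_degree_le_zero.mpr h0.le
    have : 1 ≤ n ^ 2 := Nat.one_le_pow _ _ hn
    omega
  obtain ⟨x, hx⟩ := IsAlgClosed.exists_root (ladderPsi A B n) hdeg
  obtain ⟨y, hy⟩ := exists_equation_of_isAlgClosed W x
  have hns : W.Nonsingular x y := (W.equation_iff_nonsingular_of_Δ_ne_zero hΔ).mp hy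
  exact ⟨Affine.Point.some x y hns, Affine.Point.some_ne_zero hns, hL1 x y hns hx⟩

/-- (T1), generic, as nontriviality of the torsion submodule. -/
theorem nontrivial_torsionBy_of_ladder [IsAlgClosed K] [CharZero K]
    (W : WeierstrassCurve.Affine K) (hΔ : W.Δ ≠ 0) {A B : ℕ → K[X]}
    (h : LadderRel W.b₂ W.b₄ W.b₆ W.b₈ A B) (n : ℕ) (hn : 1 ≤ n)
    (hL1 : ∀ (x y : K) (hxy : W.Nonsingular x y), (ladderPsi A B n).eval x = 0 →
      ((2 * n + 1 : ℕ) : ℤ) • (Affine.Point.some x y hxy : W.Point) = 0) :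
    Nontrivial (Submodule.torsionBy ℤ W.Point ((2 * n + 1 : ℕ) : ℤ)) := by
  obtain ⟨P, hP0, hP⟩ := exists_torsion_of_ladder W hΔ h n hn hL1
  refine ⟨⟨⟨P, ?_⟩, 0, ?_⟩⟩
  · rw [Submodule.mem_torsionBy_iff]; exact hP
  · intro h0
    exact hP0 (congrArg Subtype.val h0)

end Fermat.Agent.S13
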