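import Mathlib
import Fermat.Prelude.Def_FLTPrelim_Ramification
import Fermat.Agent.S05.FreyData
import Fermat.Agent.S13.LadderDef
import Fermat.Agent.S13.LadderMap
import Fermat.Agent.S13.LadderEval
import Fermat.Agent.S13.LadderTorsion

set_option autoImplicit false

/-!
# S13 / M1: the `p`-torsion of the Frey curve

* `freyPsiZ P : ℤ[X]`, the odd division polynomial `Ψ_p` of the Frey curve (ladder form), with
  integer coefficients, degree `(p² - 1) / 2` and leading coefficient `p`;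
  `freyPsi P : Qbar[X]` its image;
* `freyPsi_eval_eq_zero_iff`: for a point `T = (x, y)` of the Frey curve over `Qbar`,
  `p • T = 0 ↔ (freyPsi P).eval x = 0`;
* `frey_torsion_nontrivial` (T1), `frey_torsion_card` (T2).
-/

open WeierstrassCurve WeierstrassCurve.Affine Polynomial

namespace Fermat.Agent.S13

local notation "Qbar" => AlgebraicClosure ℚ

variable (P : FreyPackage)

/-! ### the discriminant -/

theorem frey_b₈ : P.freyCurve.b₈ = -((P.a : ℚ) ^ P.p * (P.b : ℚ) ^ P.p / 16) ^ 2 := by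
  simp only [WeierstrassCurve.b₈, FreyPackage.freyCurve]
  ring

theorem frey_Δ :
    P.freyCurve.Δ = ((P.a : ℚ) ^ P.p * (P.b : ℚ) ^ P.p * (P.c : ℚ) ^ P.p) ^ 2 / 256 := by
  rw [WeierstrassCurve.Δ, frey_b₈, Fermat.Agent.S05.frey_b₂, Fermat.Agent.S05.frey_b₄,
    Fermat.Agent.S05.frey_b₆, Fermat.Agent.S05.frey_c_pow]
  ring

theorem frey_Δ_ne_zero : P.freyCurve.Δ ≠ 0 := by
  rw [frey_Δ]
  have ha : (P.a : ℚ) ≠ 0 := Int.cast_ne_zero.mpr P.ha0
  have hb : (P.b : ℚ) ≠ 0 := Int.cast_ne_zero.mpr P.hb0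
  have hc : (P.c : ℚ) ≠ 0 := Int.cast_ne_zero.mpr P.hc0
  positivity

theorem frey_Δ_Qbar_ne_zero : (P.freyCurve⁄Qbar).Δ ≠ 0 := by
  have h : (P.freyCurve⁄Qbar).Δ = algebraMap ℚ Qbar P.freyCurve.Δ := WeierstrassCurve.map_Δ _ _
  rw [h]
  exact (map_ne_zero (algebraMap ℚ Qbar)).mpr (frey_Δ_ne_zero P)

/-! ### integrality of the `b`-invariants -/

theorem frey_sixteen_dvd : (16 : ℤ) ∣ P.b ^ P.p := by
  have h2 : (2 : ℤ) ∣ P.b := (ZMod.intCast_zmod_eq_zero_iff_dvd P.b 2).1 P.hb2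
  have h4 : (2 : ℤ) ^ 4 ∣ P.b ^ 4 := pow_dvd_pow_of_dvd h2 4
  have h5 : P.b ^ 4 ∣ P.b ^ P.p := pow_dvd_pow _ (by have := P.hp5; omega)
  exact (by norm_num : (16 : ℤ) = 2 ^ 4) ▸ h4.trans h5

/-- `b₂` of the Frey curve, as an integer -/
def freyB2 : ℤ := P.b ^ P.p - P.a ^ P.p

/-- `-a₄` of the Frey curve, as an integer: `a^p b^p / 16` -/
def freyG : ℤ := P.a ^ P.p * (P.b ^ P.p / 16)

theorem freyG_cast : ((freyG P : ℤ) : ℚ) = (P.a : ℚ) ^ P.p * (P.b : ℚ) ^ P.p / 16 := by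
  obtain ⟨m, hm⟩ := frey_sixteen_dvd P
  have : P.b ^ P.p / 16 = m := by rw [hm]; exact Int.mul_ediv_cancel_left _ (by norm_num)
  rw [freyG, this]
  have h2 : (P.b : ℚ) ^ P.p = 16 * (m : ℚ) := by exact_mod_cast hm
  push_cast
  rw [h2]
  ring

theorem frey_b₂_int : P.freyCurve.b₂ = ((freyB2 P : ℤ) : ℚ) := by
  rw [Fermat.Agent.S05.frey_b₂, freyB2]; push_cast; ring

theorem frey_b₄_int : P.freyCurve.b₄ = ((-2 * freyG P : ℤ) : ℚ) := by
  rw [Fermat.Agent.S05.frey_b₄]; push_cast; rw [freyG_cast]; ring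

theorem frey_b₆_int : P.freyCurve.b₆ = ((0 : ℤ) : ℚ) := by
  rw [Fermat.Agent.S05.frey_b₆]; simp

theorem frey_b₈_int : P.freyCurve.b₈ = ((-(freyG P) ^ 2 : ℤ) : ℚ) := by
  rw [frey_b₈]; push_cast; rw [freyG_cast]

/-! ### the division polynomial -/

/-- the odd division polynomial `Ψ_p` of the Frey curve, integer coefficients -/
noncomputable def freyPsiZ : ℤ[X] :=
  ladderPsi (ladderA (freyB2 P) (-2 * freyG P) 0 (-(freyG P) ^ 2))
    (ladderB (freyB2 P) (-2 * freyG P) 0 (-(freyG P) ^ 2)) (P.p / 2)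

/-- the odd division polynomial `Ψ_p` of the Frey curve over `Qbar` -/
noncomputable def freyPsi : Qbar[X] :=
  ladderPsi (ladderA (P.freyCurve⁄Qbar).b₂ (P.freyCurve⁄Qbar).b₄ (P.freyCurve⁄Qbar).b₆
      (P.freyCurve⁄Qbar).b₈)
    (ladderB (P.freyCurve⁄Qbar).b₂ (P.freyCurve⁄Qbar).b₄ (P.freyCurve⁄Qbar).b₆
      (P.freyCurve⁄Qbar).b₈) (P.p / 2)

theorem frey_two_mul_half : 2 * (P.p / 2) + 1 = P.p := by
  obtain ⟨k, hk⟩ := P.hp_odd
  omega

theorem frey_one_le_half : 1 ≤ P.p / 2 := by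
  have := P.hp5
  omega

theorem frey_b₂_Qbar : (P.freyCurve⁄Qbar).b₂ = Int.castRingHom Qbar (freyB2 P) := by
  have h : (P.freyCurve⁄Qbar).b₂ = algebraMap ℚ Qbar P.freyCurve.b₂ :=
    WeierstrassCurve.map_b₂ _ _
  rw [h, frey_b₂_int]
  simp

theorem frey_b₄_Qbar : (P.freyCurve⁄Qbar).b₄ = Int.castRingHom Qbar (-2 * freyG P) := by
  have h : (P.freyCurve⁄Qbar).b₄ = algebraMap ℚ Qbar P.freyCurve.b₄ :=
    WeierstrassCurve.map_b₄ _ _
  rw [h, frey_b₄_int]
  simp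

theorem frey_b₆_Qbar : (P.freyCurve⁄Qbar).b₆ = Int.castRingHom Qbar 0 := by
  have h : (P.freyCurve⁄Qbar).b₆ = algebraMap ℚ Qbar P.freyCurve.b₆ :=
    WeierstrassCurve.map_b₆ _ _
  rw [h, frey_b₆_int]
  simp

theorem frey_b₈_Qbar : (P.freyCurve⁄Qbar).b₈ = Int.castRingHom Qbar (-(freyG P) ^ 2) := by
  have h : (P.freyCurve⁄Qbar).b₈ = algebraMap ℚ Qbar P.freyCurve.b₈ :=
    WeierstrassCurve.map_b₈ _ _
  rw [h, frey_b₈_int]
  simp

/-- `freyPsi` has integer coefficients -/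
theorem freyPsi_eq_map : freyPsi P = (freyPsiZ P).map (Int.castRingHom Qbar) := by
  rw [freyPsi, freyPsiZ, ladderPsi_map, frey_b₂_Qbar, frey_b₄_Qbar, frey_b₆_Qbar, frey_b₈_Qbar]

/-- the ladder relations for the Frey curve over `Qbar` -/
theorem frey_ladderRel :
    LadderRel (P.freyCurve⁄Qbar).b₂ (P.freyCurve⁄Qbar).b₄ (P.freyCurve⁄Qbar).b₆
      (P.freyCurve⁄Qbar).b₈
      (ladderA (P.freyCurve⁄Qbar).b₂ (P.freyCurve⁄Qbar).b₄ (P.freyCurve⁄Qbar).b₆
        (P.freyCurve⁄Qbar).b₈)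
      (ladderB (P.freyCurve⁄Qbar).b₂ (P.freyCurve⁄Qbar).b₄ (P.freyCurve⁄Qbar).b₆
        (P.freyCurve⁄Qbar).b₈) :=
  ladderRel _ _ _ _

theorem freyPsiZ_natDegree : (freyPsiZ P).natDegree = 2 * (P.p / 2) ^ 2 + 2 * (P.p / 2) :=
  (ladderRel (freyB2 P) (-2 * freyG P) 0 (-(freyG P) ^ 2)).natDegree_psi _ (frey_one_le_half P)

theorem freyPsiZ_leadingCoeff : (freyPsiZ P).leadingCoeff = (P.p : ℤ) := by
  rw [freyPsiZ, (ladderRel (freyB2 P) (-2 * freyG P) 0 (-(freyG P) ^ 2)).leadingCoeff_psi _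
    (frey_one_le_half P)]
  have := frey_two_mul_half P
  exact_mod_cast this

theorem freyPsi_natDegree : (freyPsi P).natDegree = 2 * (P.p / 2) ^ 2 + 2 * (P.p / 2) :=
  (frey_ladderRel P).natDegree_psi _ (frey_one_le_half P)

theorem freyPsi_leadingCoeff : (freyPsi P).leadingCoeff = (P.p : Qbar) := by
  rw [freyPsi, (frey_ladderRel P).leadingCoeff_psi _ (frey_one_le_half P)]
  have := frey_two_mul_half P
  exact_mod_cast this

theorem freyPsi_ne_zero : freyPsi P ≠ 0 :=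
  (frey_ladderRel P).psi_ne_zero _ (frey_one_le_half P)

/-- the coefficients of `freyPsi` are (images of) integers, so they lie in every subring -/
theorem freyPsi_coeff_mem (S : Subring Qbar) (i : ℕ) : (freyPsi P).coeff i ∈ S := by
  rw [freyPsi_eq_map, coeff_map]
  exact intCast_mem S _

/-- **(L1) for the Frey curve**: `p • T = 0 ↔ Ψ_p(x(T)) = 0`. -/
theorem freyPsi_eval_eq_zero_iff {x y : Qbar}
    (h : (P.freyCurve⁄Qbar).Nonsingular x y) :
    (P.p : ℤ) • (Affine.Point.some x y h : (P.freyCurve⁄Qbar).Point) = 0 ↔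
      (freyPsi P).eval x = 0 := by
  classical
  have := (frey_ladderRel P).zsmul_eq_zero_iff_psi h (P.p / 2) (frey_one_le_half P)
  rw [frey_two_mul_half P] at this
  exact this

/-- the `x`-coordinate of a nonzero `p`-torsion point is a root of `freyPsi` -/
theorem freyPsi_eval_of_mem {x y : Qbar}
    (h : (P.freyCurve⁄Qbar).Nonsingular x y)
    (hT : (Affine.Point.some x y h : (P.freyCurve⁄Qbar).Point) ∈
      Submodule.torsionBy ℤ (P.freyCurve⁄Qbar).Point P.p) :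
    (freyPsi P).eval x = 0 :=
  (freyPsi_eval_eq_zero_iff P h).mp ((Submodule.mem_torsionBy_iff _ _).mp hT)

/-! ### the contracts (T1), (T2) -/

/-- **(T1)** there is a nonzero `p`-torsion point -/
theorem frey_torsion_nontrivial :
    Nontrivial (Submodule.torsionBy ℤ (P.freyCurve⁄Qbar).Point P.p) := by
  classical
  have := nontrivial_torsionBy_of_ladder (P.freyCurve⁄Qbar) (frey_Δ_Qbar_ne_zero P)
    (frey_ladderRel P) (P.p / 2) (frey_one_le_half P)
    (fun x y hxy hx =>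
      ((frey_ladderRel P).zsmul_eq_zero_iff_psi hxy (P.p / 2) (frey_one_le_half P)).mpr hx)
  rw [frey_two_mul_half P] at this
  exact this

/-- **(T2)** at most `p ^ 2` torsion points -/
theorem frey_torsion_card :
    Finite (Submodule.torsionBy ℤ (P.freyCurve⁄Qbar).Point P.p) ∧
      Nat.card (Submodule.torsionBy ℤ (P.freyCurve⁄Qbar).Point P.p) ≤ P.p ^ 2 := by
  classical
  have := card_torsionBy_le_sq (P.freyCurve⁄Qbar)
    (frey_ladderRel P) (P.p / 2) (frey_one_le_half P)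
    (fun x y hxy hx =>
      ((frey_ladderRel P).zsmul_eq_zero_iff_psi hxy (P.p / 2) (frey_one_le_half P)).mp hx)
  rw [frey_two_mul_half P] at this
  exact this

end Fermat.Agent.S13
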