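import Mathlib
import Fermat.Prelude.Def_FLTPrelim_Ramification
import Fermat.Prelude.Def_FLTPrelim_CofixedLine
import Fermat.Agent.S13.AtP
import Fermat.Agent.S13.FreyTorsion

/-!
# S13, (Lp): the uniform dichotomy at `p` for the Frey curve

For a Galois stable line `N` of the `p`-torsion `V` of the Frey curve: either the inertia groups
of all places over `p` act trivially on `N`, or they all act trivially on `V / N`.
-/

set_option autoImplicit false

open WeierstrassCurve WeierstrassCurve.Affine WeierstrassCurve.Affine.Point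

namespace Fermat.Agent.S13

local notation "Qbar" => AlgebraicClosure ℚ
local notation "GQ" => (AlgebraicClosure ℚ ≃ₐ[ℚ] AlgebraicClosure ℚ)

/-- **(Lp), uniform in the place over `p`** -/
theorem frey_inertia_p (P : FreyPackage)
    (N : Submodule (ZMod P.p) (Submodule.torsionBy ℤ (P.freyCurve⁄Qbar).Point P.p))
    (hN : ∀ σ : GQ, ∀ x ∈ N, σ • x ∈ N) (hN0 : N ≠ ⊥) (hN1 : N ≠ ⊤) :
    (∀ A : ValuationSubring Qbar, A.LiesOverPrime P.p →
      ∀ σ ∈ A.inertiaSubgroupIn ℚ, ∀ x ∈ N, σ • x = x) ∨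
    (∀ A : ValuationSubring Qbar, A.LiesOverPrime P.p →
      ∀ σ ∈ A.inertiaSubgroupIn ℚ,
        ∀ x : Submodule.torsionBy ℤ (P.freyCurve⁄Qbar).Point P.p, σ • x - x ∈ N) := by
  refine frey_inertia_p_of P (frey_torsion_card P) (freyPsi P) ?_ (freyPsi_leadingCoeff P) ?_
    N hN hN0 hN1
  · intro A _ i
    exact (A.valuation_le_one_iff _).mpr (freyPsi_coeff_mem P A.toSubring i)
  · rintro ⟨T, hT⟩ hT0
    rcases T with _ | ⟨x, y, h⟩
    · exact absurd (Subtype.ext rfl) hT0
    · exact freyPsi_eval_of_mem P h hT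

end Fermat.Agent.S13
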