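import Mathlib
import Fermat.Agent.S05.Defs

/-!
# S13, part M3b: the branch lemma at the prime `2`

`W : y² + x y = x³ + a₂ x² + a₄ x` over a valued field `K`, `v 2 < 1`, `v a₂ ≤ 1`, `v a₄ < 1`.
The node of the reduction is at `(0, 0)` and its two tangent directions are the roots of
`s² + s - a₂` modulo the maximal ideal; they are distinct because `2 s + 1` is a unit.

If `T = (x, y)` and `T' = (x', y')` are two points with `v a₄ < v x = v x' < 1` on the same
branch (`y' / x' ≡ y / x`), then `T' - T` is `0` or has an `x`-coordinate of valuation `≥ 1`.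
-/

set_option autoImplicit false

open WeierstrassCurve

namespace Fermat.Agent.S13

section valuation

variable {K : Type*} [Field K] {Γ₀ : Type*} [LinearOrderedCommGroupWithZero Γ₀]
  (v : Valuation K Γ₀)

/-- `v (2 s + 1) = 1` for integral `s` in residue characteristic `2` -/
theorem at2_val_two_mul_add_one (h2 : v (2 : K) < 1) {s : K} (hs : v s ≤ 1) :
    v (2 * s + 1) = 1 := by
  have h1 : v (2 * s) < 1 := by
    rw [map_mul]
    calc v (2 : K) * v s ≤ v (2 : K) * 1 := by gcongr
      _ = v (2 : K) := mul_one _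
      _ < 1 := h2
  have h3 : v (2 * s + 1) = v (1 : K) := by
    apply v.map_add_eq_of_lt_right
    rw [map_one]
    exact h1
  rw [h3, map_one]

/-- near the node, above the middle component, the slope `y / x` is integral -/
theorem at2_val_y_le {a₂ a₄ x y : K} (ha2 : v a₂ ≤ 1)
    (he : y ^ 2 + x * y = x ^ 3 + a₂ * x ^ 2 + a₄ * x)
    (hx1 : v x < 1) (hxa : v a₄ < v x) : v y ≤ v x := by
  by_contra hy
  push Not at hy
  have hx0 : 0 < v x := lt_of_le_of_lt zero_le hxa
  have hy0 : 0 < v y := lt_trans hx0 hy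
  have h1 : y ^ 2 = x ^ 3 + a₂ * x ^ 2 + a₄ * x - x * y := by linear_combination he
  have hyy : v (y ^ 2) = v y * v y := by rw [map_pow, pow_two]
  have hxx : v x * v x < v y * v y := mul_lt_mul'' hy hy zero_le zero_le
  have h2 : v (x ^ 3 + a₂ * x ^ 2 + a₄ * x - x * y) < v y * v y := by
    refine lt_of_le_of_lt (v.map_sub _ _) (max_lt (lt_of_le_of_lt (v.map_add _ _) (max_lt
      (lt_of_le_of_lt (v.map_add _ _) (max_lt ?_ ?_)) ?_)) ?_)
    · rw [map_pow]
      calc v x ^ 3 = v x * (v x * v x) := by rw [pow_succ, pow_two, mul_comm]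
        _ ≤ 1 * (v x * v x) := by gcongr
        _ = v x * v x := one_mul _
        _ < v y * v y := hxx
    · rw [map_mul, map_pow]
      calc v a₂ * v x ^ 2 ≤ 1 * v x ^ 2 := by gcongr
        _ = v x * v x := by rw [one_mul, pow_two]
        _ < v y * v y := hxx
    · rw [map_mul]
      calc v a₄ * v x ≤ v x * v x := by gcongr
        _ < v y * v y := hxx
    · rw [map_mul]
      exact mul_lt_mul_of_pos_right hy hy0
  rw [h1] at hyy
  exact absurd hyy h2.ne

end valuation

end Fermat.Agent.S13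

namespace Fermat.Agent.S13

section valuation2

variable {K : Type*} [Field K] {Γ₀ : Type*} [LinearOrderedCommGroupWithZero Γ₀]
  (v : Valuation K Γ₀)

/-- the valuation computation of the branch lemma: `X` is the `x`-coordinate of `T' - T`,
`ℓ` the slope of the chord through `T'` and `-T`, `d = x' - x`. -/
theorem at2_branch_val {a₂ a₄ x y x' y' ℓ X : K} (h2 : v (2 : K) < 1)
    (he : y ^ 2 + x * y = x ^ 3 + a₂ * x ^ 2 + a₄ * x)
    (hx1 : v x < 1) (hxa : v a₄ < v x) (hxx : v x' = v x) (hyx : v y ≤ v x)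
    (hs : v (y' / x' - y / x) < 1) (hd : x' ≠ x)
    (hℓ : ℓ * (x' - x) = y' + y + x) (hX : X = ℓ ^ 2 + ℓ - a₂ - x' - x) : 1 ≤ v X := by
  have hx0 : 0 < v x := lt_of_le_of_lt zero_le hxa
  have hxne : x ≠ 0 := (v.ne_zero_iff).mp hx0.ne'
  have hx'ne : x' ≠ 0 := (v.ne_zero_iff).mp (by rw [hxx]; exact hx0.ne')
  have hdne : x' - x ≠ 0 := sub_ne_zero.mpr hd
  have hd0 : 0 < v (x' - x) := zero_lt_iff.mpr ((v.ne_zero_iff).mpr hdne)
  have hdx : v (x' - x) ≤ v x := by
    refine le_trans (v.map_sub _ _) (max_le hxx.le le_rfl)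
  -- the slopes
  obtain ⟨s, hsdef⟩ : ∃ s : K, s = y / x := ⟨_, rfl⟩
  obtain ⟨ε, hεdef⟩ : ∃ ε : K, ε = y' / x' - y / x := ⟨_, rfl⟩
  have hy : y = s * x := by rw [hsdef]; field_simp
  have hy' : y' = (s + ε) * x' := by rw [hsdef, hεdef]; field_simp; ring
  have hsv : v s ≤ 1 := by
    rw [hsdef, map_div₀]
    exact div_le_one_of_le₀ hyx zero_le
  have hεv : v ε < 1 := by rw [hεdef]; exact hs
  have h2s : v (2 * s + 1) = 1 := at2_val_two_mul_add_one v h2 hsv
  -- the two factors
  have hA : v (ε * x' + (2 * s + 1) * x) = v x := by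
    have h1 : v (ε * x') < v ((2 * s + 1) * x) := by
      rw [map_mul, map_mul, h2s, one_mul, hxx]
      calc v ε * v x < 1 * v x := mul_lt_mul_of_pos_right hεv hx0
        _ = v x := one_mul _
    rw [v.map_add_eq_of_lt_right h1, map_mul, h2s, one_mul]
  have hB : v ((2 * s + 1 + ε) * x') = v x := by
    have h1 : v (2 * s + 1 + ε) = 1 := by
      have : v ε < v (2 * s + 1) := by rw [h2s]; exact hεv
      rw [v.map_add_eq_of_lt_left this, h2s]
    rw [map_mul, h1, one_mul, hxx]
  -- the key identity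
  have hkey : X * ((x' - x) ^ 2 * x) =
      (ε * x' + (2 * s + 1) * x) * ((2 * s + 1 + ε) * x') * x + (a₄ - x' * x) * (x' - x) ^ 2 := by
    have he' : s ^ 2 * x + s * x = x ^ 2 + a₂ * x + a₄ := by
      have h3 : x * (s ^ 2 * x + s * x) = x * (x ^ 2 + a₂ * x + a₄) := by
        rw [hy] at he
        linear_combination he
      exact mul_left_cancel₀ hxne h3
    have hℓ' : ℓ * (x' - x) = (s + ε) * x' + s * x + x := by rw [hℓ, hy, hy']
    rw [hX]
    linear_combination (x * (ℓ * (x' - x) + ((s + ε) * x' + s * x + x)) + x * (x' - x)) * hℓ'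
      + (x' - x) ^ 2 * he'
  have hAB : v ((ε * x' + (2 * s + 1) * x) * ((2 * s + 1 + ε) * x') * x) = v x * v x * v x := by
    rw [map_mul, map_mul, hA, hB]
  have hsmall : v ((a₄ - x' * x) * (x' - x) ^ 2) < v x * v x * v x := by
    have h1 : v (a₄ - x' * x) < v x := by
      refine lt_of_le_of_lt (v.map_sub _ _) (max_lt hxa ?_)
      rw [map_mul, hxx]
      calc v x * v x < 1 * v x := mul_lt_mul_of_pos_right hx1 hx0
        _ = v x := one_mul _
    have h3 : v ((x' - x) ^ 2) ≤ v x * v x := by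
      rw [map_pow, pow_two]
      exact mul_le_mul' hdx hdx
    rw [map_mul]
    calc v (a₄ - x' * x) * v ((x' - x) ^ 2) ≤ v (a₄ - x' * x) * (v x * v x) := by gcongr
      _ < v x * (v x * v x) := mul_lt_mul_of_pos_right h1 (mul_pos hx0 hx0)
      _ = v x * v x * v x := (mul_assoc _ _ _).symm
  have hval : v X * (v (x' - x) ^ 2 * v x) = v x * v x * v x := by
    rw [← map_pow, ← map_mul, ← map_mul, hkey, v.map_add_eq_of_lt_left (by rw [hAB]; exact hsmall),
      hAB]
  by_contra hcon
  push Not at hcon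
  have h4 : v X * (v (x' - x) ^ 2 * v x) < v x * v x * v x := by
    have h5 : v (x' - x) ^ 2 * v x ≤ v x * v x * v x := by
      rw [pow_two]
      gcongr
    have h6 : 0 < v (x' - x) ^ 2 * v x := mul_pos (pow_pos hd0 2) hx0
    calc v X * (v (x' - x) ^ 2 * v x) < 1 * (v (x' - x) ^ 2 * v x) :=
          mul_lt_mul_of_pos_right hcon h6
      _ = v (x' - x) ^ 2 * v x := one_mul _
      _ ≤ v x * v x * v x := h5
  exact absurd hval h4.ne

end valuation2

section curve

variable {K : Type*} [Field K] [DecidableEq K] {Γ₀ : Type*} [LinearOrderedCommGroupWithZero Γ₀]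
  (v : Valuation K Γ₀) (W : WeierstrassCurve K)

/-- **branch lemma**: two points near the node, above the middle component, with the same
`v x` and on the same branch, differ by a point outside the node. -/
theorem at2_branch (ha1 : W.a₁ = 1) (ha3 : W.a₃ = 0) (ha6 : W.a₆ = 0) (ha2 : v W.a₂ ≤ 1)
    (h2 : v (2 : K) < 1) {x y x' y' : K} (h : W.toAffine.Nonsingular x y)
    (h' : W.toAffine.Nonsingular x' y') (hx1 : v x < 1) (hxa : v W.a₄ < v x)
    (hxx : v x' = v x) (hs : v (y' / x' - y / x) < 1) :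
    Affine.Point.some x' y' h' - Affine.Point.some x y h = 0 ∨
      ∃ (x₃ y₃ : K) (h₃ : W.toAffine.Nonsingular x₃ y₃),
        Affine.Point.some x' y' h' - Affine.Point.some x y h = Affine.Point.some x₃ y₃ h₃ ∧
          1 ≤ v x₃ := by
  have he : y ^ 2 + x * y = x ^ 3 + W.a₂ * x ^ 2 + W.a₄ * x := by
    have := (Affine.equation_iff x y).mp h.1
    rw [ha1, ha3, ha6] at this
    linear_combination this
  have hyx : v y ≤ v x := at2_val_y_le v ha2 he hx1 hxa
  have hx0 : 0 < v x := lt_of_le_of_lt zero_le hxa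
  have hxne : x ≠ 0 := (v.ne_zero_iff).mp hx0.ne'
  have hnegY : W.toAffine.negY x y = -y - x := by
    rw [Affine.negY, ha1, ha3]; ring
  have hsub : Affine.Point.some x' y' h' - Affine.Point.some x y h =
      Affine.Point.some x' y' h' + Affine.Point.some x (W.toAffine.negY x y)
        ((Affine.nonsingular_neg ..).mpr h) := by
    rw [sub_eq_add_neg, Affine.Point.neg_some]
  by_cases hPQ : x' = x ∧ y' = y
  · left
    obtain ⟨rfl, rfl⟩ := hPQ
    exact sub_self _
  right
  have hxy : ¬(x' = x ∧ y' = W.toAffine.negY x (W.toAffine.negY x y)) := by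
    rw [Affine.negY_negY]; exact hPQ
  rw [hsub, Affine.Point.add_some hxy]
  refine ⟨_, _, _, rfl, ?_⟩
  -- `x' ≠ x`
  have hd : x' ≠ x := by
    intro hxeq
    subst hxeq
    have hyy : y' ≠ y := fun hy => hPQ ⟨rfl, hy⟩
    have hy' : y' = W.toAffine.negY x' y := by
      rcases Affine.Y_eq_of_X_eq h'.1 h.1 rfl with h0 | h0
      · exact absurd h0 hyy
      · exact h0
    rw [hnegY] at hy'
    have h3 : y' / x' - y / x' = -(2 * (y / x') + 1) := by
      rw [hy']; field_simp; ring
    rw [h3, Valuation.map_neg, at2_val_two_mul_add_one v h2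
      (by rw [map_div₀]; exact div_le_one_of_le₀ hyx zero_le)] at hs
    exact lt_irrefl _ hs
  refine at2_branch_val v (ℓ := W.toAffine.slope x' x y' (W.toAffine.negY x y))
    h2 he hx1 hxa hxx hyx hs hd ?_ ?_
  · rw [Affine.slope_of_X_ne hd, hnegY, div_mul_cancel₀ _ (sub_ne_zero.mpr hd)]
    ring
  · rw [Affine.addX, ha1]
    ring

end curve

end Fermat.Agent.S13
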