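import Mathlib
import Fermat.Agent.S51.Double

/-!
# S13, M3b (MID): doubling in the middle component

`W : y² + xy = x³ + a₂ x² + a₄ x` over a valued field, `v a₂ ≤ 1`, `v a₄ < 1`, `a₄ ≠ 0`.
If `v x ≤ v a₄` for a point `T = (x, y)`, then `2T = 0` or `1 ≤ v (x (2T))`:
`x(2T) (2y + x)² = (x² - a₄)²`, `v (x² - a₄) = v a₄` and `v (2y + x) ≤ v a₄`.
-/

set_option autoImplicit false

open WeierstrassCurve

namespace Fermat.Agent.S13

theorem mid_double {K : Type*} [Field K] [DecidableEq K] {Γ₀ : Type*}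
    [LinearOrderedCommGroupWithZero Γ₀]
    (v : Valuation K Γ₀) (W : WeierstrassCurve K) (ha1 : W.a₁ = 1) (ha3 : W.a₃ = 0)
    (ha6 : W.a₆ = 0)
    (ha2 : v W.a₂ ≤ 1) (ha4 : v W.a₄ < 1) (ha40 : W.a₄ ≠ 0) (h2 : v (2 : K) ≤ 1)
    {x y : K} (h : W.toAffine.Nonsingular x y) (hx : v x ≤ v W.a₄) :
    Affine.Point.some x y h + Affine.Point.some x y h = 0 ∨
    ∃ (x₂ y₂ : K) (h₂ : W.toAffine.Nonsingular x₂ y₂),
      Affine.Point.some x y h + Affine.Point.some x y h = Affine.Point.some x₂ y₂ h₂ ∧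
        1 ≤ v x₂ := by
  rcases hR : (Affine.Point.some x y h + Affine.Point.some x y h : W.toAffine.Point)
    with _ | ⟨x₂, y₂, h₂⟩
  · exact Or.inl rfl
  right
  refine ⟨x₂, y₂, h₂, rfl, ?_⟩
  obtain ⟨hrel, hne⟩ := Fermat.Agent.S51.add_self_x W h h₂ hR
  set a := v W.a₄ with ha
  have ha0 : a ≠ 0 := (v.ne_zero_iff).mpr ha40
  have hapos : 0 < a := zero_lt_iff.mpr ha0
  have haa : a * a < a := by
    calc a * a < a * 1 := by
          exact mul_lt_mul_of_pos_left ha4 hapos
      _ = a := mul_one _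
  have haale : a * a ≤ a := haa.le
  -- the two sides of the duplication formula
  have hf : Fermat.Agent.S51.f2 W x = (2 * y + x) ^ 2 := by
    rw [Fermat.Agent.S51.f2_eq_sq W h.1, ha1, ha3]
    ring
  have hphi : Fermat.Agent.S51.phi2 W x = (x ^ 2 - W.a₄) ^ 2 := by
    simp only [Fermat.Agent.S51.phi2, b₄, b₆, b₈, ha1, ha3, ha6]
    ring
  rw [hf, hphi] at hrel
  rw [hf] at hne
  have hD0 : 2 * y + x ≠ 0 := fun h0 => hne (by rw [h0]; ring)
  -- valuations
  have hx2 : v (x ^ 2) ≤ a * a := by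
    rw [map_pow, pow_two]
    exact mul_le_mul' hx hx
  have hnum : v (x ^ 2 - W.a₄) = a := by
    rw [sub_eq_add_neg, v.map_add_eq_of_lt_right]
    · rw [Valuation.map_neg]
    · rw [Valuation.map_neg]
      exact lt_of_le_of_lt hx2 haa
  have hy : v y ≤ a := by
    by_contra hcon
    push Not at hcon
    have hxy : v x < v y := lt_of_le_of_lt hx hcon
    have h1 : v (y + x) = v y := v.map_add_eq_of_lt_left hxy
    have heq := h.1
    rw [Affine.equation_iff] at heq
    have h3 : y * (y + x) = x ^ 3 + W.a₂ * x ^ 2 + W.a₄ * x := by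
      rw [ha1, ha3, ha6] at heq
      linear_combination heq
    have h4 : v (y * (y + x)) = v y * v y := by rw [map_mul, h1]
    have h5 : a * a < v y * v y := mul_lt_mul'' hcon hcon zero_le zero_le
    have h6 : v (x ^ 3 + W.a₂ * x ^ 2 + W.a₄ * x) ≤ a * a := by
      refine v.map_add_le (v.map_add_le ?_ ?_) ?_
      · have : x ^ 3 = x ^ 2 * x := by ring
        rw [this, map_mul]
        calc v (x ^ 2) * v x ≤ (a * a) * 1 := mul_le_mul' hx2 (hx.trans ha4.le)
          _ = a * a := mul_one _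
      · rw [map_mul]
        calc v W.a₂ * v (x ^ 2) ≤ 1 * (a * a) := mul_le_mul' ha2 hx2
          _ = a * a := one_mul _
      · rw [map_mul]
        exact mul_le_mul' le_rfl hx
    rw [h3] at h4
    rw [h4] at h6
    exact absurd h5 (not_lt.mpr h6)
  have hD : v (2 * y + x) ≤ a := by
    refine v.map_add_le ?_ hx
    rw [map_mul]
    calc v 2 * v y ≤ 1 * a := mul_le_mul' h2 hy
      _ = a := one_mul _
  have hDpos : 0 < v (2 * y + x) := zero_lt_iff.mpr ((v.ne_zero_iff).mpr hD0)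
  have hvrel : v x₂ * (v (2 * y + x) * v (2 * y + x)) = a * a := by
    have := congrArg v hrel
    rw [map_mul, map_pow, map_pow, hnum, pow_two, pow_two] at this
    exact this
  by_contra hcon
  push Not at hcon
  have hDD : 0 < v (2 * y + x) * v (2 * y + x) := mul_pos hDpos hDpos
  have h7 : v x₂ * (v (2 * y + x) * v (2 * y + x)) < a * a := by
    calc v x₂ * (v (2 * y + x) * v (2 * y + x))
        < 1 * (v (2 * y + x) * v (2 * y + x)) := mul_lt_mul_of_pos_right hcon hDD
      _ = v (2 * y + x) * v (2 * y + x) := one_mul _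
      _ ≤ a * a := mul_le_mul' hD hD
  rw [hvrel] at h7
  exact lt_irrefl _ h7

end Fermat.Agent.S13
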