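import Mathlib
import Fermat.Prelude.Def_FLTPrelim_Ramification
import Fermat.Agent.S05.Defs
import Fermat.Agent.S05.Formal
import Fermat.Agent.S05.ReductionNode
import Fermat.Agent.S05.Inertia
import Fermat.Agent.S05.Core
import Fermat.Agent.S13.AtTwoMid
import Fermat.Agent.S13.AtTwoBranch

/-!
# S13, part M3b (G): the inertia at `2` acts unipotently on the `p`-torsion

`W' : y² + x y = x³ + a₂ x² + a₄ x` over `ℚ`, `A` a valuation subring of `Qbar` over `2`,
`v a₂ ≤ 1`, `v a₄ < 1`, `a₄ ≠ 0`, `p` an odd prime, `σ` in the inertia group of `A`.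
Then `(σ - 1)² = 0` on the `p`-torsion.

Proof. Classes of an affine point `T = (x, y)` by `v x`:
* `1 < v x` (kernel of reduction): no `p`-torsion (P3);
* `v x = 1`: `σ T - T` is in the kernel of reduction (P4; the reduction is not `2`-torsion as
  `2 y + x` is a unit), so `σ T = T`;
* `v x ≤ v a₄` (middle component): `2 T` is in one of the first two classes (`mid_double`), so
  `σ (2 T) = 2 T` and `σ T = T`;
* `v a₄ < v x < 1`: the slope `y / x` is integral, so `σ T` is on the same branch as `T`, and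
  `σ T - T` is in one of the first two classes (`at2_branch`), hence fixed by `σ`.
-/

set_option autoImplicit false

open WeierstrassCurve WeierstrassCurve.Affine

namespace Fermat.Agent.S13

open Fermat.Agent.S05 Fermat.Agent.S05.Core

local notation "Qbar" => AlgebraicClosure ℚ

/-- in a commutative group, `2 D = 0` and `p D = 0` with `p` odd give `D = 0` -/
theorem at2_eq_zero_of_two_of_odd {G : Type*} [AddCommGroup G] {p : ℕ} (hp : Odd p) {D : G}
    (h2 : D + D = 0) (hpD : p • D = 0) : D = 0 := by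
  obtain ⟨k, rfl⟩ := hp
  have h3 : (2 * k) • D = 0 := by
    rw [mul_nsmul, two_nsmul, h2, nsmul_zero]
  rw [add_nsmul, h3, zero_add, one_nsmul] at hpD
  exact hpD

/-- **(G)**: the inertia at `2` acts unipotently on the `p`-torsion -/
theorem inertia_two_unipotent (W' : WeierstrassCurve ℚ) (A : ValuationSubring Qbar)
    (σ : Qbar ≃ₐ[ℚ] Qbar) (hσ : σ ∈ A.inertiaSubgroupIn ℚ) (p : ℕ) (hp : p.Prime) (hp2 : p ≠ 2)
    (hvp : A.valuation (p : Qbar) = 1) (hv2 : A.valuation (2 : Qbar) < 1)
    (ha1 : W'.a₁ = 1) (ha3 : W'.a₃ = 0) (ha6 : W'.a₆ = 0)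
    (ha2 : A.valuation ((W'.a₂ : ℚ) : Qbar) ≤ 1) (ha4 : A.valuation ((W'.a₄ : ℚ) : Qbar) < 1)
    (ha40 : W'.a₄ ≠ 0) (T : (W'⁄Qbar).Point) (hT : p • T = 0) :
    σ • (σ • T - T) = σ • T - T := by
  set v := A.valuation with hv
  set W := W'.baseChange Qbar with hWdef
  have e1 : W.a₁ = 1 := by
    simp only [hWdef, WeierstrassCurve.baseChange, WeierstrassCurve.map_a₁, ha1, map_one]
  have e3 : W.a₃ = 0 := by
    simp only [hWdef, WeierstrassCurve.baseChange, WeierstrassCurve.map_a₃, ha3, map_zero]
  have e6 : W.a₆ = 0 := by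
    simp only [hWdef, WeierstrassCurve.baseChange, WeierstrassCurve.map_a₆, ha6, map_zero]
  have e2 : W.a₂ = ((W'.a₂ : ℚ) : Qbar) := by
    simp only [hWdef, WeierstrassCurve.baseChange, WeierstrassCurve.map_a₂, eq_ratCast]
  have e4 : W.a₄ = ((W'.a₄ : ℚ) : Qbar) := by
    simp only [hWdef, WeierstrassCurve.baseChange, WeierstrassCurve.map_a₄, eq_ratCast]
  have hwa2 : v W.a₂ ≤ 1 := by rw [e2]; exact ha2
  have hwa4 : v W.a₄ < 1 := by rw [e4]; exact ha4
  have hwa40 : W.a₄ ≠ 0 := by
    rw [e4]
    exact_mod_cast ha40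
  have hW : IsIntegralW v W := by
    refine ⟨?_, hwa2, ?_, hwa4.le, ?_⟩
    · rw [e1, map_one]
    · rw [e3, map_zero]; exact zero_le
    · rw [e6, map_zero]; exact zero_le
  have hodd : Odd p := hp.odd_of_ne_two hp2
  -- `σ` commutes with the multiplication by `p`
  have hpσ : ∀ D : (W'⁄Qbar).Point, p • D = 0 → p • (σ • D - D) = 0 := by
    intro D hD
    rw [nsmul_sub, ← smul_nsmul' W' σ p D, hD, smul_zero' W' σ, sub_zero]
  -- classes 1 and 2: `σ` fixes the `p`-torsion points outside the node
  have step : ∀ D : (W'⁄Qbar).Point, p • D = 0 →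
      (∀ (x y : Qbar) (h : (W'⁄Qbar).Nonsingular x y), D = Affine.Point.some x y h → 1 ≤ v x) →
      σ • D = D := by
    intro D hD hcl
    suffices hK : InKer v W (σ • D - D) from
      sub_eq_zero.mp (inKer_torsion v W hW hvp hK (hpσ D hD))
    rcases D with _ | ⟨x, y, h⟩
    · have h0 : σ • (Affine.Point.zero : (W'⁄Qbar).Point) - Affine.Point.zero = 0 := by
        change σ • (0 : (W'⁄Qbar).Point) - 0 = 0
        rw [smul_zero' W' σ, sub_zero]
      rw [h0]
      exact inKer_zero _ _
    · obtain ⟨h', hs⟩ := smul_some' W' σ h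
      rw [hs]
      have hx1 := hcl x y h rfl
      rcases hx1.lt_or_eq with hx | hx
      · refine inKer_sub v W hW ?_ ?_
        · rw [inKer_some, inertia_val A hσ]
          exact hx
        · rw [inKer_some]
          exact hx
      · have hxle : v x ≤ 1 := hx.symm.le
        have hy : v y ≤ 1 :=
          val_y_le_one v W hW.1 hW.2.1 hW.2.2.1 hW.2.2.2.1 hW.2.2.2.2 h.1 hxle
        refine inKer_sub_of_close v W hW h h' hxle hy (Or.inr ?_)
          (inertia_sub A hσ x hxle) (inertia_sub A hσ y hy)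
        rw [e1, e3, add_zero, one_mul]
        have h1 : v (2 * y) < v x := by
          rw [map_mul, ← hx]
          calc v (2 : Qbar) * v y ≤ v (2 : Qbar) * 1 := by gcongr
            _ = v (2 : Qbar) := mul_one _
            _ < 1 := hv2
        rw [v.map_add_eq_of_lt_right h1, ← hx]
  -- a point `D` that is `0` or outside the node
  have step' : ∀ D : (W'⁄Qbar).Point, p • D = 0 →
      (D = 0 ∨ ∃ (x y : Qbar) (h : (W'⁄Qbar).Nonsingular x y),
        D = Affine.Point.some x y h ∧ 1 ≤ v x) → σ • D = D := by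
    intro D hD hcl
    refine step D hD ?_
    intro x y h hDe
    rcases hcl with h0 | ⟨x₁, y₁, h₁, h0, hx₁⟩
    · rw [h0] at hDe
      exact absurd hDe.symm (Affine.Point.some_ne_zero h)
    · rw [h0] at hDe
      injection hDe with hxx _
      rw [← hxx]
      exact hx₁
  rcases T with _ | ⟨x, y, h⟩
  · have h0 : σ • (Affine.Point.zero : (W'⁄Qbar).Point) - Affine.Point.zero = 0 := by
      change σ • (0 : (W'⁄Qbar).Point) - 0 = 0
      rw [smul_zero' W' σ, sub_zero]
    rw [h0]
    exact smul_zero' W' σ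
  by_cases hx1 : 1 ≤ v x
  · -- outside the node
    have := step' _ hT (Or.inr ⟨x, y, h, rfl, hx1⟩)
    rw [this, sub_self]
    exact smul_zero' W' σ
  push Not at hx1
  by_cases hxa : v x ≤ v W.a₄
  · -- the middle component
    have hdbl := mid_double v W e1 e3 e6 hwa2 hwa4 hwa40 hv2.le h hxa
    have hT2 : p • (Affine.Point.some x y h + Affine.Point.some x y h : (W'⁄Qbar).Point) = 0 := by
      rw [nsmul_add, hT, add_zero]
    have hfix := step' _ hT2 hdbl
    rw [smul_add' W' σ] at hfix
    have hD2 : (σ • (Affine.Point.some x y h : (W'⁄Qbar).Point) - Affine.Point.some x y h) +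
        (σ • (Affine.Point.some x y h : (W'⁄Qbar).Point) - Affine.Point.some x y h) = 0 := by
      rw [sub_add_sub_comm, hfix, sub_self]
    have hD0 := at2_eq_zero_of_two_of_odd hodd hD2 (hpσ _ hT)
    rw [hD0]
    exact smul_zero' W' σ
  · -- above the middle component: the branch lemma
    push Not at hxa
    obtain ⟨h', hs⟩ := smul_some' W' σ h
    have hyx : v y ≤ v x := by
      have he : y ^ 2 + x * y = x ^ 3 + W.a₂ * x ^ 2 + W.a₄ * x := by
        have := (Affine.equation_iff x y).mp h.1
        rw [e1, e3, e6] at this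
        linear_combination this
      exact at2_val_y_le v hwa2 he hx1 hxa
    have hsv : v (y / x) ≤ 1 := by
      rw [map_div₀]
      exact div_le_one_of_le₀ hyx zero_le
    have hbr : v (σ y / σ x - y / x) < 1 := by
      have := inertia_sub A hσ (y / x) hsv
      rwa [map_div₀] at this
    have hcl := at2_branch v W e1 e3 e6 hwa2 hv2 h h' hx1 hxa (inertia_val A hσ x) hbr
    rw [hs]
    exact step' _ (by rw [← hs]; exact hpσ _ hT) hcl

end Fermat.Agent.S13
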