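import Fermat.Agent.S13.AtTwoWiring
import Fermat.Agent.S13.AtTwo

/-!
# S13, M3b (final form): the inertia at `2` acts unipotently on the `p`-torsion of the Frey curve

`frey_inertia_two`: the contract (L2) of `NOTES/S13_statements.lean.txt`, from the wiring
`frey_inertia_two_of` (`AtTwoWiring.lean`) and the generic theorem `inertia_two_unipotent`
(`AtTwo.lean`).
-/

set_option autoImplicit false

open WeierstrassCurve WeierstrassCurve.Affine WeierstrassCurve.Affine.Point

namespace Fermat.Agent.S13

local notation "Qbar" => AlgebraicClosure ℚ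

/-- **(L2)** the inertia at `2` acts unipotently -/
theorem frey_inertia_two (P : FreyPackage) (A : ValuationSubring Qbar)
    (hA : A.LiesOverPrime 2) {σ : Qbar ≃ₐ[ℚ] Qbar} (hσ : σ ∈ A.inertiaSubgroupIn ℚ) :
    ∃ M : Submodule (ZMod P.p) (Submodule.torsionBy ℤ (P.freyCurve⁄Qbar).Point P.p),
      (∀ x ∈ M, σ • x = x) ∧
        (∀ x : Submodule.torsionBy ℤ (P.freyCurve⁄Qbar).Point P.p, σ • x - x ∈ M) :=
  frey_inertia_two_of inertia_two_unipotent P A hA hσ

end Fermat.Agent.S13
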