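import Mathlib
import Fermat.Agent.S05.Defs
import Fermat.Agent.S05.ValNP
import Fermat.Agent.S05.FoldVal

/-!
# S13, piece M3a (sum/difference part): the folding lemma in any residue characteristic

`fold_val_gen`: for `x₁ ≠ x₂` and `r₁, r₂` with
`(r₁ + r₂) (x₁ - x₂)² = 2 x₁ x₂ (x₁ + x₂) + B x₁ x₂ - 2 γ (x₁ + x₂)`,
`r₁ r₂ (x₁ - x₂)² = (x₁ x₂ + γ)²`
(the `x`-coordinates of `P ± Q` on a curve with `b₂ = B`, `b₄ = -2γ`, `b₆ = 0`, `b₈ = -γ²`),
`v B = 1`, `v γ < 1`, `v 2 ≤ 1`:  `{cb r₁, cb r₂} = {Fp, Fm}` with `a = v γ`.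
This is the statement of `S05/FoldVal.lean` without the hypothesis `v 2 = 1`.
-/

set_option autoImplicit false

namespace Fermat.Agent.S13

open Fermat.Agent.S05

variable {K : Type*} [Field K] {Γ₀ : Type*} [LinearOrderedCommGroupWithZero Γ₀]
  (v : Valuation K Γ₀)

set_option maxHeartbeats 1600000 in
theorem fold_val_gen_aux {γ B : K} (hα : v γ < 1) (hα0 : γ ≠ 0) (hB : v B = 1)
    (h2 : v (2 : K) ≤ 1) {x₁ x₂ r₁ r₂ : K} (hx : x₁ ≠ x₂) (hle : v x₂ ≤ v x₁)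
    (hsum : (r₁ + r₂) * (x₁ - x₂) ^ 2 =
      2 * ((x₁ + x₂) * (x₁ * x₂ - γ)) + B * x₁ * x₂)
    (hprod : r₁ * r₂ * (x₁ - x₂) ^ 2 = (x₁ * x₂ + γ) ^ 2) :
    (cb v (v γ) r₁ = Fp (v γ) (cb v (v γ) x₁) (cb v (v γ) x₂) ∧
      cb v (v γ) r₂ = Fm (cb v (v γ) x₁) (cb v (v γ) x₂)) ∨
    (cb v (v γ) r₁ = Fm (cb v (v γ) x₁) (cb v (v γ) x₂) ∧
      cb v (v γ) r₂ = Fp (v γ) (cb v (v γ) x₁) (cb v (v γ) x₂)) := by
  -- notation
  have ha0 : v γ ≠ 0 := (Valuation.ne_zero_iff v).2 hα0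
  have ha0' : 0 < v γ := zero_lt_iff.2 ha0
  have hx1 : x₁ ≠ 0 := by
    rintro rfl
    have h0 : v x₂ = 0 := le_antisymm (by simpa using hle) zero_le
    exact hx ((Valuation.zero_iff v).1 h0).symm
  have hA1 : v x₁ ≠ 0 := (Valuation.ne_zero_iff v).2 hx1
  have hA1' : 0 < v x₁ := zero_lt_iff.2 hA1
  have hD : x₁ - x₂ ≠ 0 := sub_ne_zero.2 hx
  have hδ0 : v (x₁ - x₂) ≠ 0 := (Valuation.ne_zero_iff v).2 hD
  have hδ0' : 0 < v (x₁ - x₂) := zero_lt_iff.2 hδ0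
  have hδ : v (x₁ - x₂) ≤ v x₁ := Valuation.map_sub_le v le_rfl hle
  have hδeq : v x₂ < v x₁ → v (x₁ - x₂) = v x₁ := fun h =>
    Valuation.map_sub_eq_of_lt_left v h
  have hplus : v (x₁ + x₂) ≤ v x₁ := Valuation.map_add_le v le_rfl hle
  have hm_le : v (x₁ * x₂ + γ) ≤ max (v x₁ * v x₂) (v γ) := by
    apply Valuation.map_add_le v
    · rw [map_mul]; exact le_max_left _ _
    · exact le_max_right _ _
  have hm_gt : v γ < v x₁ * v x₂ → v (x₁ * x₂ + γ) = v x₁ * v x₂ := by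
    intro h
    rw [Valuation.map_add_eq_of_lt_left v (by rw [map_mul]; exact h), map_mul]
  have hm_lt : v x₁ * v x₂ < v γ → v (x₁ * x₂ + γ) = v γ := by
    intro h
    rw [Valuation.map_add_eq_of_lt_right v (by rw [map_mul]; exact h)]
  have hn_le : v (x₁ * x₂ - γ) ≤ max (v x₁ * v x₂) (v γ) := by
    apply Valuation.map_sub_le v
    · rw [map_mul]; exact le_max_left _ _
    · exact le_max_right _ _
  have hT2 : v (B * x₁ * x₂) = v x₁ * v x₂ := by
    rw [map_mul, map_mul, hB, one_mul]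
  have hT1 : v (2 * ((x₁ + x₂) * (x₁ * x₂ - γ))) ≤ v x₁ * max (v x₁ * v x₂) (v γ) := by
    rw [map_mul, map_mul]
    calc v 2 * (v (x₁ + x₂) * v (x₁ * x₂ - γ))
        ≤ 1 * (v x₁ * max (v x₁ * v x₂) (v γ)) := by gcongr
      _ = v x₁ * max (v x₁ * v x₂) (v γ) := one_mul _
  have hS' : v (r₁ + r₂) * v (x₁ - x₂) ^ 2 =
      v (2 * ((x₁ + x₂) * (x₁ * x₂ - γ)) + B * x₁ * x₂) := by
    have := congrArg v hsum
    rw [map_mul, map_pow] at this
    exact this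
  have hP' : v (r₁ * r₂) * v (x₁ - x₂) ^ 2 = v (x₁ * x₂ + γ) ^ 2 := by
    have := congrArg v hprod
    rw [map_mul, map_pow, map_pow] at this
    exact this
  have hSle : v (r₁ + r₂) * v (x₁ - x₂) ^ 2 ≤
      max (v x₁ * max (v x₁ * v x₂) (v γ)) (v x₁ * v x₂) := by
    rw [hS']
    apply Valuation.map_add_le v
    · exact le_trans hT1 (le_max_left _ _)
    · rw [hT2]; exact le_max_right _ _
  have hδsq0 : 0 < v (x₁ - x₂) ^ 2 := pow_pos hδ0' 2
  have hα1 : v γ ≤ 1 := hα.le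
  rcases le_or_gt 1 (v x₂) with h21 | h21
  · -- (I,I)
    have h11 : 1 ≤ v x₁ := le_trans h21 hle
    have h12 : 1 ≤ v x₁ * v x₂ := by
      calc (1 : Γ₀) = 1 * 1 := (one_mul 1).symm
        _ ≤ v x₁ * v x₂ := by gcongr
    rw [fv_cb_one v h11, fv_cb_one v h21, fv_Fp_one_one hα, fv_Fm_self one_ne_zero]
    have hm : v (x₁ * x₂ + γ) = v x₁ * v x₂ := hm_gt (lt_of_lt_of_le hα h12)
    have hmax : max (v x₁ * v x₂) (v γ) = v x₁ * v x₂ :=
      max_eq_left (le_trans hα1 h12)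
    have hPi : 1 ≤ v (r₁ * r₂) := by
      refine le_of_mul_le_mul_right ?_ hδsq0
      rw [one_mul, hP', hm]
      calc v (x₁ - x₂) ^ 2 ≤ (v x₁) ^ 2 := by gcongr
        _ ≤ (v x₁ * v x₂) ^ 2 := by
          gcongr
          exact le_mul_of_one_le_right zero_le h21
    have hSPi : v (r₁ + r₂) ≤ v (r₁ * r₂) := by
      refine le_of_mul_le_mul_right ?_ hδsq0
      rw [hP', hm]
      refine le_trans hSle ?_
      rw [hmax]
      apply max_le
      · calc v x₁ * (v x₁ * v x₂) = (v x₁ * v x₂) * (v x₁ * 1) := by rw [mul_one]; ac_rfl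
          _ ≤ (v x₁ * v x₂) * (v x₁ * v x₂) := by gcongr
          _ = (v x₁ * v x₂) ^ 2 := (sq _).symm
      · calc v x₁ * v x₂ = (v x₁ * v x₂) * 1 := (mul_one _).symm
          _ ≤ (v x₁ * v x₂) * (v x₁ * v x₂) := by gcongr
          _ = (v x₁ * v x₂) ^ 2 := (sq _).symm
    obtain ⟨h1, h2'⟩ := np_both_ge_one v hPi hSPi
    exact Or.inl ⟨fv_cb_one v h1, fv_cb_one v h2'⟩
  rcases le_or_gt 1 (v x₁) with h11 | h11
  · -- `x₁` of type I, `x₂` of type M or L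
    have hlt : v x₂ < v x₁ := lt_of_lt_of_le h21 h11
    have hδ1 : v (x₁ - x₂) = v x₁ := hδeq hlt
    rw [hδ1] at hS' hP' hSle
    have hA1sq : 0 < v x₁ ^ 2 := pow_pos hA1' 2
    rcases le_or_gt (v x₂) (v γ) with h2a | h2a
    · -- (I,L)
      rw [fv_cb_one v h11, fv_cb_low v hα h2a, fv_Fp_one_left ha0 le_rfl,
        fv_Fm_one_left ha0 hα1]
      have hmax : max (v x₁ * v x₂) (v γ) ≤ v γ * v x₁ := by
        apply max_le
        · rw [mul_comm]; gcongr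
        · exact le_mul_of_one_le_right zero_le h11
      have hPi : v (r₁ * r₂) ≤ v γ ^ 2 := by
        refine le_of_mul_le_mul_right ?_ hA1sq
        rw [hP', ← mul_pow]
        gcongr
        exact le_trans hm_le hmax
      have hS : v (r₁ + r₂) ≤ v γ := by
        refine le_of_mul_le_mul_right ?_ hA1sq
        refine le_trans hSle ?_
        apply max_le
        · calc v x₁ * max (v x₁ * v x₂) (v γ) ≤ v x₁ * (v γ * v x₁) := by gcongr
            _ = v γ * v x₁ ^ 2 := by rw [sq]; ac_rfl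
        · calc v x₁ * v x₂ ≤ v x₁ * v γ := by gcongr
            _ = v γ * (v x₁ * 1) := by rw [mul_one, mul_comm]
            _ ≤ v γ * (v x₁ * v x₁) := by gcongr
            _ = v γ * v x₁ ^ 2 := by rw [sq]
      obtain ⟨h1, h2'⟩ := np_le v hS hPi
      exact Or.inl ⟨fv_cb_low v hα h1, fv_cb_low v hα h2'⟩
    · -- (I,M)
      have hA2 : v x₂ ≠ 0 := ne_of_gt (lt_trans ha0' h2a)
      rw [fv_cb_one v h11, fv_cb_mid v h21 h2a.le, fv_Fp_one_left hA2 h2a.le,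
        fv_Fm_one_left hA2 h21.le]
      have h2le : v x₂ ≤ v x₁ * v x₂ := le_mul_of_one_le_left zero_le h11
      have hm : v (x₁ * x₂ + γ) = v x₁ * v x₂ := hm_gt (lt_of_lt_of_le h2a h2le)
      have hmax : max (v x₁ * v x₂) (v γ) = v x₁ * v x₂ :=
        max_eq_left (le_trans h2a.le h2le)
      have hPi : v (r₁ * r₂) = v x₂ ^ 2 := by
        apply mul_right_cancel₀ (ne_of_gt hA1sq)
        rw [hP', hm, mul_pow, mul_comm]
      have hS : v (r₁ + r₂) ≤ v x₂ := by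
        refine le_of_mul_le_mul_right ?_ hA1sq
        refine le_trans hSle ?_
        rw [hmax]
        apply max_le
        · rw [sq]; exact le_of_eq (by ac_rfl)
        · calc v x₁ * v x₂ = v x₂ * (v x₁ * 1) := by rw [mul_one, mul_comm]
            _ ≤ v x₂ * (v x₁ * v x₁) := by gcongr
            _ = v x₂ * v x₁ ^ 2 := by rw [sq]
      obtain ⟨h1, h2'⟩ := np_eq v hS hPi
      refine Or.inl ⟨?_, ?_⟩
      · rw [fv_cb_mid v (by rw [h1]; exact h21) (by rw [h1]; exact h2a.le), h1]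
      · rw [fv_cb_mid v (by rw [h2']; exact h21) (by rw [h2']; exact h2a.le), h2']
  -- now `v x₂ ≤ v x₁ < 1`
  rcases le_or_gt (v x₁) (v γ) with h1a | h1a
  · -- (L,L)
    have h2a : v x₂ ≤ v γ := le_trans hle h1a
    rw [fv_cb_low v hα h1a, fv_cb_low v hα h2a, fv_Fp_low_low ha0 hα, fv_Fm_self ha0]
    have h12 : v x₁ * v x₂ ≤ v γ * v γ := mul_le_mul' h1a h2a
    have h12' : v x₁ * v x₂ < v γ := lt_of_le_of_lt h12 (mul_lt_of_lt_one_left ha0' hα)
    have hm : v (x₁ * x₂ + γ) = v γ := hm_lt h12'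
    have hmax : max (v x₁ * v x₂) (v γ) = v γ := max_eq_right h12'.le
    have hPi : 1 ≤ v (r₁ * r₂) := by
      refine le_of_mul_le_mul_right ?_ hδsq0
      rw [one_mul, hP', hm]
      gcongr
      exact le_trans hδ h1a
    have hSPi : v (r₁ + r₂) ≤ v (r₁ * r₂) := by
      refine le_of_mul_le_mul_right ?_ hδsq0
      rw [hP', hm]
      refine le_trans hSle ?_
      rw [hmax, sq]
      apply max_le
      · gcongr
      · exact h12
    obtain ⟨h1, h2'⟩ := np_both_ge_one v hPi hSPi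
    exact Or.inl ⟨fv_cb_one v h1, fv_cb_one v h2'⟩
  rcases le_or_gt (v x₂) (v γ) with h2a | h2a
  · -- (M,L)
    have hlt : v x₂ < v x₁ := lt_of_le_of_lt h2a h1a
    have hδ1 : v (x₁ - x₂) = v x₁ := hδeq hlt
    rw [hδ1] at hS' hP' hSle
    have hA1sq : 0 < v x₁ ^ 2 := pow_pos hA1' 2
    rw [fv_cb_mid v h11 h1a.le, fv_cb_low v hα h2a, fv_Fp_low_right ha0 hA1 h11.le,
      fv_Fm_low_right ha0 hA1 h1a.le]
    have h12 : v x₁ * v x₂ ≤ v x₁ * v γ := by gcongr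
    have h12' : v x₁ * v x₂ < v γ := lt_of_le_of_lt h12 (mul_lt_of_lt_one_left ha0' h11)
    have hm : v (x₁ * x₂ + γ) = v γ := hm_lt h12'
    have hmax : max (v x₁ * v x₂) (v γ) = v γ := max_eq_right h12'.le
    have hPi : v (r₁ * r₂) = (v γ / v x₁) ^ 2 := by
      apply mul_right_cancel₀ (ne_of_gt hA1sq)
      rw [hP', hm, ← mul_pow, div_mul_cancel₀ _ hA1]
    have hS : v (r₁ + r₂) ≤ v γ / v x₁ := by
      refine le_of_mul_le_mul_right ?_ hA1sq
      refine le_trans hSle ?_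
      rw [hmax]
      have e1 : v γ / v x₁ * v x₁ ^ 2 = v x₁ * v γ := by
        field_simp
      rw [e1]
      exact max_le le_rfl h12
    obtain ⟨h1, h2'⟩ := np_eq v hS hPi
    have hs1 : v γ / v x₁ < 1 := (div_lt_one₀ hA1').2 h1a
    have hs2 : v γ ≤ v γ / v x₁ := by
      rw [le_div_iff₀ hA1']
      exact mul_le_of_le_one_right zero_le h11.le
    refine Or.inl ⟨?_, ?_⟩
    · rw [fv_cb_mid v (by rw [h1]; exact hs1) (by rw [h1]; exact hs2), h1]
    · rw [fv_cb_mid v (by rw [h2']; exact hs1) (by rw [h2']; exact hs2), h2']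
  -- (M,M)
  have hA2' : 0 < v x₂ := lt_trans ha0' h2a
  have hA2 : v x₂ ≠ 0 := ne_of_gt hA2'
  have h12pos : 0 < v x₁ * v x₂ := mul_pos hA1' hA2'
  have h12ne : v x₁ * v x₂ ≠ 0 := ne_of_gt h12pos
  rw [fv_cb_mid v h11 h1a.le, fv_cb_mid v h21 h2a.le]
  -- `x₁ * max (x₁ x₂) a < x₁ x₂`
  have hkey : v x₁ * max (v x₁ * v x₂) (v γ) < v x₁ * v x₂ := by
    rcases le_total (v x₁ * v x₂) (v γ) with h | h
    · rw [max_eq_right h]
      gcongr
    · rw [max_eq_left h]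
      exact mul_lt_of_lt_one_left h12pos h11
  have hSeq : v (r₁ + r₂) * v (x₁ - x₂) ^ 2 = v x₁ * v x₂ := by
    rw [hS', Valuation.map_add_eq_of_lt_right v (by rw [hT2]; exact lt_of_le_of_lt hT1 hkey),
      hT2]
  have hs0 : v (r₁ + r₂) ≠ 0 := by
    intro h0
    rw [h0, zero_mul] at hSeq
    exact h12ne hSeq.symm
  have hs0' : 0 < v (r₁ + r₂) := zero_lt_iff.2 hs0
  -- the second slope
  have hPi : v (r₁ * r₂) = v (r₁ + r₂) * (v (x₁ * x₂ + γ) ^ 2 / (v x₁ * v x₂)) := by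
    apply mul_right_cancel₀ (ne_of_gt hδsq0)
    rw [hP']
    calc v (x₁ * x₂ + γ) ^ 2
        = (v x₁ * v x₂) * (v (x₁ * x₂ + γ) ^ 2 / (v x₁ * v x₂)) := by
          field_simp
      _ = (v (r₁ + r₂) * v (x₁ - x₂) ^ 2) * (v (x₁ * x₂ + γ) ^ 2 / (v x₁ * v x₂)) := by
          rw [hSeq]
      _ = v (r₁ + r₂) * (v (x₁ * x₂ + γ) ^ 2 / (v x₁ * v x₂)) * v (x₁ - x₂) ^ 2 := by
          ac_rfl
  have hmδ : v (x₁ * x₂ + γ) * v (x₁ - x₂) < v x₁ * v x₂ := by
    calc v (x₁ * x₂ + γ) * v (x₁ - x₂) ≤ max (v x₁ * v x₂) (v γ) * v x₁ := by gcongr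
      _ = v x₁ * max (v x₁ * v x₂) (v γ) := mul_comm _ _
      _ < v x₁ * v x₂ := hkey
  have hts : v (x₁ * x₂ + γ) ^ 2 / (v x₁ * v x₂) < v (r₁ + r₂) := by
    refine lt_of_mul_lt_mul_right ?_ (le_of_lt hδsq0)
    rw [hSeq, div_mul_eq_mul_div, div_lt_iff₀ h12pos, ← mul_pow]
    calc (v (x₁ * x₂ + γ) * v (x₁ - x₂)) ^ 2 < (v x₁ * v x₂) ^ 2 := by
          gcongr
          exact zero_le
      _ = v x₁ * v x₂ * (v x₁ * v x₂) := sq _
  -- the values of `Fm`, `Fp`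
  have hFm : Fm (v x₁) (v x₂) = v x₂ / v x₁ := by
    rw [fv_Fm_eq]
    apply min_eq_right
    rw [div_le_div_iff₀ hA1' hA2']
    gcongr
  -- `cb` of a root of valuation `s`
  have hcs : ∀ r : K, v r = v (r₁ + r₂) → cb v (v γ) r = v x₂ / v x₁ := by
    intro r hr
    rcases lt_or_eq_of_le hle with hlt | heq
    · have hδ1 : v (x₁ - x₂) = v x₁ := hδeq hlt
      have hs : v (r₁ + r₂) = v x₂ / v x₁ := by
        apply mul_right_cancel₀ (ne_of_gt (pow_pos hA1' 2))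
        rw [← hδ1, hSeq, hδ1]
        field_simp
      have hs1 : v x₂ / v x₁ < 1 := (div_lt_one₀ hA1').2 hlt
      have hs2 : v γ ≤ v x₂ / v x₁ := by
        rw [le_div_iff₀ hA1']
        calc v γ * v x₁ ≤ v γ * 1 := by gcongr
          _ = v γ := mul_one _
          _ ≤ v x₂ := h2a.le
      rw [fv_cb_mid v (by rw [hr, hs]; exact hs1) (by rw [hr, hs]; exact hs2), hr, hs]
    · have hs : 1 ≤ v (r₁ + r₂) := by
        refine le_of_mul_le_mul_right ?_ hδsq0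
        rw [one_mul, hSeq, heq, ← sq]
        gcongr
      rw [fv_cb_one v (by rw [hr]; exact hs), heq, div_self hA1]
  -- `cb` of a root of valuation `t`
  have hct : ∀ r : K, v r = v (x₁ * x₂ + γ) ^ 2 / (v x₁ * v x₂) →
      cb v (v γ) r = Fp (v γ) (v x₁) (v x₂) := by
    intro r hr
    rw [fv_Fp_eq]
    rcases lt_trichotomy (v γ) (v x₁ * v x₂) with h | h | h
    · rw [hm_gt h] at hr
      have hr' : v r = v x₁ * v x₂ := by
        rw [hr]
        field_simp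
      have h1 : v x₁ * v x₂ < 1 := by
        calc v x₁ * v x₂ < 1 * 1 := mul_lt_mul'' h11 h21 zero_le zero_le
          _ = 1 := one_mul 1
      rw [fv_cb_mid v (by rw [hr']; exact h1) (by rw [hr']; exact h.le), hr']
      symm
      apply max_eq_left
      rw [div_le_iff₀ h12pos, ← sq]
      gcongr
    · rw [← h] at hr ⊢
      have hmle : v (x₁ * x₂ + γ) ≤ v γ := by
        refine le_trans hm_le ?_
        rw [← h, max_self]
      have hr1 : v r ≤ v γ := by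
        rw [hr, div_le_iff₀ ha0', ← sq]
        gcongr
      rw [fv_cb_low v hα hr1]
      have : v γ ^ 2 / v γ = v γ := by
        field_simp
      rw [this, max_self]
    · rw [hm_lt h] at hr
      have ht1 : v γ ^ 2 / (v x₁ * v x₂) < 1 := by
        rw [div_lt_one₀ h12pos, sq]
        exact mul_lt_mul'' h1a h2a zero_le zero_le
      have ht2 : v γ ≤ v γ ^ 2 / (v x₁ * v x₂) := by
        rw [le_div_iff₀ h12pos, sq]
        gcongr
      rw [fv_cb_mid v (by rw [hr]; exact ht1) (by rw [hr]; exact ht2), hr]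
      symm
      apply max_eq_right
      exact le_trans h.le ht2
  rw [hFm]
  rcases np_lt v rfl hPi.le hts with ⟨h1, h2'⟩ | ⟨h1, h2'⟩
  · right
    refine ⟨hcs r₁ h1, hct r₂ ?_⟩
    rw [hPi] at h2'
    exact (mul_left_cancel₀ hs0 h2').symm
  · left
    refine ⟨hct r₁ ?_, hcs r₂ h1⟩
    rw [hPi] at h2'
    exact (mul_left_cancel₀ hs0 h2').symm

/-- **M3a** (sum/difference part): the folding lemma, pure valuation form, any residue
characteristic. -/
theorem fold_val_gen {γ B : K} (hγ : v γ < 1) (hγ0 : γ ≠ 0) (hB : v B = 1)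
    (h2 : v (2 : K) ≤ 1) {x₁ x₂ r₁ r₂ : K} (hx : x₁ ≠ x₂)
    (hsum : (r₁ + r₂) * (x₁ - x₂) ^ 2 =
      2 * x₁ * x₂ * (x₁ + x₂) + B * x₁ * x₂ - 2 * γ * (x₁ + x₂))
    (hprod : r₁ * r₂ * (x₁ - x₂) ^ 2 = (x₁ * x₂ + γ) ^ 2) :
    (cb v (v γ) r₁ = Fp (v γ) (cb v (v γ) x₁) (cb v (v γ) x₂) ∧
      cb v (v γ) r₂ = Fm (cb v (v γ) x₁) (cb v (v γ) x₂)) ∨
    (cb v (v γ) r₁ = Fm (cb v (v γ) x₁) (cb v (v γ) x₂) ∧
      cb v (v γ) r₂ = Fp (v γ) (cb v (v γ) x₁) (cb v (v γ) x₂)) := by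
  rcases le_total (v x₂) (v x₁) with h | h
  · exact fold_val_gen_aux v hγ hγ0 hB h2 hx h (by linear_combination hsum) hprod
  · have h' := fold_val_gen_aux v hγ hγ0 hB h2 (x₁ := x₂) (x₂ := x₁) (r₁ := r₁) (r₂ := r₂)
      hx.symm h (by linear_combination hsum) (by linear_combination hprod)
    rw [fv_Fp_comm (v γ) (cb v (v γ) x₂) (cb v (v γ) x₁),
      fv_Fm_comm (cb v (v γ) x₂) (cb v (v γ) x₁)] at h'
    exact h'

end Fermat.Agent.S13
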