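import Mathlib
import Fermat.Agent.S51.Double
import Fermat.Agent.S05.Defs
import Fermat.Agent.S05.FoldCurve
import Fermat.Agent.S05.XOnly
import Fermat.Agent.S13.FoldValGen

/-!
# S13, piece M3a: the folding lemma (XL) on a Weierstrass curve, any residue characteristic

`W` is a Weierstrass curve over a valued field `(K, v)` with `b₄ = -2γ`, `b₆ = 0`, `b₈ = -γ²`,
`v b₂ = 1`, `v γ < 1`, `γ ≠ 0`, `v 2 ≤ 1` (the node of the reduction is at `x = 0`).  The folding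
invariant `cbarP v W 0 γ` satisfies (XL) for all pairs of points.

`fold_curve_gen_of`: relative form, the two doubling lemmas are hypotheses.
-/

set_option autoImplicit false

open WeierstrassCurve

namespace Fermat.Agent.S13

open Fermat.Agent.S05

variable {K : Type*} [Field K] [DecidableEq K] {Γ₀ : Type*} [LinearOrderedCommGroupWithZero Γ₀]
  (v : Valuation K Γ₀) (W : WeierstrassCurve K)

omit [DecidableEq K] in
theorem fcg_cbarP_some (γ : K) {x y : K} (h : W.toAffine.Nonsingular x y) :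
    cbarP v W 0 γ (Affine.Point.some x y h) = cb v (v γ) x := by
  rw [cbarP_some, sub_zero]

/-- **M3a**, relative form: the folding lemma (XL) for all pairs of points, from the two
doubling lemmas (`hdouble`, `htwo`). -/
theorem fold_curve_gen_of {γ : K} (hγ : v γ < 1) (hγ0 : γ ≠ 0) (hB : v W.b₂ = 1)
    (h2 : v (2 : K) ≤ 1)
    (hdouble : ∀ {x r : K} (_ : x * (4 * x ^ 2 + W.b₂ * x - 4 * γ) ≠ 0)
      (_ : r * (x * (4 * x ^ 2 + W.b₂ * x - 4 * γ)) = (x ^ 2 + γ) ^ 2),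
      cb v (v γ) r = Fp (v γ) (cb v (v γ) x) (cb v (v γ) x))
    (htwo : ∀ {x : K} (_ : x * (4 * x ^ 2 + W.b₂ * x - 4 * γ) = 0),
      Fp (v γ) (cb v (v γ) x) (cb v (v γ) x) = 1)
    (hb4 : W.b₄ = -2 * γ) (hb6 : W.b₆ = 0) (hb8 : W.b₈ = -γ ^ 2)
    (P Q : W.toAffine.Point) :
    (cbarP v W 0 γ (P + Q) = Fp (v γ) (cbarP v W 0 γ P) (cbarP v W 0 γ Q) ∧
      cbarP v W 0 γ (P - Q) = Fm (cbarP v W 0 γ P) (cbarP v W 0 γ Q)) ∨
    (cbarP v W 0 γ (P + Q) = Fm (cbarP v W 0 γ P) (cbarP v W 0 γ Q) ∧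
      cbarP v W 0 γ (P - Q) = Fp (v γ) (cbarP v W 0 γ P) (cbarP v W 0 γ Q)) := by
  have ha1 : v γ ≤ 1 := hγ.le
  have ha0 : v γ ≠ 0 := (Valuation.ne_zero_iff v).mpr hγ0
  -- general facts on `cbarP`
  have hc1 : ∀ R : W.toAffine.Point, cbarP v W 0 γ R ≤ 1 := by
    rintro (_ | ⟨x, y, h⟩)
    · exact le_rfl
    · exact foldc_cb_le_one v ha1 _
  have hca : ∀ R : W.toAffine.Point, v γ ≤ cbarP v W 0 γ R := by
    rintro (_ | ⟨x, y, h⟩)
    · exact ha1
    · exact foldc_le_cb v ha1 _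
  have hc0 : ∀ R : W.toAffine.Point, cbarP v W 0 γ R ≠ 0 := by
    intro R h
    have := hca R
    rw [h] at this
    exact ha0 (le_antisymm this zero_le)
  have hneg : ∀ R : W.toAffine.Point, cbarP v W 0 γ (-R) = cbarP v W 0 γ R := by
    rintro (_ | ⟨x, y, h⟩)
    · rfl
    · rfl
  -- the doubling formula
  have hdbl : ∀ R : W.toAffine.Point,
      cbarP v W 0 γ (R + R) = Fp (v γ) (cbarP v W 0 γ R) (cbarP v W 0 γ R) := by
    rintro (_ | ⟨x, y, h⟩)
    · change cbarP v W 0 γ (0 + 0) = _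
      rw [add_zero]
      change (1 : Γ₀) = Fp (v γ) 1 1
      rw [foldc_Fp_one_left ha1 one_ne_zero]
    · rcases hR : (Affine.Point.some x y h + Affine.Point.some x y h : W.toAffine.Point)
        with _ | ⟨x', y', h'⟩
      · -- `2`-torsion
        have h0 := (Fermat.Agent.S51.add_self_eq_zero_iff W h).mp hR
        have h0' : 4 * x ^ 3 + W.b₂ * x ^ 2 + 2 * W.b₄ * x + W.b₆ = 0 := h0
        have h3 : x * (4 * x ^ 2 + W.b₂ * x - 4 * γ) = 0 := by
          rw [hb4, hb6] at h0'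
          linear_combination h0'
        rw [fcg_cbarP_some]
        exact (htwo h3).symm
      · obtain ⟨hx', hne⟩ := Fermat.Agent.S51.add_self_x W h h' hR
        have hx'' : x' * (4 * x ^ 3 + W.b₂ * x ^ 2 + 2 * W.b₄ * x + W.b₆) =
            x ^ 4 - W.b₄ * x ^ 2 - 2 * W.b₆ * x - W.b₈ := hx'
        have hne' : 4 * x ^ 3 + W.b₂ * x ^ 2 + 2 * W.b₄ * x + W.b₆ ≠ 0 := hne
        have h3 : x * (4 * x ^ 2 + W.b₂ * x - 4 * γ) ≠ 0 := by
          intro h3
          apply hne'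
          rw [hb4, hb6]
          linear_combination h3
        rw [fcg_cbarP_some, fcg_cbarP_some]
        refine hdouble h3 ?_
        rw [hb4, hb6, hb8] at hx''
        linear_combination hx''
  rcases P with _ | ⟨x₁, y₁, h₁⟩
  · -- `P = 0`
    left
    change cbarP v W 0 γ (0 + Q) = Fp (v γ) 1 (cbarP v W 0 γ Q) ∧
      cbarP v W 0 γ (0 - Q) = Fm 1 (cbarP v W 0 γ Q)
    rw [zero_add, zero_sub, hneg, foldc_Fp_one_left (hca Q) (hc0 Q),
      foldc_Fm_one_left (hc1 Q) (hc0 Q)]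
    exact ⟨rfl, rfl⟩
  rcases Q with _ | ⟨x₂, y₂, h₂⟩
  · -- `Q = 0`
    left
    change cbarP v W 0 γ (Affine.Point.some x₁ y₁ h₁ + 0) =
        Fp (v γ) (cbarP v W 0 γ (Affine.Point.some x₁ y₁ h₁)) 1 ∧
      cbarP v W 0 γ (Affine.Point.some x₁ y₁ h₁ - 0) =
        Fm (cbarP v W 0 γ (Affine.Point.some x₁ y₁ h₁)) 1
    rw [add_zero, sub_zero, foldc_Fp_one_right (hca _) (hc0 _),
      foldc_Fm_one_right (hc1 _) (hc0 _)]
    exact ⟨rfl, rfl⟩
  by_cases hx : x₁ = x₂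
  · rcases (Affine.Point.X_eq_iff (h₁ := h₁) (h₂ := h₂)).mp hx with h | h
    · -- `P = Q`
      left
      rw [← h, sub_self, hdbl, foldc_Fm_self (hc0 _)]
      exact ⟨rfl, rfl⟩
    · -- `P = -Q`
      right
      have hQ : (Affine.Point.some x₂ y₂ h₂ : W.toAffine.Point) =
          -Affine.Point.some x₁ y₁ h₁ := by rw [h, neg_neg]
      rw [hQ, add_neg_cancel, sub_neg_eq_add, hdbl, hneg, foldc_Fm_self (hc0 _)]
      exact ⟨rfl, rfl⟩
  · obtain ⟨x₃, y₃, x₄, y₄, h₃, h₄, hadd, hsub, hS, hPi⟩ := exists_add_sub W h₁ h₂ hx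
    rw [hadd, hsub]
    simp only [fcg_cbarP_some]
    refine fold_val_gen v hγ hγ0 hB h2 hx ?_ ?_
    · rw [hb4, hb6] at hS
      linear_combination hS
    · rw [hb4, hb6, hb8] at hPi
      linear_combination hPi

end Fermat.Agent.S13
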