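import Mathlib
import Fermat.Agent.S05.Defs
import Fermat.Agent.S05.FoldValDouble

/-!
# S13, piece M3a (doubling part): the folding lemma for `2 P` in any residue characteristic

Curve with `b₂ = B` (a unit), `b₄ = -2 γ`, `b₆ = 0`, `b₈ = -γ ^ 2` (`v γ < 1`; node at `x = 0`);
no hypothesis on `v 2` beyond `v 2 ≤ 1`.  The `x`-coordinate of `2 P` is
`r = (x² + γ)² / (x (4 x² + B x - 4 γ))`.

* `fold_val_double_gen`: `cb r = Fp a c c` with `c = cb x`, `a = v γ`.
* `fold_val_two_gen`: at the `2`-torsion points (`x (4 x² + B x - 4 γ) = 0`) the value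
  `Fp a c c` is `1`.
-/

set_option autoImplicit false
set_option linter.unusedVariables false

namespace Fermat.Agent.S13

open Fermat.Agent.S05 Fermat.Agent.S05.FoldValDouble

variable {K : Type*} [Field K] {Γ₀ : Type*} [LinearOrderedCommGroupWithZero Γ₀]
  (v : Valuation K Γ₀)

namespace FoldValDoubleGen

variable {v}

theorem val_four_le (h2 : v (2 : K) ≤ 1) : v (4 : K) ≤ 1 := by
  have : (4 : K) = 2 * 2 := by norm_num
  rw [this, Valuation.map_mul]
  calc v (2 : K) * v (2 : K) ≤ 1 * 1 := by gcongr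
    _ = 1 := mul_one 1

/-- `v (4 x² + B x - 4 γ) ≤ m` as soon as the three terms are `≤ m` -/
theorem val_quad_le {γ B x : K} {m : Γ₀} (h2 : v (2 : K) ≤ 1) (hB : v B = 1)
    (h1 : v x ^ 2 ≤ m) (h2' : v x ≤ m) (h3 : v γ ≤ m) :
    v (4 * x ^ 2 + B * x - 4 * γ) ≤ m := by
  have h4 := val_four_le (v := v) h2
  apply Valuation.map_sub_le
  · apply Valuation.map_add_le
    · rw [Valuation.map_mul, Valuation.map_pow]
      calc v (4 : K) * v x ^ 2 ≤ 1 * v x ^ 2 := by gcongr
        _ = v x ^ 2 := one_mul _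
        _ ≤ m := h1
    · rw [Valuation.map_mul, hB, one_mul]
      exact h2'
  · rw [Valuation.map_mul]
    calc v (4 : K) * v γ ≤ 1 * v γ := by gcongr
      _ = v γ := one_mul _
      _ ≤ m := h3

/-- for `v γ < v x < 1` the term `B x` dominates: `v (4 x² + B x - 4 γ) = v x` -/
theorem val_quad_mid {γ B x : K} (h2 : v (2 : K) ≤ 1) (hB : v B = 1)
    (hx0 : v x ≠ 0) (hM : v γ < v x) (hlt1 : v x < 1) :
    v (4 * x ^ 2 + B * x - 4 * γ) = v x := by
  have h4 := val_four_le (v := v) h2
  have hXpos : 0 < v x := zero_lt_iff.mpr hx0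
  have hBx : v (B * x) = v x := by rw [Valuation.map_mul, hB, one_mul]
  have h1 : v (4 * x ^ 2) < v (B * x) := by
    rw [hBx, Valuation.map_mul, Valuation.map_pow]
    calc v (4 : K) * v x ^ 2 ≤ 1 * v x ^ 2 := by gcongr
      _ = v x ^ 2 := one_mul _
      _ < v x := sq_lt_self hx0 hlt1
  have h3 : v (4 * γ) < v x := by
    rw [Valuation.map_mul]
    calc v (4 : K) * v γ ≤ 1 * v γ := by gcongr
      _ = v γ := one_mul _
      _ < v x := hM
  have h12 : v (4 * x ^ 2 + B * x) = v x := by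
    rw [← hBx]
    exact Valuation.map_add_eq_of_lt_right v h1
  rw [← h12]
  apply Valuation.map_sub_eq_of_lt_left
  rw [h12]
  exact h3

end FoldValDoubleGen

open FoldValDoubleGen

/-- the `2`-torsion points: `x = 0` or `4 x² + B x - 4 γ = 0` -/
theorem fold_val_two_gen {γ B : K} (hγ : v γ < 1) (hγ0 : γ ≠ 0) (hB : v B = 1)
    (h2 : v (2 : K) ≤ 1) {x : K} (hx : x * (4 * x ^ 2 + B * x - 4 * γ) = 0) :
    Fp (v γ) (cb v (v γ) x) (cb v (v γ) x) = 1 := by
  have ha0 : v γ ≠ 0 := (Valuation.ne_zero_iff v).mpr hγ0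
  rcases le_or_gt 1 (v x) with hI | hlt1
  · rw [cb_of_one_le hI]
    exact Fp_one_one hγ.le
  · rcases lt_or_ge (v γ) (v x) with hM | hL
    · -- impossible: `B x` dominates
      exfalso
      have hx0 : v x ≠ 0 := fun h => by
        rw [h] at hM
        exact absurd hM (not_lt.mpr zero_le)
      have hq := val_quad_mid (γ := γ) h2 hB hx0 hM hlt1
      have hx' : x ≠ 0 := (Valuation.ne_zero_iff v).mp hx0
      rcases mul_eq_zero.mp hx with h | h
      · exact hx' h
      · rw [h, Valuation.map_zero] at hq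
        exact hx0 hq.symm
    · rw [cb_of_le hγ hL]
      exact Fp_self_self ha0 hγ.le

theorem fold_val_double_gen {γ B : K} (hγ : v γ < 1) (hγ0 : γ ≠ 0) (hB : v B = 1)
    (h2 : v (2 : K) ≤ 1) {x r : K}
    (hne : x * (4 * x ^ 2 + B * x - 4 * γ) ≠ 0)
    (hr : r * (x * (4 * x ^ 2 + B * x - 4 * γ)) = (x ^ 2 + γ) ^ 2) :
    cb v (v γ) r = Fp (v γ) (cb v (v γ) x) (cb v (v γ) x) := by
  have ha0 : v γ ≠ 0 := (Valuation.ne_zero_iff v).mpr hγ0
  have hapos : 0 < v γ := zero_lt_iff.mpr ha0
  have hx0 : x ≠ 0 := fun h => hne (by rw [h]; ring)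
  have hX0 : v x ≠ 0 := (Valuation.ne_zero_iff v).mpr hx0
  have hXpos : 0 < v x := zero_lt_iff.mpr hX0
  have hden0 : v (x * (4 * x ^ 2 + B * x - 4 * γ)) ≠ 0 := (Valuation.ne_zero_iff v).mpr hne
  have hdenpos : 0 < v (x * (4 * x ^ 2 + B * x - 4 * γ)) := zero_lt_iff.mpr hden0
  -- the valuation of the relation
  have hrel : v r * v (x * (4 * x ^ 2 + B * x - 4 * γ)) = v (x ^ 2 + γ) ^ 2 := by
    have := congrArg v hr
    rw [Valuation.map_mul, Valuation.map_pow] at this
    exact this
  have hden : v (x * (4 * x ^ 2 + B * x - 4 * γ)) = v x * v (4 * x ^ 2 + B * x - 4 * γ) := by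
    rw [Valuation.map_mul]
  rcases le_or_gt 1 (v x) with hI | hlt1
  · -- type I : `1 ≤ v x`
    rw [cb_of_one_le hI, Fp_one_one hγ.le]
    apply cb_of_one_le
    have hnum : v (x ^ 2 + γ) = v x ^ 2 := by
      rw [← Valuation.map_pow]
      apply Valuation.map_add_eq_of_lt_left
      rw [Valuation.map_pow]
      calc v γ < 1 := hγ
        _ ≤ v x ^ 2 := one_le_pow₀ hI
    have hxsq : v x ≤ v x ^ 2 := by
      calc v x = v x * 1 := (mul_one _).symm
        _ ≤ v x * v x := by gcongr
        _ = v x ^ 2 := (sq _).symm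
    have hq : v (4 * x ^ 2 + B * x - 4 * γ) ≤ v x ^ 2 :=
      val_quad_le h2 hB le_rfl hxsq (hγ.le.trans (one_le_pow₀ hI))
    have hle : v (x * (4 * x ^ 2 + B * x - 4 * γ)) ≤ v (x ^ 2 + γ) ^ 2 := by
      rw [hden, hnum]
      calc v x * v (4 * x ^ 2 + B * x - 4 * γ) ≤ v x * v x ^ 2 := by gcongr
        _ = v x ^ 3 := by rw [pow_succ (v x) 2, mul_comm]
        _ ≤ v x ^ 4 := pow_le_pow_right₀ hI (by norm_num)
        _ = (v x ^ 2) ^ 2 := by rw [← pow_mul]
    rw [← hrel] at hle
    by_contra hcon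
    push Not at hcon
    have : v r * v (x * (4 * x ^ 2 + B * x - 4 * γ)) <
        1 * v (x * (4 * x ^ 2 + B * x - 4 * γ)) := by gcongr
    rw [one_mul] at this
    exact absurd hle (not_le.mpr this)
  · rcases lt_or_ge (v γ) (v x) with hM | hL
    · -- type M : `v γ < v x < 1`
      rw [cb_of_mid hM.le hlt1]
      have hq := val_quad_mid (γ := γ) h2 hB hX0 hM hlt1
      have hden' : v (x * (4 * x ^ 2 + B * x - 4 * γ)) = v x ^ 2 := by
        rw [hden, hq, sq]
      rw [hden'] at hrel
      have hX2pos : 0 < v x ^ 2 := pow_pos hXpos 2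
      have hX2lt : v x ^ 2 < 1 := pow_lt_one₀ zero_le hlt1 (by norm_num)
      have ha2 : v γ ^ 2 < v x ^ 2 := by gcongr
      rcases lt_trichotomy (v γ) (v x ^ 2) with hlt | heq | hgt
      · -- `v γ < (v x)²`
        have hnum : v (x ^ 2 + γ) = v x ^ 2 := by
          rw [← Valuation.map_pow]
          apply Valuation.map_add_eq_of_lt_left
          rw [Valuation.map_pow]; exact hlt
        rw [hnum] at hrel
        have hvr : v r = v x ^ 2 := by
          have h3 : v r * v x ^ 2 = v x ^ 2 * v x ^ 2 := by rw [hrel, sq (v x ^ 2)]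
          exact mul_right_cancel₀ (pow_ne_zero 2 hX0) h3
        rw [cb_of_mid (by rw [hvr]; exact hlt.le) (by rw [hvr]; exact hX2lt), hvr]
        unfold Fp
        rw [← sq]
        refine (max_eq_left ?_).symm
        rw [div_le_iff₀ hX2pos]
        calc v γ ^ 2 = v γ * v γ := sq _
          _ ≤ v x ^ 2 * v x ^ 2 := by gcongr
      · -- `v γ = (v x)²`
        have hnum : v (x ^ 2 + γ) ≤ v γ := by
          apply Valuation.map_add_le
          · rw [Valuation.map_pow, heq]
          · exact le_rfl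
        have hvr : v r ≤ v γ := by
          have h3 : v r * v x ^ 2 ≤ v γ * v x ^ 2 := by
            rw [hrel]
            calc v (x ^ 2 + γ) ^ 2 ≤ v γ ^ 2 := by gcongr
              _ = v γ * v γ := sq _
              _ = v γ * v x ^ 2 := by rw [← heq]
          exact le_of_mul_le_mul_right h3 hX2pos
        rw [cb_of_le hγ hvr]
        unfold Fp
        rw [← sq, ← heq]
        have : v γ ^ 2 / v γ = v γ := by
          rw [sq, mul_div_assoc, div_self ha0, mul_one]
        rw [this, max_self]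
      · -- `(v x)² < v γ`
        have hnum : v (x ^ 2 + γ) = v γ := by
          apply Valuation.map_add_eq_of_lt_right
          rw [Valuation.map_pow]; exact hgt
        rw [hnum] at hrel
        have hvr : v r = v γ ^ 2 / v x ^ 2 := by
          rw [eq_div_iff (pow_ne_zero 2 hX0)]; exact hrel
        have hvr1 : v r < 1 := by
          rw [hvr, div_lt_iff₀ hX2pos, one_mul]; exact ha2
        have hvr2 : v γ ≤ v r := by
          rw [hvr, le_div_iff₀ hX2pos]
          calc v γ * v x ^ 2 ≤ v γ * v γ := by gcongr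
            _ = v γ ^ 2 := (sq _).symm
        rw [cb_of_mid hvr2 hvr1, hvr]
        unfold Fp
        rw [← sq]
        refine (max_eq_right ?_).symm
        calc v x ^ 2 ≤ v γ := hgt.le
          _ ≤ v r := hvr2
          _ = v γ ^ 2 / v x ^ 2 := hvr
    · -- type L : `v x ≤ v γ`
      rw [cb_of_le hγ hL, Fp_self_self ha0 hγ.le]
      apply cb_of_one_le
      have hnum : v (x ^ 2 + γ) = v γ := by
        apply Valuation.map_add_eq_of_lt_right
        rw [Valuation.map_pow]
        calc v x ^ 2 ≤ v γ ^ 2 := by gcongr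
          _ < v γ := sq_lt_self ha0 hγ
      have hxsq : v x ^ 2 ≤ v γ := by
        calc v x ^ 2 ≤ v γ ^ 2 := by gcongr
          _ ≤ v γ := (sq_lt_self ha0 hγ).le
      have hq : v (4 * x ^ 2 + B * x - 4 * γ) ≤ v γ := val_quad_le h2 hB hxsq hL le_rfl
      have hle : v (x * (4 * x ^ 2 + B * x - 4 * γ)) ≤ v (x ^ 2 + γ) ^ 2 := by
        rw [hden, hnum]
        calc v x * v (4 * x ^ 2 + B * x - 4 * γ) ≤ v γ * v γ := mul_le_mul' hL hq
          _ = v γ ^ 2 := (sq _).symm
      rw [← hrel] at hle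
      by_contra hcon
      push Not at hcon
      have : v r * v (x * (4 * x ^ 2 + B * x - 4 * γ)) <
          1 * v (x * (4 * x ^ 2 + B * x - 4 * γ)) := by gcongr
      rw [one_mul] at this
      exact absurd hle (not_le.mpr this)

end Fermat.Agent.S13
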