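import Fermat.Agent.S13.NoRatTorsion
import Fermat.Agent.S13.FoldCurveGen
import Fermat.Agent.S13.FoldValDoubleGen

/-!
# S13, M3c (final form): the Frey curve has no rational point of order `p`

`frey_no_rational_torsion`: the contract (L2') of `NOTES/S13_statements.lean.txt`, from
`frey_no_rational_torsion_of_fold` (`NoRatTorsion.lean`) and the folding lemma at `2` (M3a:
`fold_curve_gen_of`, `fold_val_double_gen`, `fold_val_two_gen`).
-/

set_option autoImplicit false

open WeierstrassCurve WeierstrassCurve.Affine

namespace Fermat.Agent.S13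

open Fermat.Agent.S05

local notation "Qbar" => AlgebraicClosure ℚ

/-- the folding lemma at a place over `2` for the Frey curve -/
theorem nrtFold_frey (P : FreyPackage) (A : ValuationSubring Qbar) (hA : A.LiesOverPrime 2) :
    NrtFold P A := by
  have hv2 : A.valuation (2 : Qbar) < 1 := by
    have := valuation_natCast_lt_one A hA
    simpa using this
  obtain ⟨h1, h2, h3, h4, h5, h6, h7⟩ := nrt_fold_hyps P A hv2
  intro Q Q'
  exact fold_curve_gen_of A.valuation (P.freyCurve.baseChange Qbar) h1 h2 h3 h4
    (fun hne hr => fold_val_double_gen A.valuation h1 h2 h3 h4 hne hr)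
    (fun hx => fold_val_two_gen A.valuation h1 h2 h3 h4 hx) h5 h6 h7 Q Q'

/-- **(L2')** no rational `p`-torsion point on the Frey curve -/
theorem frey_no_rational_torsion (P : FreyPackage) (_hp : 7 ≤ P.p)
    (x : Submodule.torsionBy ℤ (P.freyCurve⁄Qbar).Point P.p)
    (hx : ∀ σ : Qbar ≃ₐ[ℚ] Qbar, σ • x = x) : x = 0 :=
  frey_no_rational_torsion_of_fold P (fun A hA => nrtFold_frey P A hA) x hx

end Fermat.Agent.S13
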