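import Fermat.Prelude.Def_FLTPrelim_FreyPackage
import Fermat.Agent.Kummer.Final
import Fermat.Agent.Kummer.KLData5
import Fermat.Agent.Kummer.KLData7
import Fermat.Agent.Kummer.KLData11
import Fermat.Agent.Kummer.KLData13
import Fermat.Agent.Kummer.PID7
import Fermat.Agent.Kummer.PID11
import Fermat.Agent.Kummer.PID13

/-!
# S13: the prime of a Frey package is at least `17`

Kummer's theorem for the regular primes `5, 7, 11, 13` (as in S10 and S11).
-/

set_option autoImplicit false

namespace Fermat.Agent.S13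

set_option backward.isDefEq.respectTransparency false in
/-- the prime of a Frey package is at least `17` (Kummer for `p = 5, 7, 11, 13`) -/
theorem frey_p_ge_seventeen (P : FreyPackage) : 17 ≤ P.p := by
  by_contra hlt
  have hab : IsCoprime P.a P.b :=
    (gcd_isUnit_iff P.a P.b).mp (by rw [P.hgcdab]; exact isUnit_one)
  have h := P.hFLT
  have hpp := P.pp
  have h5 := P.hp5
  have hcases : P.p = 5 ∨ P.p = 7 ∨ P.p = 11 ∨ P.p = 13 := by
    have h17 : P.p < 17 := by omega
    generalize P.p = n at hpp h5 h17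
    interval_cases n <;> first | omega | (exfalso; revert hpp; norm_num)
  rcases hcases with hp | hp | hp | hp
  · rw [hp] at h
    have hprime : Fact (Nat.Prime 5) := ⟨by norm_num⟩
    exact Fermat.Agent.Kummer.flt_of_pid_of_indep 5 (Or.inl rfl)
      (CyclotomicField 5 ℚ) (IsCyclotomicExtension.Rat.five_pid _) Fermat.Agent.Kummer.indep_five
      P.a P.b P.c P.ha0 P.hb0 P.hc0 hab h
  · rw [hp] at h
    have hprime : Fact (Nat.Prime 7) := ⟨by norm_num⟩
    exact Fermat.Agent.Kummer.flt_of_pid_of_indep 7 (Or.inr (Or.inl rfl))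
      (CyclotomicField 7 ℚ) (Fermat.Agent.Kummer.pid_seven _) Fermat.Agent.Kummer.indep_seven
      P.a P.b P.c P.ha0 P.hb0 P.hc0 hab h
  · rw [hp] at h
    have hprime : Fact (Nat.Prime 11) := ⟨by norm_num⟩
    exact Fermat.Agent.Kummer.flt_of_pid_of_indep 11 (Or.inr (Or.inr (Or.inl rfl)))
      (CyclotomicField 11 ℚ) (Fermat.Agent.Kummer.pid_eleven _) Fermat.Agent.Kummer.indep_eleven
      P.a P.b P.c P.ha0 P.hb0 P.hc0 hab h
  · rw [hp] at h
    have hprime : Fact (Nat.Prime 13) := ⟨by norm_num⟩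
    exact Fermat.Agent.Kummer.flt_of_pid_of_indep 13 (Or.inr (Or.inr (Or.inr rfl)))
      (CyclotomicField 13 ℚ) (Fermat.Agent.Kummer.pid_thirteen _)
      Fermat.Agent.Kummer.indep_thirteen P.a P.b P.c P.ha0 P.hb0 P.hc0 hab h

end Fermat.Agent.S13
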