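import Mathlib
import Fermat.Prelude.Def_FLTPrelim_Ramification
import Fermat.Agent.Lib.FrobeniusExists

set_option autoImplicit false
set_option linter.style.haveILetI false

/-!
# S13 / M4 (C): finite level — a nontrivial Galois number field has a nontrivial inertia element
-/

open scoped Pointwise

namespace Fermat.Agent.S13

open Fermat.Agent.FrobLib

local notation "Qbar" => AlgebraicClosure ℚ
local notation "GalQ" => (AlgebraicClosure ℚ ≃ₐ[ℚ] AlgebraicClosure ℚ)

section finite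

variable {K 𝒪 : Type*} [Field K] [NumberField K] [CommRing 𝒪] [Algebra 𝒪 K]
  [IsIntegralClosure 𝒪 ℤ K]

/-- Minkowski + inertia: in a Galois number field `K ≠ ℚ` there is a prime `q` such that every
prime `P` over `q` has a nontrivial inertia element. -/
theorem exists_inertia_ne_one_finite [IsGalois ℚ K] (hK : 1 < Module.finrank ℚ K) :
    ∃ q : ℕ, q.Prime ∧ ∀ (P : Ideal 𝒪), P.IsPrime → (q : 𝒪) ∈ P →
      ∃ τ : K ≃ₐ[ℚ] K, τ ≠ 1 ∧
        ∀ x : 𝒪, ∃ y ∈ P, τ (algebraMap 𝒪 K x) - algebraMap 𝒪 K x = algebraMap 𝒪 K y := by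
  have := (IsIntegralClosure.algebraMap_injective 𝒪 ℤ K).isDomain
  have := IsIntegralClosure.isDedekindDomain ℤ ℚ K 𝒪
  have := IsIntegralClosure.isFractionRing_of_finite_extension ℤ ℚ K 𝒪
  have := IsIntegralClosure.finite ℤ ℚ K 𝒪
  have := CharZero.of_module (R := 𝒪) K
  let _ : MulSemiringAction Gal(K/ℚ) 𝒪 := IsIntegralClosure.MulSemiringAction ℤ ℚ K 𝒪
  have := IsGaloisGroup.of_isFractionRing Gal(K/ℚ) ℤ 𝒪 ℚ K
  obtain ⟨q, hq, h⟩ := NumberField.exists_not_isUnramifiedAt_int_of_isGalois (K := K) (𝒪 := 𝒪) hK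
  refine ⟨q, hq, fun P hP hqP => ?_⟩
  have hnr := h P hP hqP
  haveI := hP
  set p : Ideal ℤ := P.under ℤ with hp
  haveI : P.LiesOver p := ⟨rfl⟩
  haveI : p.IsPrime := Ideal.IsPrime.under ℤ P
  rw [← Ideal.ramificationIdx_eq_one_iff,
    ← Ideal.ramificationIdxIn_eq_ramificationIdx p P Gal(K/ℚ),
    ← Ideal.card_inertia_eq_ramificationIdxIn (G := Gal(K/ℚ)) p P, Subgroup.card_eq_one] at hnr
  obtain ⟨τ, hτ1⟩ := (Subgroup.ne_bot_iff_exists_ne_one).mp hnr
  refine ⟨τ, fun h1 => hτ1 (Subtype.ext h1), fun x => ?_⟩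
  have hmem : (τ : Gal(K/ℚ)) • x - x ∈ P := (AddSubgroup.mem_inertia.mp τ.2) x
  refine ⟨_, hmem, ?_⟩
  rw [map_sub]
  congr 1
  exact (algebraMap_galRestrict_apply ℤ (τ : Gal(K/ℚ)) x).symm

end finite

/-- **(C)** finite level: a nontrivial finite Galois extension `K` of `ℚ` inside `Qbar` has a
prime `q` such that for every prime `Q` of `Zbar` over `q` some `s ∈ G_ℚ`, nontrivial on `K`, is
trivial modulo `Q` on the algebraic integers of `K`. -/
theorem exists_inertia_ne_one (K : IntermediateField ℚ Qbar) [FiniteDimensional ℚ K]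
    [IsGalois ℚ K] (hK : 1 < Module.finrank ℚ K) :
    ∃ q : ℕ, q.Prime ∧ ∀ Q : Ideal Zbar, Q.IsPrime → (q : Zbar) ∈ Q →
      ∃ s : GQ, (∃ x ∈ K, s x ≠ x) ∧ ∀ b : Zbar, (b : Qbar) ∈ K → s • b - b ∈ Q := by
  haveI := isAlgClosure_Qbar
  haveI : NumberField K := ⟨⟩
  obtain ⟨q, hq, h⟩ := exists_inertia_ne_one_finite (K := K) (𝒪 := NumberField.RingOfIntegers K) hK
  refine ⟨q, hq, fun Q hQ hqQ => ?_⟩
  have hint : ∀ x : NumberField.RingOfIntegers K,
      ((algebraMap K Qbar).comp (algebraMap (NumberField.RingOfIntegers K) K)) x ∈ Zbar.toSubring := by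
    intro x
    have h1 : IsIntegral ℤ (x : K) := NumberField.RingOfIntegers.isIntegral_coe x
    exact h1.map (IsScalarTower.toAlgHom ℤ K Qbar)
  let f : NumberField.RingOfIntegers K →+* Zbar :=
    RingHom.codRestrict ((algebraMap K Qbar).comp (algebraMap (NumberField.RingOfIntegers K) K))
      Zbar.toSubring hint
  have hf : ∀ x : NumberField.RingOfIntegers K, ((f x : Zbar) : Qbar) = ((x : K) : Qbar) :=
    fun x => rfl
  have hPprime : (Q.comap f).IsPrime := Ideal.comap_isPrime f Q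
  have hqP : ((q : ℕ) : NumberField.RingOfIntegers K) ∈ Q.comap f := by
    rw [Ideal.mem_comap, map_natCast]
    exact hqQ
  obtain ⟨τ, hτ1, hτ⟩ := h (Q.comap f) hPprime hqP
  haveI : Normal ℚ Qbar := IsAlgClosure.normal ℚ Qbar
  refine ⟨τ.liftNormal Qbar, ?_, fun b hb => ?_⟩
  · by_contra hcon
    push Not at hcon
    apply hτ1
    ext x
    have h1 := hcon (x : Qbar) x.2
    have h2 := AlgEquiv.liftNormal_commutes τ Qbar x
    rw [show (algebraMap K Qbar) x = (x : Qbar) from rfl] at h2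
    rw [h2] at h1
    exact h1
  · have hbint : IsIntegral ℤ (⟨(b : Qbar), hb⟩ : K) := by
      have h1 : IsIntegral ℤ ((algebraMap K Qbar) (⟨(b : Qbar), hb⟩ : K)) := b.2
      exact (isIntegral_algebraMap_iff (algebraMap K Qbar).injective).mp h1
    obtain ⟨x, hx⟩ : ∃ x : NumberField.RingOfIntegers K, (x : K) = ⟨(b : Qbar), hb⟩ :=
      ⟨IsIntegralClosure.mk' (NumberField.RingOfIntegers K) _ hbint,
        IsIntegralClosure.algebraMap_mk' _ _ _⟩
    obtain ⟨y, hyP, hy⟩ := hτ x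
    rw [Ideal.mem_comap] at hyP
    have e : (τ.liftNormal Qbar : GQ) • b - b = f y := by
      apply Subtype.ext
      rw [hf]
      have h2 := AlgEquiv.liftNormal_commutes τ Qbar (⟨(b : Qbar), hb⟩ : K)
      have h3 : ((τ (x : K) - (x : K) : K) : Qbar) = (((y : K)) : Qbar) :=
        congrArg (fun z : K => (z : Qbar)) hy
      show (τ.liftNormal Qbar) (b : Qbar) - (b : Qbar) = _
      rw [show (algebraMap K Qbar) (⟨(b : Qbar), hb⟩ : K) = (b : Qbar) from rfl] at h2
      rw [h2, ← h3, hx]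
      rfl
    rw [e]
    exact hyP

end Fermat.Agent.S13
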