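import Mathlib
import Fermat.Prelude.Def_FLTPrelim_Ramification
import Fermat.Agent.Lib.FrobeniusExists

set_option autoImplicit false
set_option linter.style.haveILetI false

/-!
# S13 / M4: lifting inertia elements to the absolute Galois group

* `mem_inertiaSubgroupIn_of_integral`: an automorphism `σ` of `Qbar` with `σ b - b ∈ 𝔪_A` for all
  algebraic integers `b` lies in `A.inertiaSubgroupIn ℚ`.
* `exists_inertia_lift`: relative lifting along `Gal(Qbar/F)`.
-/

open scoped Pointwise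

namespace Fermat.Agent.S13

open Fermat.Agent.FrobLib

local notation "Qbar" => AlgebraicClosure ℚ
local notation "GalQ" => (AlgebraicClosure ℚ ≃ₐ[ℚ] AlgebraicClosure ℚ)

section nonunits

variable {L : Type*} [Field L] (A : ValuationSubring L)

theorem add_mem_nonunits {x y : L} (hx : x ∈ A.nonunits) (hy : y ∈ A.nonunits) :
    x + y ∈ A.nonunits := by
  rw [A.mem_nonunits_iff] at hx hy ⊢
  exact lt_of_le_of_lt (A.valuation.map_add x y) (max_lt hx hy)

theorem neg_mem_nonunits {x : L} (hx : x ∈ A.nonunits) : -x ∈ A.nonunits := by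
  rw [A.mem_nonunits_iff] at hx ⊢
  rwa [Valuation.map_neg]

theorem sub_mem_nonunits {x y : L} (hx : x ∈ A.nonunits) (hy : y ∈ A.nonunits) :
    x - y ∈ A.nonunits := by
  rw [sub_eq_add_neg]
  exact add_mem_nonunits A hx (neg_mem_nonunits A hy)

end nonunits

/-- an automorphism which is trivial on algebraic integers modulo the maximal ideal of `A`
maps `A` into `A` and is trivial on `A` modulo the maximal ideal -/
theorem map_sub_mem_nonunits_of_integral (A : ValuationSubring Qbar) {q : ℕ} (hq : q.Prime)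
    (hA : A.LiesOverPrime q) (σ : GalQ)
    (hσ : ∀ b : Qbar, IsIntegral ℤ b → σ b - b ∈ A.nonunits) {x : Qbar} (hx : x ∈ A) :
    σ x ∈ A ∧ σ x - x ∈ A.nonunits := by
  have h1 : ∀ b : Qbar, IsIntegral ℤ b → b ∉ A.nonunits → σ b ∉ A.nonunits := by
    intro b hb hbn h
    apply hbn
    have := sub_mem_nonunits A h (hσ b hb)
    simpa using this
  obtain ⟨y, hy, hyx, hyn⟩ := exists_integral_fraction A hq hA hx (isAlgebraic_int_Qbar x)
  have hσx : σ x ∈ A := map_mem_of_partB A hq hA σ h1 hx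
  refine ⟨hσx, ?_⟩
  have hσy : σ y ∉ A.nonunits := h1 y hy hyn
  obtain ⟨h0, hinv⟩ := inv_mem_of_not_mem_nonunits A hσy
  have hm1 := hσ (y * x) hyx
  have hm2 := hσ y hy
  have hkey : σ x - x = (σ y)⁻¹ * ((σ (y * x) - y * x) - x * (σ y - y)) := by
    rw [map_mul]
    field_simp
    ring
  rw [hkey]
  apply mul_mem_nonunits_of_mem A hinv
  exact sub_mem_nonunits A hm1 (mul_mem_nonunits_of_mem A hx hm2)

/-- **bridge**: an automorphism which is trivial on algebraic integers modulo the maximal ideal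
of `A` belongs to the inertia subgroup of `A`. -/
theorem mem_inertiaSubgroupIn_of_integral (A : ValuationSubring Qbar) {q : ℕ} (hq : q.Prime)
    (hA : A.LiesOverPrime q) (σ : GalQ)
    (hσ : ∀ b : Qbar, IsIntegral ℤ b → σ b - b ∈ A.nonunits) :
    σ ∈ A.inertiaSubgroupIn ℚ := by
  have hσ' : ∀ b : Qbar, IsIntegral ℤ b → σ⁻¹ b - b ∈ A.nonunits := by
    intro b hb
    have h := hσ (σ⁻¹ b) (isIntegral_map_GQ σ⁻¹ hb)
    have e : σ (σ⁻¹ b) = b := σ.apply_symm_apply b
    rw [e] at h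
    have := neg_mem_nonunits A h
    simpa using this
  have hmem : σ ∈ A.decompositionSubgroup ℚ := by
    rw [MulAction.mem_stabilizer_iff]
    apply le_antisymm
    · intro z hz
      rw [ValuationSubring.mem_pointwise_smul_iff_inv_smul_mem] at hz
      have := (map_sub_mem_nonunits_of_integral A hq hA σ hσ hz).1
      simpa using this
    · intro z hz
      rw [ValuationSubring.mem_pointwise_smul_iff_inv_smul_mem]
      exact (map_sub_mem_nonunits_of_integral A hq hA σ⁻¹ hσ' hz).1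
  refine ⟨⟨σ, hmem⟩, ?_, rfl⟩
  show (⟨σ, hmem⟩ : A.decompositionSubgroup ℚ) ∈ A.inertiaSubgroup ℚ
  rw [ValuationSubring.inertiaSubgroup, MonoidHom.mem_ker]
  ext xbar
  obtain ⟨x, rfl⟩ := IsLocalRing.residue_surjective xbar
  show (⟨σ, hmem⟩ : A.decompositionSubgroup ℚ) • (IsLocalRing.residue A x) = IsLocalRing.residue A x
  rw [← IsLocalRing.ResidueField.residue_smul, ← sub_eq_zero, ← map_sub,
    IsLocalRing.residue_eq_zero_iff, ← A.coe_mem_nonunits_iff]
  exact (map_sub_mem_nonunits_of_integral A hq hA σ hσ x.2).2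

section relative

variable (F : IntermediateField ℚ Qbar)

theorem isGalois_Qbar_over : IsGalois F Qbar := by
  haveI := isAlgClosure_Qbar
  haveI : IsGalois ℚ Qbar := IsAlgClosure.isGalois ℚ Qbar
  exact IsGalois.tower_top_intermediateField F

/-- an element of `Qbar` fixed by `Gal(Qbar/F)` lies in `F` -/
theorem mem_of_fixed_relative {x : Qbar} (hx : ∀ g : Qbar ≃ₐ[F] Qbar, g x = x) : x ∈ F := by
  haveI := isGalois_Qbar_over F
  have h1 : x ∈ (⊥ : IntermediateField F Qbar) := by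
    rw [InfiniteGalois.mem_bot_iff_fixed]
    exact hx
  rw [IntermediateField.mem_bot] at h1
  obtain ⟨y, hy⟩ := h1
  rw [← hy]
  exact y.2

theorem fixed_of_mem_relative {x : Qbar} (hx : x ∈ F) (g : Qbar ≃ₐ[F] Qbar) : g x = x :=
  g.commutes ⟨x, hx⟩

theorem continuousSMul_relative :
    letI : TopologicalSpace Zbar := ⊥
    ContinuousSMul (Qbar ≃ₐ[F] Qbar) Zbar := by
  letI : TopologicalSpace Zbar := ⊥
  haveI : DiscreteTopology Zbar := ⟨rfl⟩
  haveI := isGalois_Qbar_over F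
  rw [continuousSMul_iff_stabilizer_isOpen]
  intro x
  have h := stabilizer_isOpen_of_isIntegral (K := F) (L := Qbar) (x : Qbar)
  convert h using 1
  ext g
  simp only [SetLike.mem_coe, MulAction.mem_stabilizer_iff]
  constructor
  · intro hg
    have := congrArg (fun x : Zbar => (x : Qbar)) hg
    simpa using this
  · intro hg
    exact Subtype.ext (by simpa using hg)

theorem isInvariant_relative :
    Algebra.IsInvariant (FixedPoints.subalgebra ℤ Zbar (Qbar ≃ₐ[F] Qbar)) Zbar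
      (Qbar ≃ₐ[F] Qbar) :=
  ⟨fun b hb => ⟨⟨b, hb⟩, rfl⟩⟩

theorem restrictScalars_smul_Zbar (g : Qbar ≃ₐ[F] Qbar) (b : Zbar) :
    (g.restrictScalars ℚ : GalQ) • b = g • b := by
  apply Subtype.ext
  rfl

theorem restrictScalars_smul_ideal (g : Qbar ≃ₐ[F] Qbar) (I : Ideal Zbar) :
    (g.restrictScalars ℚ : GalQ) • I = g • I := by
  ext b
  rw [Ideal.mem_pointwise_smul_iff_inv_smul_mem, Ideal.mem_pointwise_smul_iff_inv_smul_mem]
  have : ((g.restrictScalars ℚ : GalQ))⁻¹ • b = g⁻¹ • b := by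
    apply Subtype.ext
    rfl
  rw [this]

/-- **relative lifting**: if `σ₀` is trivial modulo `Q` on the algebraic integers of `F`, then
some `h σ₀`, `h ∈ Gal(Qbar/F)`, is trivial modulo `Q` on all algebraic integers. -/
theorem exists_relative_inertia_lift (Q : Ideal Zbar) (hQ : Q.IsPrime) (σ₀ : GalQ)
    (hF : ∀ x : Qbar, x ∈ F → σ₀⁻¹ x ∈ F) (hF' : ∀ x : Qbar, x ∈ F → σ₀ x ∈ F)
    (h₀ : ∀ b : Zbar, (b : Qbar) ∈ F → σ₀ • b - b ∈ Q) :
    ∃ h : Qbar ≃ₐ[F] Qbar, ∀ b : Zbar, ((h.restrictScalars ℚ : GalQ) * σ₀) • b - b ∈ Q := by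
  classical
  letI : TopologicalSpace Zbar := ⊥
  haveI : DiscreteTopology Zbar := ⟨rfl⟩
  haveI := isGalois_Qbar_over F
  haveI : ContinuousSMul (Qbar ≃ₐ[F] Qbar) Zbar := continuousSMul_relative F
  haveI := isInvariant_relative F
  set A' := FixedPoints.subalgebra ℤ Zbar (Qbar ≃ₐ[F] Qbar) with hA'
  have hmemA' : ∀ b : Zbar, b ∈ A' ↔ (b : Qbar) ∈ F := by
    intro b
    constructor
    · intro hb
      apply mem_of_fixed_relative F
      intro g
      have := congrArg (fun x : Zbar => (x : Qbar)) (hb g)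
      simpa using this
    · intro hb g
      apply Subtype.ext
      exact fixed_of_mem_relative F hb g
  -- step 1-2: `σ₀ • Q` and `Q` lie over the same prime of `A'`
  set Q₀ : Ideal Zbar := σ₀ • Q with hQ₀
  haveI hQ₀prime : Q₀.IsPrime := by
    rw [hQ₀]
    exact Ideal.IsPrime.smul σ₀
  have hunder : Q₀.under A' = Q.under A' := by
    ext a
    rw [Ideal.under_def, Ideal.under_def, Ideal.mem_comap, Ideal.mem_comap, hQ₀,
      Ideal.mem_pointwise_smul_iff_inv_smul_mem]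
    have haF : ((a : Zbar) : Qbar) ∈ F := (hmemA' a).mp a.2
    have hb : ((σ₀⁻¹ • (a : Zbar) : Zbar) : Qbar) ∈ F := by
      have := hF _ haF
      simpa using this
    have h1 := h₀ (σ₀⁻¹ • (a : Zbar)) hb
    rw [smul_inv_smul] at h1
    constructor
    · intro h
      have := Q.add_mem h1 h
      simpa using this
    · intro h
      have := Q.sub_mem h h1
      simpa using this
  -- step 3: move `σ₀ • Q` back to `Q` by an element of `Gal(Qbar/F)`
  obtain ⟨g, hg⟩ := Algebra.IsInvariant.exists_smul_of_under_eq_of_profinite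
    (A := A') (G := Qbar ≃ₐ[F] Qbar) Q₀ Q hunder
  set σ₁ : GalQ := (g.restrictScalars ℚ : GalQ) * σ₀ with hσ₁
  have hσ₁Q : σ₁ • Q = Q := by
    rw [hσ₁, mul_smul, restrictScalars_smul_ideal, ← hQ₀, ← hg]
  -- `σ₁` is still trivial on `A'` modulo `Q`
  have hσ₁A : ∀ a : Zbar, a ∈ A' → σ₁ • a - a ∈ Q := by
    intro a ha
    have haF : (a : Qbar) ∈ F := (hmemA' a).mp ha
    have h1 : σ₁ • a = σ₀ • a := by
      rw [hσ₁, mul_smul, restrictScalars_smul_Zbar]
      apply Subtype.ext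
      have : ((σ₀ • a : Zbar) : Qbar) ∈ F := by
        have := hF' _ haF
        simpa using this
      exact fixed_of_mem_relative F this g
    rw [h1]
    exact h₀ a haF
  -- step 4: the automorphism of `Zbar ⧸ Q` induced by `σ₁`, as an `A' ⧸ P'`-algebra map
  set P' : Ideal A' := Q.under A' with hP'
  haveI : Q.LiesOver P' := ⟨rfl⟩
  let φr : (Zbar ⧸ Q) ≃+* (Zbar ⧸ Q) :=
    Ideal.quotientEquiv Q Q (MulSemiringAction.toRingEquiv GalQ Zbar σ₁) hσ₁Q.symm
  have hφr : ∀ b : Zbar, φr (Ideal.Quotient.mk Q b) = Ideal.Quotient.mk Q (σ₁ • b) :=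
    fun b => rfl
  let φ : (Zbar ⧸ Q) ≃ₐ[A' ⧸ P'] (Zbar ⧸ Q) :=
    AlgEquiv.ofRingEquiv (f := φr) (by
      intro x
      obtain ⟨a, rfl⟩ := Ideal.Quotient.mk_surjective x
      rw [Ideal.Quotient.algebraMap_mk_of_liesOver, hφr, Ideal.Quotient.eq]
      exact hσ₁A _ a.2)
  -- step 5: realise it by an element of the stabiliser in `Gal(Qbar/F)`
  obtain ⟨h₂, hh₂⟩ := Ideal.Quotient.stabilizerHom_surjective_of_profinite
    (G := Qbar ≃ₐ[F] Qbar) P' Q φ
  have hkey : ∀ b : Zbar, σ₁ • b - (h₂ : Qbar ≃ₐ[F] Qbar) • b ∈ Q := by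
    intro b
    have h1 := DFunLike.congr_fun hh₂ (Ideal.Quotient.mk Q b)
    rw [Ideal.Quotient.stabilizerHom_apply] at h1
    have h2 : φ (Ideal.Quotient.mk Q b) = Ideal.Quotient.mk Q (σ₁ • b) := hφr b
    rw [h2] at h1
    rw [← Ideal.Quotient.eq]
    exact h1.symm
  have hh₂Q : (h₂ : Qbar ≃ₐ[F] Qbar)⁻¹ • Q = Q := by
    have := h₂.2
    rw [MulAction.mem_stabilizer_iff] at this
    rw [inv_smul_eq_iff, this]
  refine ⟨(h₂ : Qbar ≃ₐ[F] Qbar)⁻¹ * g, fun b => ?_⟩
  have e1 : (((((h₂ : Qbar ≃ₐ[F] Qbar)⁻¹ * g).restrictScalars ℚ : GalQ)) * σ₀) • b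
      = (h₂ : Qbar ≃ₐ[F] Qbar)⁻¹ • (σ₁ • b) := by
    apply Subtype.ext
    rfl
  rw [e1]
  have e2 : (h₂ : Qbar ≃ₐ[F] Qbar)⁻¹ • (σ₁ • b) - b
      = (h₂ : Qbar ≃ₐ[F] Qbar)⁻¹ • (σ₁ • b - (h₂ : Qbar ≃ₐ[F] Qbar) • b) := by
    rw [smul_sub, inv_smul_smul]
  rw [e2]
  have := Ideal.smul_mem_pointwise_smul ((h₂ : Qbar ≃ₐ[F] Qbar)⁻¹) _ Q (hkey b)
  rwa [hh₂Q] at this

end relative


/-- the prime of `Zbar` below a valuation subring -/
theorem exists_prime_Zbar (A : ValuationSubring Qbar) :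
    ∃ Q : Ideal Zbar, Q.IsPrime ∧ ∀ b : Zbar, b ∈ Q ↔ (b : Qbar) ∈ A.nonunits := by
  have hle : Zbar.toSubring ≤ A.toSubring := fun b hb =>
    mem_valuationSubring_of_isIntegral A hb
  let f : Zbar →+* A := Subring.inclusion hle
  refine ⟨Ideal.comap f (IsLocalRing.maximalIdeal A), Ideal.comap_isPrime f _, fun b => ?_⟩
  rw [ValuationSubring.mem_nonunits_iff_exists_mem_maximalIdeal]
  constructor
  · intro h
    exact ⟨hle b.2, h⟩
  · rintro ⟨_, h⟩
    exact h

/-- **LIFT**: an automorphism `σ₀` of `Qbar` which preserves `F` and is trivial modulo `𝔪_A` on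
the algebraic integers of `F` agrees on `F` with an element of the inertia subgroup of `A`. -/
theorem exists_inertia_lift (F : IntermediateField ℚ Qbar) (A : ValuationSubring Qbar) {q : ℕ}
    (hq : q.Prime) (hA : A.LiesOverPrime q) (σ₀ : GalQ)
    (hF : ∀ x : Qbar, x ∈ F → σ₀⁻¹ x ∈ F) (hF' : ∀ x : Qbar, x ∈ F → σ₀ x ∈ F)
    (h₀ : ∀ b : Qbar, IsIntegral ℤ b → b ∈ F → σ₀ b - b ∈ A.nonunits) :
    ∃ σ : GalQ, σ ∈ A.inertiaSubgroupIn ℚ ∧ ∀ x : Qbar, x ∈ F → σ x = σ₀ x := by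
  obtain ⟨Q, hQ, hmemQ⟩ := exists_prime_Zbar A
  obtain ⟨h, hh⟩ := exists_relative_inertia_lift F Q hQ σ₀ hF hF' (by
    intro b hb
    rw [hmemQ]
    have := h₀ (b : Qbar) b.2 hb
    simpa using this)
  refine ⟨(h.restrictScalars ℚ : GalQ) * σ₀, ?_, fun x hx => ?_⟩
  · apply mem_inertiaSubgroupIn_of_integral A hq hA
    intro b hb
    have := (hmemQ _).mp (hh ⟨b, hb⟩)
    simpa using this
  · show h (σ₀ x) = σ₀ x
    exact fixed_of_mem_relative F (hF' x hx) h

end Fermat.Agent.S13
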