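import Mathlib
import Fermat.Prelude.Def_FLTPrelim_Ramification
import Fermat.Agent.Lib.FrobeniusExists
import Fermat.Agent.S13.InertiaLift
import Fermat.Agent.S13.InertiaFinite

/-!
# S13, piece M4 (E): the Minkowski bridge

A normal subgroup `H` of the absolute Galois group of `ℚ` which contains the pointwise stabiliser
of a finite set and all inertia subgroups (at all places of `AlgebraicClosure ℚ` over all primes)
is the whole group.

Proof: `H` is open, so closed, and its fixed field `K` is a finite Galois extension of `ℚ` with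
`Gal(Qbar/K) = H`.  If `K ≠ ℚ`, Minkowski's theorem (Mathlib) gives a prime `q` ramified in `K`:
at every prime `Q` of the ring of all algebraic integers over `q` some `s ∈ G_ℚ` acts non-trivially
on `K` and trivially modulo `Q` on the integers of `K` (`exists_inertia_ne_one`, helper1).  The
lifting lemma (`exists_inertia_lift`, helper1) gives `σ` in the inertia group of a place over `q`
with the same restriction to `K`; then `σ ∈ H` fixes `K` pointwise: contradiction.
-/

set_option autoImplicit false
set_option linter.style.haveILetI false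

open scoped Pointwise

namespace Fermat.Agent.S13

open Fermat.Agent.FrobLib

local notation "Qbar" => AlgebraicClosure ℚ
local notation "GQ" => (AlgebraicClosure ℚ ≃ₐ[ℚ] AlgebraicClosure ℚ)

/-- **(E)** a normal subgroup of `G_ℚ` that contains the stabiliser of a finite set and all inertia
subgroups is everything (Minkowski). -/
theorem eq_top_of_inertia_le (H : Subgroup GQ) (hH : H.Normal) (S : Finset Qbar)
    (hS : ∀ σ : GQ, (∀ s ∈ S, σ s = s) → σ ∈ H)
    (hI : ∀ q : ℕ, q.Prime → ∀ A : ValuationSubring Qbar, A.LiesOverPrime q →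
      A.inertiaSubgroupIn ℚ ≤ H) : H = ⊤ := by
  classical
  haveI : Algebra.IsAlgebraic ℚ Qbar := AlgebraicClosure.isAlgebraic ℚ
  haveI : IsAlgClosure ℚ Qbar := ⟨inferInstance, inferInstance⟩
  haveI : IsGalois ℚ Qbar := IsAlgClosure.isGalois ℚ Qbar
  -- the field generated by `S`
  set F : IntermediateField ℚ Qbar := IntermediateField.adjoin ℚ (S : Set Qbar) with hF
  haveI hFfin : FiniteDimensional ℚ F :=
    IntermediateField.finiteDimensional_adjoin
      (fun x _ => (Algebra.IsAlgebraic.isAlgebraic x).isIntegral)
  have hFH : F.fixingSubgroup ≤ H := by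
    intro σ hσ
    refine hS σ (fun s hs => ?_)
    rw [IntermediateField.mem_fixingSubgroup_iff] at hσ
    exact hσ s (IntermediateField.subset_adjoin ℚ _ hs)
  have hHopen : IsOpen (H : Set GQ) := Subgroup.isOpen_mono hFH F.fixingSubgroup_isOpen
  have hHclosed : IsClosed (H : Set GQ) := Subgroup.isClosed_of_isOpen H hHopen
  -- the fixed field of `H`
  set K : IntermediateField ℚ Qbar := IntermediateField.fixedField H with hK
  have hKH : K.fixingSubgroup = H :=
    InfiniteGalois.fixingSubgroup_fixedField ⟨H, hHclosed⟩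
  have hKF : K ≤ F := by
    rw [← InfiniteGalois.fixedField_fixingSubgroup F]
    intro x hx
    rw [IntermediateField.mem_fixedField_iff] at hx ⊢
    exact fun σ hσ => hx σ (hFH hσ)
  haveI hKfin' : @FiniteDimensional ℚ K _ _ (K.algebra'.toModule) := by
    haveI : FiniteDimensional ℚ F := hFfin
    exact FiniteDimensional.of_injective (IntermediateField.inclusion hKF).toLinearMap
      (IntermediateField.inclusion hKF).injective
  haveI hKfin : FiniteDimensional ℚ K := by
    convert hKfin'
  have hKgal' : @IsGalois ℚ _ K _ K.algebra' := (InfiniteGalois.normal_iff_isGalois K).mp (hKH ▸ hH)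
  haveI hKgal : IsGalois ℚ K := by
    convert hKgal'
    exact Subsingleton.elim _ _
  haveI hKnormal : @Normal ℚ K _ _ K.algebra' := hKgal'.to_normal
  by_contra hne
  have hKbot : K ≠ ⊥ := by
    intro h
    apply hne
    rw [← hKH, h]
    exact IntermediateField.fixingSubgroup_bot
  have hrank : 1 < Module.finrank ℚ K := by
    have hpos : 0 < Module.finrank ℚ K := Module.finrank_pos
    have h1 : Module.finrank ℚ K ≠ 1 := by
      intro h
      apply hKbot
      have h' : @Module.finrank ℚ K _ _ (K.algebra'.toModule) = 1 := by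
        convert h
      exact IntermediateField.finrank_eq_one_iff.mp h'
    omega
  obtain ⟨q, hq, hqQ⟩ := exists_inertia_ne_one K hrank
  obtain ⟨A, hA⟩ := exists_liesOverPrime q hq
  obtain ⟨Q, hQprime, hQ⟩ := exists_prime_Zbar A
  have hqmem : (q : Zbar) ∈ Q := by
    rw [hQ]
    have h0 : ((q : Zbar) : Qbar) = (q : Qbar) := by simp
    rw [h0]
    exact hA
  obtain ⟨s, ⟨x, hxK, hsx⟩, hs⟩ := hqQ Q hQprime hqmem
  -- `K` is stable under `G_ℚ`
  have hstable : ∀ (τ : GQ) (y : Qbar), y ∈ K → τ y ∈ K := by
    intro τ y hy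
    rw [hK, IntermediateField.mem_fixedField_iff] at hy ⊢
    intro h hh
    have h1 : τ⁻¹ * h * τ ∈ H := by
      have := hH.conj_mem h hh τ⁻¹
      simpa using this
    have h2 := hy _ h1
    have h3 : (τ⁻¹ * h * τ) y = τ⁻¹ (h (τ y)) := rfl
    rw [h3] at h2
    have h4 := congrArg τ h2
    have h5 : τ (τ⁻¹ (h (τ y))) = h (τ y) := τ.apply_symm_apply _
    rw [h5] at h4
    exact h4
  obtain ⟨σ, hσI, hσK⟩ := exists_inertia_lift K A hq hA s (fun y hy => hstable s⁻¹ y hy)
    (fun y hy => hstable s y hy) (fun b hb hbK => by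
      have h1 := hs ⟨b, hb⟩ hbK
      rw [hQ] at h1
      simpa using h1)
  have hσH : σ ∈ H := hI q hq A hA hσI
  apply hsx
  rw [← hσK x hxK]
  rw [hK, IntermediateField.mem_fixedField_iff] at hxK
  exact hxK σ hσH

end Fermat.Agent.S13
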