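import Mathlib
import Fermat.Prelude.Def_FLTPrelim_Ramification
import Fermat.Agent.S05.Defs
import Fermat.Agent.S05.FreyData
import Fermat.Agent.S05.Reduction
import Fermat.Agent.S05.ReductionNode
import Fermat.Agent.S05.Formal
import Fermat.Agent.S05.FoldAbs
import Fermat.Agent.S05.Inertia
import Fermat.Agent.S05.Core
import Fermat.Agent.S51.TorsionLib
import Fermat.Agent.Lib.FrobeniusExists

/-!
# S13, M3c: the Frey curve has no rational point of order `p`

Reduction modulo `2` (the reduced curve `y² + xy = x³ + a₂ x²` has at most two nonsingular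
affine points over `𝔽₂`, so one of `T, 2T, 3T` reduces to the node) and the folding lemma at
`2` (`c(T)^p = v(a₄)^(2k)`, but `v(a₄) = v(2)^(p t - 4)` and `c(T)` is a power of `v(2)` for a
rational point).  The folding lemma at `2` (M3a, `fold_curve_gen`) is a hypothesis here
(`NrtFold`); its hypotheses for the Frey curve are `nrt_fold_hyps`.
-/

set_option autoImplicit false

open WeierstrassCurve

namespace Fermat.Agent.S13

open Fermat.Agent.S05

section valrat

variable {K : Type*} [Field K] [CharZero K] {Γ₀ : Type*} [LinearOrderedCommGroupWithZero Γ₀]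
  (v : Valuation K Γ₀)

omit [CharZero K] in
/-- an integer is even or a unit at a place over `2` -/
theorem nrt_int_cases (hv2 : v (2 : K) < 1) (n : ℤ) :
    (v (n : K) < 1 ∧ (2 : ℤ) ∣ n) ∨ (v (n : K) = 1 ∧ ¬ (2 : ℤ) ∣ n) := by
  have hv2' : v ((2 : ℕ) : K) < 1 := by simpa using hv2
  by_cases h : (2 : ℤ) ∣ n
  · exact Or.inl ⟨frey_val_int_lt v hv2' (by simpa using h), h⟩
  · exact Or.inr ⟨frey_val_int_eq v Nat.prime_two hv2' (by simpa using h), h⟩

/-- a rational number which is integral at a place over `2` has odd denominator -/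
theorem nrt_den_odd (hv2 : v (2 : K) < 1) (r : ℚ) (hr : v (r : K) ≤ 1) :
    v ((r.den : ℤ) : K) = 1 := by
  rcases nrt_int_cases v hv2 (r.den : ℤ) with ⟨h1, h2⟩ | ⟨h1, -⟩
  · exfalso
    have hn : ¬ (2 : ℤ) ∣ r.num := by
      intro h3
      have hcop := r.reduced
      have h4 : (2 : ℕ) ∣ r.num.natAbs := by
        have := Int.natAbs_dvd_natAbs.mpr h3
        simpa using this
      have h5 : (2 : ℕ) ∣ r.den := by exact_mod_cast h2
      have := Nat.dvd_gcd h4 h5
      rw [hcop] at this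
      exact absurd this (by norm_num)
    have hvn : v (r.num : K) = 1 := by
      rcases nrt_int_cases v hv2 r.num with ⟨-, h⟩ | ⟨h, -⟩
      · exact absurd h hn
      · exact h
    have hd0 : ((r.den : ℤ) : K) ≠ 0 := by
      have := r.den_ne_zero
      exact_mod_cast this
    have e : (r : K) * ((r.den : ℤ) : K) = (r.num : K) := by
      have := Rat.mul_den_eq_num r
      have h6 : ((r * (r.den : ℚ) : ℚ) : K) = ((r.num : ℚ) : K) := by rw [this]
      push_cast at h6
      push_cast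
      exact h6
    have h7 : v (r : K) * v ((r.den : ℤ) : K) = 1 := by
      rw [← map_mul, e, hvn]
    have h8 : v (r : K) * v ((r.den : ℤ) : K) < 1 := by
      calc v (r : K) * v ((r.den : ℤ) : K) ≤ 1 * v ((r.den : ℤ) : K) :=
            mul_le_mul' hr le_rfl
        _ = v ((r.den : ℤ) : K) := one_mul _
        _ < 1 := h1
    rw [h7] at h8
    exact lt_irrefl _ h8
  · exact h1

/-- the valuation of an integral rational number is the valuation of its numerator -/
theorem nrt_val_eq_num (hv2 : v (2 : K) < 1) (r : ℚ) (hr : v (r : K) ≤ 1) :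
    v (r : K) = v (r.num : K) := by
  have hd := nrt_den_odd v hv2 r hr
  have e : (r : K) * ((r.den : ℤ) : K) = (r.num : K) := by
    have := Rat.mul_den_eq_num r
    have h6 : ((r * (r.den : ℚ) : ℚ) : K) = ((r.num : ℚ) : K) := by rw [this]
    push_cast at h6
    push_cast
    exact h6
  rw [← e, map_mul, hd, mul_one]

/-- the residue field at `2` of the rational numbers has two elements -/
theorem nrt_mod_two (hv2 : v (2 : K) < 1) (r : ℚ) (hr : v (r : K) ≤ 1) :
    v (r : K) < 1 ∨ v ((r : K) - 1) < 1 := by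
  have hd := nrt_den_odd v hv2 r hr
  rcases nrt_int_cases v hv2 r.num with ⟨h1, -⟩ | ⟨h1, h2⟩
  · left
    rw [nrt_val_eq_num v hv2 r hr]
    exact h1
  · right
    have hdo : ¬ (2 : ℤ) ∣ (r.den : ℤ) := by
      rcases nrt_int_cases v hv2 (r.den : ℤ) with ⟨h, -⟩ | ⟨-, h⟩
      · rw [hd] at h
        exact absurd h (lt_irrefl _)
      · exact h
    have h3 : (2 : ℤ) ∣ r.num - (r.den : ℤ) := by
      have := Int.emod_two_eq_zero_or_one r.num
      have := Int.emod_two_eq_zero_or_one (r.den : ℤ)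
      omega
    have h4 : v (((r.num - (r.den : ℤ) : ℤ)) : K) < 1 := by
      rcases nrt_int_cases v hv2 (r.num - (r.den : ℤ)) with ⟨h, -⟩ | ⟨-, h⟩
      · exact h
      · exact absurd h3 h
    have e : ((r : K) - 1) * ((r.den : ℤ) : K) = ((r.num - (r.den : ℤ) : ℤ) : K) := by
      have := Rat.mul_den_eq_num r
      have h6 : ((r * (r.den : ℚ) : ℚ) : K) = ((r.num : ℚ) : K) := by rw [this]
      push_cast at h6
      push_cast
      rw [sub_mul, h6, one_mul]
    have h5 : v ((r : K) - 1) = v ((r : K) - 1) * v ((r.den : ℤ) : K) := by rw [hd, mul_one]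
    rw [h5, ← map_mul, e]
    exact h4

omit [CharZero K] in
/-- the valuation at `2` of a nonzero integer is a power of `v 2` -/
theorem nrt_val_int_pow (hv2 : v (2 : K) < 1) (n : ℤ) (hn : n ≠ 0) :
    ∃ m : ℕ, v (n : K) = v (2 : K) ^ m := by
  obtain ⟨k, m, hm, hkm⟩ := Nat.exists_eq_two_pow_mul_odd (n := n.natAbs) (by simpa using hn)
  refine ⟨k, ?_⟩
  have hv2' : v ((2 : ℕ) : K) < 1 := by simpa using hv2
  have h1 : v ((n.natAbs : ℤ) : K) = v (n : K) := by
    rcases Int.natAbs_eq n with h | h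
    · rw [← h]
    · conv_rhs => rw [h]
      rw [Int.cast_neg, Valuation.map_neg]
  rw [← h1, hkm]
  push_cast
  rw [map_mul, map_pow]
  have h2 : v (m : K) = 1 := by
    refine frey_val_nat_eq v Nat.prime_two hv2' ?_
    intro h3
    exact (Nat.not_even_iff_odd.mpr hm) (even_iff_two_dvd.mpr h3)
  rw [h2, mul_one]

/-- the valuation at `2` of a nonzero rational number in the maximal ideal is a positive power
of `v 2` -/
theorem nrt_val_rat_pow (hv2 : v (2 : K) < 1) (r : ℚ) (hr0 : r ≠ 0) (hr : v (r : K) < 1) :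
    ∃ m : ℕ, 1 ≤ m ∧ v (r : K) = v (2 : K) ^ m := by
  obtain ⟨m, hm⟩ := nrt_val_int_pow v hv2 r.num (Rat.num_ne_zero.mpr hr0)
  rw [← nrt_val_eq_num v hv2 r hr.le] at hm
  refine ⟨m, ?_, hm⟩
  rcases Nat.eq_zero_or_pos m with h | h
  · rw [h, pow_zero] at hm
    rw [hm] at hr
    exact absurd hr (lt_irrefl _)
  · exact h

end valrat

section freytwo

variable (P : FreyPackage)

theorem nrt_two_dvd_b : (2 : ℤ) ∣ P.b :=
  (ZMod.intCast_zmod_eq_zero_iff_dvd P.b 2).1 P.hb2

theorem nrt_a_odd : ¬ (2 : ℤ) ∣ P.a := by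
  intro h
  obtain ⟨k, hk⟩ := h
  have h1 := P.ha4
  rw [hk] at h1
  push_cast at h1
  have h2 : ∀ z : ZMod 4, (2 : ZMod 4) * z ≠ 3 := by decide
  exact h2 _ h1

theorem nrt_four_dvd : (4 : ℤ) ∣ P.b ^ P.p - 1 - P.a ^ P.p := by
  refine (ZMod.intCast_zmod_eq_zero_iff_dvd _ 4).mp ?_
  push_cast
  rw [P.ha4]
  obtain ⟨k, hk⟩ := nrt_two_dvd_b P
  obtain ⟨m, hm⟩ := P.hp_odd
  have h5 := P.hp5
  have hb : ((P.b : ZMod 4)) ^ P.p = 0 := by
    have h2 : P.p = 2 + (P.p - 2) := by omega
    rw [hk, h2, pow_add]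
    push_cast
    have : ((2 : ZMod 4) * (k : ZMod 4)) ^ 2 = 0 := by
      have h3 : ∀ z : ZMod 4, ((2 : ZMod 4) * z) ^ 2 = 0 := by decide
      exact h3 _
    rw [this, zero_mul]
  have ha : (3 : ZMod 4) ^ P.p = 3 := by
    rw [hm, pow_succ, pow_mul]
    have : (3 : ZMod 4) ^ 2 = 1 := by decide
    rw [this, one_pow, one_mul]
  rw [hb, ha]
  decide

variable {K : Type*} [Field K] {Γ₀ : Type*} [LinearOrderedCommGroupWithZero Γ₀]
  (v : Valuation K Γ₀)

/-- the valuation of `a₄` of the Frey curve at a place over `2` -/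
theorem nrt_val_a4 [CharZero K] [Algebra ℚ K] (hv2 : v (2 : K) < 1) :
    ∃ E : ℕ, 1 ≤ E ∧ ¬ P.p ∣ E ∧ v ((P.freyCurve.baseChange K).a₄) = v (2 : K) ^ E := by
  have hv2' : v ((2 : ℕ) : K) < 1 := by simpa using hv2
  have hv20 : v (2 : K) ≠ 0 := (v.ne_zero_iff).mpr two_ne_zero
  obtain ⟨t, m, hm, htm⟩ := Nat.exists_eq_two_pow_mul_odd (n := P.b.natAbs)
    (by simpa using P.hb0)
  have ht : 1 ≤ t := by
    rcases Nat.eq_zero_or_pos t with h | h
    · exfalso
      rw [h, pow_zero, one_mul] at htm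
      have h1 : (2 : ℤ) ∣ (P.b.natAbs : ℤ) := (Int.dvd_natAbs).mpr (nrt_two_dvd_b P)
      rw [htm] at h1
      have h2 : (2 : ℕ) ∣ m := by exact_mod_cast h1
      exact (Nat.not_even_iff_odd.mpr hm) (even_iff_two_dvd.mpr h2)
    · exact h
  have h5 := P.hp5
  have htp : 5 ≤ t * P.p := by nlinarith
  refine ⟨t * P.p - 4, by omega, ?_, ?_⟩
  · intro h
    have h1 : P.p ∣ t * P.p := dvd_mul_left _ _
    have h2 : P.p ∣ 4 := by
      have := (Nat.dvd_sub h1 h)
      rwa [Nat.sub_sub_self (by omega)] at this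
    have := Nat.le_of_dvd (by norm_num) h2
    omega
  · have hvb : v ((P.b : K)) = v (2 : K) ^ t := by
      have h1 : v ((P.b.natAbs : ℤ) : K) = v (P.b : K) := by
        rcases Int.natAbs_eq P.b with h | h
        · rw [← h]
        · conv_rhs => rw [h]
          rw [Int.cast_neg, Valuation.map_neg]
      rw [← h1, htm]
      push_cast
      rw [map_mul, map_pow]
      have h2 : v (m : K) = 1 := by
        refine frey_val_nat_eq v Nat.prime_two hv2' ?_
        intro h3
        exact (Nat.not_even_iff_odd.mpr hm) (even_iff_two_dvd.mpr h3)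
      rw [h2, mul_one]
    have hva : v ((P.a : K)) = 1 :=
      frey_val_int_eq v Nat.prime_two hv2' (by simpa using nrt_a_odd P)
    have e : (P.freyCurve.baseChange K).a₄ = -((P.a : K) ^ P.p * (P.b : K) ^ P.p) / 2 ^ 4 := by
      simp only [WeierstrassCurve.baseChange, WeierstrassCurve.map_a₄, FreyPackage.freyCurve,
        eq_ratCast]
      push_cast
      ring
    rw [e, map_div₀, Valuation.map_neg, map_mul, map_pow, map_pow, map_pow, hva, hvb, one_pow,
      one_mul, ← pow_mul]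
    rw [div_eq_iff (pow_ne_zero _ hv20), ← pow_add]
    congr 1
    omega

/-- the Frey curve is integral at `2` -/
theorem nrt_isIntegralW [CharZero K] [Algebra ℚ K] (hv2 : v (2 : K) < 1) :
    IsIntegralW v (P.freyCurve.baseChange K) := by
  refine ⟨?_, ?_, ?_, ?_, ?_⟩
  · simp [WeierstrassCurve.baseChange, FreyPackage.freyCurve]
  · obtain ⟨k, hk⟩ := nrt_four_dvd P
    have : (P.freyCurve.baseChange K).a₂ = (k : K) := by
      simp only [WeierstrassCurve.baseChange, WeierstrassCurve.map_a₂, FreyPackage.freyCurve,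
        eq_ratCast]
      have h1 : ((P.b : ℚ) ^ P.p - 1 - (P.a : ℚ) ^ P.p) = 4 * (k : ℚ) := by exact_mod_cast hk
      rw [h1]
      push_cast
      field_simp
    rw [this]
    exact frey_val_int_le v k
  · simp [WeierstrassCurve.baseChange, FreyPackage.freyCurve]
  · obtain ⟨E, hE, -, h⟩ := nrt_val_a4 P v hv2
    rw [h]
    exact pow_le_one₀ zero_le hv2.le
  · simp [WeierstrassCurve.baseChange, FreyPackage.freyCurve]

end freytwo

section points

open Fermat.Agent.S05.Core WeierstrassCurve.Affine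

local notation "Qbar" => AlgebraicClosure ℚ

variable (W' : WeierstrassCurve.Affine ℚ)

/-- a point fixed by the Galois group is rational -/
theorem nrt_rational (T : (W'⁄Qbar).Point) (hT : ∀ σ : Qbar ≃ₐ[ℚ] Qbar, σ • T = T) :
    T = 0 ∨ ∃ (r s : ℚ) (h : (W'⁄Qbar).Nonsingular (r : Qbar) (s : Qbar)),
      T = Affine.Point.some (r : Qbar) (s : Qbar) h := by
  rcases T with _ | ⟨x, y, h⟩
  · exact Or.inl rfl
  · right
    have hxy : ∀ σ : Qbar ≃ₐ[ℚ] Qbar, σ x = x ∧ σ y = y := by
      intro σ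
      obtain ⟨h', e⟩ := smul_some' W' σ h
      have := (hT σ).symm.trans e
      rw [Affine.Point.some.injEq] at this
      exact ⟨this.1.symm, this.2.symm⟩
    obtain ⟨r, hr⟩ := Fermat.Agent.S51.exists_rat_of_fixed x (fun σ => (hxy σ).1)
    obtain ⟨s, hs⟩ := Fermat.Agent.S51.exists_rat_of_fixed y (fun σ => (hxy σ).2)
    rw [eq_ratCast] at hr hs
    subst hr hs
    exact ⟨r, s, h, rfl⟩

end points

section main

open Fermat.Agent.S05.Core WeierstrassCurve.Affine

local notation "Qbar" => AlgebraicClosure ℚ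

variable (P : FreyPackage) (A : ValuationSubring Qbar)

theorem nrt_a₁ : (P.freyCurve.baseChange Qbar).a₁ = 1 := by
  simp [WeierstrassCurve.baseChange, FreyPackage.freyCurve]

theorem nrt_a₃ : (P.freyCurve.baseChange Qbar).a₃ = 0 := by
  simp [WeierstrassCurve.baseChange, FreyPackage.freyCurve]

/-- two integral points of the Frey curve with `x ≡ 1` and the same `y` modulo a place over `2`
differ by a point of the kernel of reduction -/
theorem nrt_close (hv2 : A.valuation (2 : Qbar) < 1) {x y x' y' ε : Qbar}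
    (h : (P.freyCurve⁄Qbar).Nonsingular x y) (h' : (P.freyCurve⁄Qbar).Nonsingular x' y')
    (hε : A.valuation ε ≤ 1)
    (hx : A.valuation (x - 1) < 1) (hy : A.valuation (y - ε) < 1)
    (hx' : A.valuation (x' - 1) < 1) (hy' : A.valuation (y' - ε) < 1) :
    InKer A.valuation (P.freyCurve.baseChange Qbar)
      (Affine.Point.some x' y' h' - Affine.Point.some x y h) := by
  set v := A.valuation with hv
  have hW := nrt_isIntegralW P v hv2
  have hx1 : v x = 1 := by
    have : x = 1 + (x - 1) := by ring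
    rw [this, v.map_add_eq_of_lt_left (by rw [map_one]; exact hx), map_one]
  have hy1 : v y ≤ 1 := by
    have : y = (y - ε) + ε := by ring
    rw [this]
    exact v.map_add_le hy.le hε
  refine inKer_sub_of_close v (P.freyCurve.baseChange Qbar) hW h h' hx1.le hy1 (Or.inr ?_) ?_ ?_
  · rw [nrt_a₁, nrt_a₃, add_zero, one_mul]
    have h2y : v (2 * y) < 1 := by
      rw [map_mul]
      calc v 2 * v y ≤ v 2 * 1 := mul_le_mul' le_rfl hy1
        _ = v 2 := mul_one _
        _ < 1 := hv2
    rw [v.map_add_eq_of_lt_right (by rw [hx1]; exact h2y), hx1]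
  · have : x' - x = (x' - 1) - (x - 1) := by ring
    rw [this]
    exact v.map_sub_lt hx' hx
  · have : y' - y = (y' - ε) - (y - ε) := by ring
    rw [this]
    exact v.map_sub_lt hy' hy

/-- the residue class of a rational integral point modulo a place over `2` -/
theorem nrt_class (hv2 : A.valuation (2 : Qbar) < 1) {r s : ℚ}
    (h : (P.freyCurve⁄Qbar).Nonsingular (r : Qbar) (s : Qbar))
    (hr : A.valuation (r : Qbar) ≤ 1) :
    A.valuation (r : Qbar) < 1 ∨
      (A.valuation ((r : Qbar) - 1) < 1 ∧ A.valuation ((s : Qbar) - 0) < 1) ∨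
      (A.valuation ((r : Qbar) - 1) < 1 ∧ A.valuation ((s : Qbar) - 1) < 1) := by
  set v := A.valuation with hv
  have hW := nrt_isIntegralW P v hv2
  have hs : v (s : Qbar) ≤ 1 :=
    val_y_le_one v (P.freyCurve.baseChange Qbar) hW.1 hW.2.1 hW.2.2.1 hW.2.2.2.1
      hW.2.2.2.2 h.1 hr
  rcases nrt_mod_two v hv2 r hr with h1 | h1
  · exact Or.inl h1
  · right
    rcases nrt_mod_two v hv2 s hs with h2 | h2
    · left
      rw [sub_zero]
      exact ⟨h1, h2⟩
    · right
      exact ⟨h1, h2⟩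

/-- the folding lemma at a place over `2` for the Frey curve (the conclusion of
`fold_curve_gen` of M3a, with `γ = -a₄`) -/
def NrtFold : Prop :=
  ∀ Q Q' : (P.freyCurve⁄Qbar).Point,
      (cbarP A.valuation (P.freyCurve.baseChange Qbar) 0 (-(P.freyCurve.baseChange Qbar).a₄)
            (Q + Q') =
          Fp (A.valuation (-(P.freyCurve.baseChange Qbar).a₄))
            (cbarP A.valuation (P.freyCurve.baseChange Qbar) 0
              (-(P.freyCurve.baseChange Qbar).a₄) Q)
            (cbarP A.valuation (P.freyCurve.baseChange Qbar) 0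
              (-(P.freyCurve.baseChange Qbar).a₄) Q') ∧
        cbarP A.valuation (P.freyCurve.baseChange Qbar) 0 (-(P.freyCurve.baseChange Qbar).a₄)
            (Q - Q') =
          Fm (cbarP A.valuation (P.freyCurve.baseChange Qbar) 0
              (-(P.freyCurve.baseChange Qbar).a₄) Q)
            (cbarP A.valuation (P.freyCurve.baseChange Qbar) 0
              (-(P.freyCurve.baseChange Qbar).a₄) Q')) ∨
      (cbarP A.valuation (P.freyCurve.baseChange Qbar) 0 (-(P.freyCurve.baseChange Qbar).a₄)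
            (Q + Q') =
          Fm (cbarP A.valuation (P.freyCurve.baseChange Qbar) 0
              (-(P.freyCurve.baseChange Qbar).a₄) Q)
            (cbarP A.valuation (P.freyCurve.baseChange Qbar) 0
              (-(P.freyCurve.baseChange Qbar).a₄) Q') ∧
        cbarP A.valuation (P.freyCurve.baseChange Qbar) 0 (-(P.freyCurve.baseChange Qbar).a₄)
            (Q - Q') =
          Fp (A.valuation (-(P.freyCurve.baseChange Qbar).a₄))
            (cbarP A.valuation (P.freyCurve.baseChange Qbar) 0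
              (-(P.freyCurve.baseChange Qbar).a₄) Q)
            (cbarP A.valuation (P.freyCurve.baseChange Qbar) 0
              (-(P.freyCurve.baseChange Qbar).a₄) Q'))

/-- realises the equation lemmas of `NrtFold` in this module -/
theorem nrtFold_realised (P : FreyPackage) (A : ValuationSubring Qbar) : True := by
  have := @NrtFold.eq_1 P A
  have := @NrtFold.eq_def P A
  have := @NrtFold.eq_unfold
  trivial

/-- a rational `p`-torsion point of the Frey curve does not reduce to the node at `2` -/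
theorem nrt_node (hv2 : A.valuation (2 : Qbar) < 1) (hXL' : NrtFold P A)
    {r : ℚ} {y : Qbar} (h : (P.freyCurve⁄Qbar).Nonsingular (r : Qbar) y)
    (hT : P.p • (Affine.Point.some (r : Qbar) y h : (P.freyCurve⁄Qbar).Point) = 0)
    (hr : A.valuation (r : Qbar) < 1) : False := by
  have hXL := hXL'
  unfold NrtFold at hXL
  clear hXL'
  set v := A.valuation with hv
  set W := P.freyCurve.baseChange Qbar with hWdef
  set γ : Qbar := -W.a₄ with hγ
  obtain ⟨E, hE1, hEp, hE⟩ := nrt_val_a4 P v hv2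
  have hv20 : v (2 : Qbar) ≠ 0 := (v.ne_zero_iff).mpr two_ne_zero
  have hv2pos : 0 < v (2 : Qbar) := zero_lt_iff.mpr hv20
  have ha : v γ = v (2 : Qbar) ^ E := by rw [hγ, Valuation.map_neg]; exact hE
  have ha1 : v γ < 1 := by rw [ha]; exact pow_lt_one₀ zero_le hv2 (by omega)
  have ha0 : v γ ≠ 0 := by rw [ha]; exact pow_ne_zero _ hv20
  obtain ⟨c, hc⟩ : ∃ c : (P.freyCurve⁄Qbar).Point → A.ValueGroup,
      c = cbarP v W 0 γ := ⟨_, rfl⟩
  rw [← hc] at hXL
  have hc1 : ∀ Q, v γ ≤ c Q := by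
    intro Q
    rw [hc]
    rcases Q with _ | ⟨x', y', h'⟩
    · exact ha1.le
    · exact le_cb v _ ha1.le _
  have hc2 : ∀ Q, c Q ≤ 1 := by
    intro Q
    rw [hc]
    rcases Q with _ | ⟨x', y', h'⟩
    · exact le_rfl
    · exact cb_le_one v _ ha1.le _
  have hc0 : c 0 = 1 := by rw [hc]; rfl
  obtain ⟨k, hk⟩ := fold_abstract ha0 ha1 c hc1 hc2 hc0 hXL hT
  -- the value of `c` is a power of `v 2`
  obtain ⟨m, hm1, hmE, hm⟩ : ∃ m : ℕ, 1 ≤ m ∧ m ≤ E ∧
      c (Affine.Point.some (r : Qbar) y h) = v (2 : Qbar) ^ m := by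
    have h1 : c (Affine.Point.some (r : Qbar) y h) = max (v ((r : Qbar) - 0)) (v γ) := by
      rw [hc]
      exact cb_of_lt v _ (by rw [sub_zero]; exact hr)
    rw [sub_zero] at h1
    by_cases hr0 : r = 0
    · refine ⟨E, hE1, le_rfl, ?_⟩
      rw [h1, hr0, Rat.cast_zero, map_zero, ha]
      exact max_eq_right zero_le
    · obtain ⟨m, hm1, hm⟩ := nrt_val_rat_pow v hv2 r hr0 hr
      rcases le_total m E with hmE | hmE
      · refine ⟨m, hm1, hmE, ?_⟩
        rw [h1, hm, ha]
        exact max_eq_left (pow_le_pow_of_le_one zero_le hv2.le hmE)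
      · refine ⟨E, hE1, le_rfl, ?_⟩
        rw [h1, hm, ha]
        exact max_eq_right (pow_le_pow_of_le_one zero_le hv2.le hmE)
  rw [hm, ha, ← pow_mul, ← pow_mul] at hk
  have hinj : m * P.p = E * (2 * k) :=
    (pow_right_injective₀ hv2pos hv2.ne) hk
  -- arithmetic
  have hpp := P.pp
  have h5 := P.hp5
  have hdvd : P.p ∣ E * (2 * k) := ⟨m, by rw [← hinj]; ring⟩
  have hpk : P.p ∣ k := by
    rcases (Nat.Prime.dvd_mul hpp).mp hdvd with h1 | h1
    · exact absurd h1 hEp
    · rcases (Nat.Prime.dvd_mul hpp).mp h1 with h2 | h2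
      · have := Nat.le_of_dvd (by norm_num) h2
        omega
      · exact h2
  obtain ⟨j, rfl⟩ := hpk
  have hm2 : m = E * (2 * j) := by
    have : m * P.p = (E * (2 * j)) * P.p := by rw [hinj]; ring
    exact Nat.eq_of_mul_eq_mul_right (by omega) this
  rcases Nat.eq_zero_or_pos j with hj | hj
  · rw [hj] at hm2
    omega
  · have : E * 2 ≤ E * (2 * j) := Nat.mul_le_mul_left _ (by omega)
    omega

/-- **M3c, core**: a Galois-fixed `p`-torsion point of the Frey curve is zero, given the folding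
lemma at one place over `2` -/
theorem nrt_core (hA : A.LiesOverPrime 2) (hXL : NrtFold P A)
    (T : (P.freyCurve⁄Qbar).Point) (hT : P.p • T = 0)
    (hfix : ∀ σ : Qbar ≃ₐ[ℚ] Qbar, σ • T = T) : T = 0 := by
  by_contra hT0
  set v := A.valuation with hv
  have hv2 : v (2 : Qbar) < 1 := by
    have := valuation_natCast_lt_one A hA
    simpa using this
  have hpp := P.pp
  have h5 := P.hp5
  have hvp : v (P.p : Qbar) = 1 :=
    valuation_prime_eq_one A Nat.prime_two hpp (by omega) hA
  have hW := nrt_isIntegralW P v hv2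
  -- multiples
  have hne : ∀ k : ℕ, 1 ≤ k → k < P.p → k • T ≠ 0 := by
    intro k hk1 hkp h0
    have h1 : addOrderOf T ∣ P.p := addOrderOf_dvd_of_nsmul_eq_zero hT
    have h2 : addOrderOf T ∣ k := addOrderOf_dvd_of_nsmul_eq_zero h0
    have h3 : addOrderOf T = 1 := by
      rcases (Nat.dvd_prime hpp).mp h1 with h | h
      · exact h
      · rw [h] at h2
        have := Nat.le_of_dvd (by omega) h2
        omega
    exact hT0 (AddMonoid.addOrderOf_eq_one_iff.mp h3)
  have htor : ∀ k : ℕ, P.p • (k • T) = 0 := by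
    intro k
    rw [smul_comm, hT]
    exact nsmul_zero k
  have hnk : ∀ k : ℕ, 1 ≤ k → k < P.p → ¬ InKer v (P.freyCurve.baseChange Qbar) (k • T) :=
    fun k hk1 hkp h => hne k hk1 hkp (inKer_torsion v _ hW hvp h (htor k))
  have hdata : ∀ k : ℕ, 1 ≤ k → k < P.p →
      ∃ (r s : ℚ) (h : (P.freyCurve⁄Qbar).Nonsingular (r : Qbar) (s : Qbar)),
        k • T = Affine.Point.some (r : Qbar) (s : Qbar) h ∧ v (r : Qbar) ≤ 1 := by
    intro k hk1 hkp
    have hfk : ∀ σ : Qbar ≃ₐ[ℚ] Qbar, σ • (k • T) = k • T := by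
      intro σ
      rw [smul_nsmul' P.freyCurve σ k T, hfix σ]
    rcases nrt_rational P.freyCurve (k • T) hfk with h0 | ⟨r, s, h, e⟩
    · exact absurd h0 (hne k hk1 hkp)
    · refine ⟨r, s, h, e, ?_⟩
      have := hnk k hk1 hkp
      rw [e] at this
      exact not_lt.mp this
  -- two multiples in the same class
  have hpair : ∀ j k : ℕ, 1 ≤ j → j < k → k < P.p → ∀ (ε : Qbar), v ε ≤ 1 →
      ∀ (x y x' y' : Qbar) (h : (P.freyCurve⁄Qbar).Nonsingular x y)
        (h' : (P.freyCurve⁄Qbar).Nonsingular x' y'),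
        j • T = Affine.Point.some x y h → k • T = Affine.Point.some x' y' h' →
        v (x - 1) < 1 → v (y - ε) < 1 → v (x' - 1) < 1 → v (y' - ε) < 1 → False := by
    intro j k hj hjk hkp ε hε x y x' y' h h' ej ek hx hy hx' hy'
    have h1 := nrt_close P A hv2 h h' hε hx hy hx' hy'
    rw [← ej, ← ek] at h1
    have h2 : k • T - j • T = (k - j) • T := by
      have : k • T = (k - j) • T + j • T := by
        rw [← add_nsmul]
        congr 1
        omega
      rw [this, add_sub_cancel_right]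
    rw [h2] at h1
    exact hnk (k - j) (by omega) (by omega) h1
  obtain ⟨r₁, s₁, h₁, e₁, hr₁⟩ := hdata 1 le_rfl (by omega)
  obtain ⟨r₂, s₂, h₂, e₂, hr₂⟩ := hdata 2 (by omega) (by omega)
  obtain ⟨r₃, s₃, h₃, e₃, hr₃⟩ := hdata 3 (by omega) (by omega)
  have hv0 : v (0 : Qbar) ≤ 1 := by rw [map_zero]; exact zero_le
  have hv1 : v (1 : Qbar) ≤ 1 := by rw [map_one]
  rcases nrt_class P A hv2 h₁ hr₁ with c₁ | ⟨a₁, b₁⟩ | ⟨a₁, b₁⟩
  · exact nrt_node P A hv2 hXL h₁ (by rw [← e₁]; exact htor 1) c₁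
  all_goals
    rcases nrt_class P A hv2 h₂ hr₂ with c₂ | ⟨a₂, b₂⟩ | ⟨a₂, b₂⟩
    · exact nrt_node P A hv2 hXL h₂ (by rw [← e₂]; exact htor 2) c₂
    all_goals
      rcases nrt_class P A hv2 h₃ hr₃ with c₃ | ⟨a₃, b₃⟩ | ⟨a₃, b₃⟩
      · exact nrt_node P A hv2 hXL h₃ (by rw [← e₃]; exact htor 3) c₃
      all_goals
        first
        | exact hpair 1 2 le_rfl (by omega) (by omega) 0 hv0 _ _ _ _ h₁ h₂ e₁ e₂ a₁ b₁ a₂ b₂
        | exact hpair 1 2 le_rfl (by omega) (by omega) 1 hv1 _ _ _ _ h₁ h₂ e₁ e₂ a₁ b₁ a₂ b₂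
        | exact hpair 1 3 le_rfl (by omega) (by omega) 0 hv0 _ _ _ _ h₁ h₃ e₁ e₃ a₁ b₁ a₃ b₃
        | exact hpair 1 3 le_rfl (by omega) (by omega) 1 hv1 _ _ _ _ h₁ h₃ e₁ e₃ a₁ b₁ a₃ b₃
        | exact hpair 2 3 (by omega) (by omega) (by omega) 0 hv0 _ _ _ _ h₂ h₃ e₂ e₃ a₂ b₂ a₃ b₃
        | exact hpair 2 3 (by omega) (by omega) (by omega) 1 hv1 _ _ _ _ h₂ h₃ e₂ e₃ a₂ b₂ a₃ b₃

/-- the hypotheses of the folding lemma `fold_curve_gen` (M3a) for the Frey curve at a place
over `2`, with `γ = -a₄` -/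
theorem nrt_fold_hyps (hv2 : A.valuation (2 : Qbar) < 1) :
    A.valuation (-(P.freyCurve.baseChange Qbar).a₄) < 1 ∧
    -(P.freyCurve.baseChange Qbar).a₄ ≠ 0 ∧
    A.valuation (P.freyCurve.baseChange Qbar).b₂ = 1 ∧
    A.valuation (2 : Qbar) ≤ 1 ∧
    (P.freyCurve.baseChange Qbar).b₄ = -2 * (-(P.freyCurve.baseChange Qbar).a₄) ∧
    (P.freyCurve.baseChange Qbar).b₆ = 0 ∧
    (P.freyCurve.baseChange Qbar).b₈ = -(-(P.freyCurve.baseChange Qbar).a₄) ^ 2 := by
  set v := A.valuation with hv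
  obtain ⟨E, hE1, hEp, hE⟩ := nrt_val_a4 P v hv2
  have hv20 : v (2 : Qbar) ≠ 0 := (v.ne_zero_iff).mpr two_ne_zero
  have hv2' : v ((2 : ℕ) : Qbar) < 1 := by simpa using hv2
  have ha : v (-(P.freyCurve.baseChange Qbar).a₄) = v (2 : Qbar) ^ E := by
    rw [Valuation.map_neg]; exact hE
  refine ⟨?_, ?_, ?_, hv2.le, ?_, ?_, ?_⟩
  · rw [ha]; exact pow_lt_one₀ zero_le hv2 (by omega)
  · rw [← v.ne_zero_iff, ha]; exact pow_ne_zero _ hv20
  · have e : (P.freyCurve.baseChange Qbar).b₂ = ((P.b ^ P.p - P.a ^ P.p : ℤ) : Qbar) := by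
      simp only [WeierstrassCurve.baseChange, WeierstrassCurve.map_b₂, frey_b₂, eq_ratCast]
      push_cast
      ring
    rw [e]
    refine frey_val_int_eq v Nat.prime_two hv2' ?_
    intro h
    have h1 : (2 : ℤ) ∣ P.b ^ P.p := dvd_pow (nrt_two_dvd_b P) P.hp0
    have h2 : (2 : ℤ) ∣ P.a ^ P.p := by
      have := (dvd_sub_right (a := (2 : ℤ)) (b := P.b ^ P.p) (c := P.a ^ P.p) h1).mp
        (by simpa using h)
      exact this
    exact nrt_a_odd P (Int.prime_two.dvd_of_dvd_pow h2)
  · simp only [WeierstrassCurve.b₄, nrt_a₁, nrt_a₃]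
    ring
  · have h6 : (P.freyCurve.baseChange Qbar).a₆ = 0 := by
      simp [WeierstrassCurve.baseChange, FreyPackage.freyCurve]
    simp only [WeierstrassCurve.b₆, nrt_a₃, h6]
    ring
  · have h6 : (P.freyCurve.baseChange Qbar).a₆ = 0 := by
      simp [WeierstrassCurve.baseChange, FreyPackage.freyCurve]
    simp only [WeierstrassCurve.b₈, nrt_a₁, nrt_a₃, h6]
    ring

/-- **M3c**: no rational `p`-torsion on the Frey curve, given the folding lemma at the places
over `2` -/
theorem frey_no_rational_torsion_of_fold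
    (hfold : ∀ A : ValuationSubring Qbar, A.LiesOverPrime 2 → NrtFold P A)
    (x : Submodule.torsionBy ℤ (P.freyCurve⁄Qbar).Point P.p)
    (hx : ∀ σ : Qbar ≃ₐ[ℚ] Qbar, σ • x = x) : x = 0 := by
  obtain ⟨A, hA⟩ := Fermat.Agent.FrobLib.exists_liesOverPrime 2 Nat.prime_two
  apply Subtype.ext
  refine nrt_core P A hA (hfold A hA) x.1 ?_ (fun σ => congrArg Subtype.val (hx σ))
  have := x.2
  rw [Submodule.mem_torsionBy_iff] at this
  rw [← natCast_zsmul]
  exact this

end main

end Fermat.Agent.S13
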