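import Mathlib
import Fermat.Prelude.Def_FLTPrelim_Ramification
import Fermat.Agent.S05.Inertia
import Fermat.Agent.S13.NoRatTorsion

/-!
# S13, M3b (W): wiring of the contract (L2) `frey_inertia_two`

`frey_inertia_two_of`: the contract (L2) from the generic theorem (G) `inertia_two_unipotent`
(helper5, `S13/AtTwo.lean`) as a hypothesis; `M` is the submodule of the fixed points of `σ`.
`frey_two_data`: the data of the Frey curve at a place over `2` needed by (G).
-/

set_option autoImplicit false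

open WeierstrassCurve WeierstrassCurve.Affine WeierstrassCurve.Affine.Point

namespace Fermat.Agent.S13

open Fermat.Agent.S05

local notation "Qbar" => AlgebraicClosure ℚ

/-- the Galois action on the torsion commutes with the `ZMod p`-scalars -/
theorem atTwo_smul_zmod_smul {p : ℕ} {W : Affine ℚ} (σ : Qbar ≃ₐ[ℚ] Qbar) (c : ZMod p)
    (x : Submodule.torsionBy ℤ (W⁄Qbar).Point p) : σ • (c • x) = c • (σ • x) := by
  obtain ⟨n, rfl⟩ := ZMod.intCast_surjective c
  rw [Int.cast_smul_eq_zsmul, Int.cast_smul_eq_zsmul]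
  exact map_zsmul (DistribSMul.toAddMonoidHom (Submodule.torsionBy ℤ (W⁄Qbar).Point p) σ) n x

/-- the submodule of the fixed points of `σ` -/
noncomputable def fixedSubmodule {p : ℕ} {W : Affine ℚ} (σ : Qbar ≃ₐ[ℚ] Qbar) :
    Submodule (ZMod p) (Submodule.torsionBy ℤ (W⁄Qbar).Point p) where
  carrier := {x | σ • x = x}
  add_mem' := by
    intro x y hx hy
    change σ • (x + y) = x + y
    rw [smul_add, hx, hy]
  zero_mem' := smul_zero σ
  smul_mem' := by
    intro c x hx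
    change σ • (c • x) = c • x
    rw [atTwo_smul_zmod_smul, hx]

theorem mem_fixedSubmodule {p : ℕ} {W : Affine ℚ} {σ : Qbar ≃ₐ[ℚ] Qbar}
    {x : Submodule.torsionBy ℤ (W⁄Qbar).Point p} :
    x ∈ fixedSubmodule (p := p) (W := W) σ ↔ σ • x = x := Iff.rfl

/-- realises the equation lemmas of `fixedSubmodule` in this module -/
theorem fixedSubmodule_realised {p : ℕ} {W : Affine ℚ} (σ : Qbar ≃ₐ[ℚ] Qbar) : True := by
  have := @fixedSubmodule.eq_1 p W σ
  have := @fixedSubmodule.eq_def p W σ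
  have := @fixedSubmodule.eq_unfold
  trivial

/-- the data of the Frey curve at a place over `2` -/
theorem frey_two_data (P : FreyPackage) (A : ValuationSubring Qbar) (hA : A.LiesOverPrime 2) :
    A.valuation (P.p : Qbar) = 1 ∧ A.valuation (2 : Qbar) < 1 ∧
    P.freyCurve.a₁ = 1 ∧ P.freyCurve.a₃ = 0 ∧ P.freyCurve.a₆ = 0 ∧
    A.valuation ((P.freyCurve.a₂ : ℚ) : Qbar) ≤ 1 ∧
    A.valuation ((P.freyCurve.a₄ : ℚ) : Qbar) < 1 ∧ P.freyCurve.a₄ ≠ 0 := by
  have hv2 : A.valuation (2 : Qbar) < 1 := by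
    have := valuation_natCast_lt_one A hA
    simpa using this
  have h5 := P.hp5
  have hvp : A.valuation (P.p : Qbar) = 1 :=
    valuation_prime_eq_one A Nat.prime_two P.pp (by omega) hA
  have hW := nrt_isIntegralW P A.valuation hv2
  have e2 : (P.freyCurve.baseChange Qbar).a₂ = ((P.freyCurve.a₂ : ℚ) : Qbar) := by
    simp only [WeierstrassCurve.baseChange, WeierstrassCurve.map_a₂, eq_ratCast]
  have e4 : (P.freyCurve.baseChange Qbar).a₄ = ((P.freyCurve.a₄ : ℚ) : Qbar) := by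
    simp only [WeierstrassCurve.baseChange, WeierstrassCurve.map_a₄, eq_ratCast]
  obtain ⟨E, hE1, -, hE⟩ := nrt_val_a4 P A.valuation hv2
  refine ⟨hvp, hv2, rfl, rfl, rfl, ?_, ?_, ?_⟩
  · rw [← e2]; exact hW.2.1
  · rw [← e4, hE]
    exact pow_lt_one₀ zero_le hv2 (by omega)
  · have ha0 : (P.a : ℚ) ≠ 0 := by exact_mod_cast P.ha0
    have hb0 : (P.b : ℚ) ≠ 0 := by exact_mod_cast P.hb0
    change -((P.a : ℚ) ^ P.p) * (P.b : ℚ) ^ P.p / 16 ≠ 0
    exact div_ne_zero (mul_ne_zero (neg_ne_zero.mpr (pow_ne_zero _ ha0)) (pow_ne_zero _ hb0))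
      (by norm_num)

/-- **(L2), relative form**: the inertia at `2` acts unipotently on the `p`-torsion of the Frey
curve, from the generic theorem (G) as a hypothesis -/
theorem frey_inertia_two_of
    (hG : ∀ (W' : WeierstrassCurve ℚ) (A : ValuationSubring Qbar)
      (σ : Qbar ≃ₐ[ℚ] Qbar) (_ : σ ∈ A.inertiaSubgroupIn ℚ) (p : ℕ) (_ : p.Prime) (_ : p ≠ 2)
      (_ : A.valuation (p : Qbar) = 1) (_ : A.valuation (2 : Qbar) < 1)
      (_ : W'.a₁ = 1) (_ : W'.a₃ = 0) (_ : W'.a₆ = 0)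
      (_ : A.valuation ((W'.a₂ : ℚ) : Qbar) ≤ 1) (_ : A.valuation ((W'.a₄ : ℚ) : Qbar) < 1)
      (_ : W'.a₄ ≠ 0) (T : (W'⁄Qbar).Point) (_ : p • T = 0),
      σ • (σ • T - T) = σ • T - T)
    (P : FreyPackage) (A : ValuationSubring Qbar)
    (hA : A.LiesOverPrime 2) {σ : Qbar ≃ₐ[ℚ] Qbar} (hσ : σ ∈ A.inertiaSubgroupIn ℚ) :
    ∃ M : Submodule (ZMod P.p) (Submodule.torsionBy ℤ (P.freyCurve⁄Qbar).Point P.p),
      (∀ x ∈ M, σ • x = x) ∧
        (∀ x : Submodule.torsionBy ℤ (P.freyCurve⁄Qbar).Point P.p, σ • x - x ∈ M) := by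
  obtain ⟨hvp, hv2, ha1, ha3, ha6, ha2, ha4, ha40⟩ := frey_two_data P A hA
  have h5 := P.hp5
  refine ⟨fixedSubmodule (p := P.p) (W := P.freyCurve) σ, fun x hx => hx, fun x => ?_⟩
  rw [mem_fixedSubmodule]
  apply Subtype.ext
  have hT : P.p • (x : (P.freyCurve⁄Qbar).Point) = 0 := by
    have := x.2
    rw [Submodule.mem_torsionBy_iff] at this
    rw [← natCast_zsmul]
    exact this
  exact hG P.freyCurve A σ hσ P.p P.pp (by omega) hvp hv2 ha1 ha3 ha6 ha2 ha4 ha40 x.1 hT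

end Fermat.Agent.S13
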