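import Mathlib
import Fermat.Agent.S13.FoldCurveGen
import Fermat.Agent.S13.FoldValDoubleGen

/-!
# S13, piece M3a (final form): the folding lemma (XL) on a Weierstrass curve, any residue
characteristic

`fold_curve_gen`: for a curve with `b₄ = -2γ`, `b₆ = 0`, `b₈ = -γ²`, `v b₂ = 1`, `v γ < 1`,
`γ ≠ 0`, `v 2 ≤ 1`, the folding invariant `cbarP v W 0 γ` satisfies (XL) for all pairs of points.
-/

set_option autoImplicit false

open WeierstrassCurve

namespace Fermat.Agent.S13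

open Fermat.Agent.S05

variable {K : Type*} [Field K] [DecidableEq K] {Γ₀ : Type*} [LinearOrderedCommGroupWithZero Γ₀]
  (v : Valuation K Γ₀) (W : WeierstrassCurve K)

/-- **M3a**: the folding lemma (XL) for all pairs of points, node at `x = 0`, any residue
characteristic. -/
theorem fold_curve_gen {γ : K} (hγ : v γ < 1) (hγ0 : γ ≠ 0) (hB : v W.b₂ = 1)
    (h2 : v (2 : K) ≤ 1) (hb4 : W.b₄ = -2 * γ) (hb6 : W.b₆ = 0) (hb8 : W.b₈ = -γ ^ 2)
    (P Q : W.toAffine.Point) :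
    (cbarP v W 0 γ (P + Q) = Fp (v γ) (cbarP v W 0 γ P) (cbarP v W 0 γ Q) ∧
      cbarP v W 0 γ (P - Q) = Fm (cbarP v W 0 γ P) (cbarP v W 0 γ Q)) ∨
    (cbarP v W 0 γ (P + Q) = Fm (cbarP v W 0 γ P) (cbarP v W 0 γ Q) ∧
      cbarP v W 0 γ (P - Q) = Fp (v γ) (cbarP v W 0 γ P) (cbarP v W 0 γ Q)) :=
  fold_curve_gen_of v W hγ hγ0 hB h2
    (fun hne hr => fold_val_double_gen v hγ hγ0 hB h2 hne hr)
    (fun hx => fold_val_two_gen v hγ hγ0 hB h2 hx) hb4 hb6 hb8 P Q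

end Fermat.Agent.S13
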